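import Mathlib
import Fermat.Prelude.Def_FLTPrelim_GaloisRep
import Fermat.Prelude.Def_FLTPrelim_Ramification

/-!
# S05, work package W4: the inertia argument for the short Weierstrass form

Let `K` be a field with a valuation `v` (residue characteristic `≠ 2`), `W : y² = x³ + al x² + be x`
a Weierstrass curve over `K` with `v al ≤ 1`, `v be ≤ 1`, and `σ` a field endomorphism of `K`
preserving `v`, acting trivially on the residue field and fixing `al`, `be`.  Let `T` be a
subgroup of `W(K)` without `2`-torsion, stable under `σ`, all of whose non-zero points have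
integral `x`-coordinate.  Then `σ` fixes every point of `T`, provided that either the curve has
good reduction, or it has multiplicative reduction with node at `(0, 0)` and the points of `T`
near the node have `x`-coordinate of the same valuation as some `σ`-fixed element.
-/

set_option autoImplicit false

open WeierstrassCurve WeierstrassCurve.Affine

namespace Fermat.Agent.S05.H13

section Valuation

variable {K : Type*} [Field K] {Γ : Type*} [LinearOrderedCommGroupWithZero Γ] (v : Valuation K Γ)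

theorem val_le_one_of_sq {y : K} (h : v (y ^ 2) ≤ 1) : v y ≤ 1 := by
  by_contra hcon
  push Not at hcon
  have := one_lt_pow₀ hcon (n := 2) (by norm_num)
  rw [← map_pow] at this
  exact absurd h (not_le.mpr this)

theorem val_lt_one_of_sq {y : K} (h : v (y ^ 2) < 1) : v y < 1 := by
  by_contra hcon
  push Not at hcon
  have := one_le_pow₀ hcon (n := 2)
  rw [← map_pow] at this
  exact absurd h (not_lt.mpr this)

theorem val_eq_one_of_sq {y : K} (h : v (y ^ 2) = 1) : v y = 1 := by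
  refine le_antisymm (val_le_one_of_sq v h.le) ?_
  by_contra hcon
  push Not at hcon
  have h1 : v y ^ 2 < 1 := pow_lt_one₀ zero_le hcon (by norm_num)
  rw [← map_pow, h] at h1
  exact lt_irrefl _ h1

theorem val_add_eq_one {a b : K} (ha : v a = 1) (hb : v b < 1) : v (a + b) = 1 := by
  rw [← ha]
  exact Valuation.map_add_eq_of_lt_left v (by rw [ha]; exact hb)

theorem val_add_lt {a b : K} {g : Γ} (ha : v a < g) (hb : v b < g) : v (a + b) < g :=
  lt_of_le_of_lt (v.map_add a b) (max_lt ha hb)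

theorem val_sub_lt {a b : K} {g : Γ} (ha : v a < g) (hb : v b < g) : v (a - b) < g :=
  lt_of_le_of_lt (v.map_sub a b) (max_lt ha hb)

theorem val_add_le {a b : K} {g : Γ} (ha : v a ≤ g) (hb : v b ≤ g) : v (a + b) ≤ g :=
  le_trans (v.map_add a b) (max_le ha hb)

theorem val_sub_le {a b : K} {g : Γ} (ha : v a ≤ g) (hb : v b ≤ g) : v (a - b) ≤ g :=
  le_trans (v.map_sub a b) (max_le ha hb)

theorem val_mul_le_one {a b : K} (ha : v a ≤ 1) (hb : v b ≤ 1) : v (a * b) ≤ 1 := by
  rw [map_mul]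
  exact Left.mul_le_one ha hb

theorem val_mul_lt_one_left {a b : K} (ha : v a < 1) (hb : v b ≤ 1) : v (a * b) < 1 := by
  rw [map_mul]
  exact mul_lt_one_of_lt_of_le ha hb

theorem val_mul_lt_one_right {a b : K} (ha : v a ≤ 1) (hb : v b < 1) : v (a * b) < 1 := by
  rw [map_mul]
  exact Right.mul_lt_one_of_le_of_lt ha hb

theorem val_pow_le_one {a : K} (ha : v a ≤ 1) (n : ℕ) : v (a ^ n) ≤ 1 := by
  rw [map_pow]
  exact Right.pow_le_one_of_le ha

theorem val_two_mul {a : K} (h2 : v 2 = 1) : v (2 * a) = v a := by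
  rw [map_mul, h2, one_mul]

theorem val_neg_two_mul {a : K} (h2 : v 2 = 1) : v (-(2 * a)) = v a := by
  rw [Valuation.map_neg, val_two_mul v h2]

end Valuation

section Short

variable {K : Type*} [Field K] [DecidableEq K] {W : Affine K}

/-- The equation of the short form. -/
theorem short_equation (h₁ : W.a₁ = 0) (h₃ : W.a₃ = 0) (h₆ : W.a₆ = 0) {x y : K}
    (h : W.Nonsingular x y) : y ^ 2 = x ^ 3 + W.a₂ * x ^ 2 + W.a₄ * x := by
  have := (equation_iff x y).mp h.1
  rw [h₁, h₃, h₆] at this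
  linear_combination this

theorem short_negY (h₁ : W.a₁ = 0) (h₃ : W.a₃ = 0) (x y : K) : W.negY x y = -y := by
  simp [negY, h₁, h₃]

/-- A point of the short form with `y = 0` is a `2`-torsion point. -/
theorem short_add_self_of_y_eq_zero (h₁ : W.a₁ = 0) (h₃ : W.a₃ = 0) {x : K}
    (h : W.Nonsingular x 0) : Point.some x 0 h + Point.some x 0 h = 0 :=
  Point.add_self_of_Y_eq (by rw [short_negY h₁ h₃]; simp)

/-- The duplication formula for the short form. -/
theorem short_double (h₁ : W.a₁ = 0) (h₃ : W.a₃ = 0) (h₆ : W.a₆ = 0) {x y : K}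
    (h : W.Nonsingular x y) (hy : y ≠ 0) (h2 : (2 : K) ≠ 0) :
    ∃ (x₂ y₂ : K) (h' : W.Nonsingular x₂ y₂),
      Point.some x y h + Point.some x y h = Point.some x₂ y₂ h' ∧
      4 * y ^ 2 * x₂ = (x ^ 2 - W.a₄) ^ 2 := by
  have hne : y ≠ W.negY x y := by
    rw [short_negY h₁ h₃]
    intro hc
    apply hy
    have : 2 * y = 0 := by linear_combination hc
    rcases mul_eq_zero.mp this with h | h
    · exact absurd h h2
    · exact h
  refine ⟨_, _, _, Point.add_self_of_Y_ne hne, ?_⟩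
  have heq := short_equation h₁ h₃ h₆ h
  rw [addX, slope_of_Y_ne rfl hne, short_negY h₁ h₃, h₁]
  have h2y : y - -y ≠ 0 := by
    rw [sub_neg_eq_add]
    intro hc
    have : 2 * y = 0 := by linear_combination hc
    rcases mul_eq_zero.mp this with h | h
    · exact absurd h h2
    · exact hy h
  set L := (3 * x ^ 2 + 2 * W.a₂ * x + W.a₄ - 0 * y) / (y - -y) with hLdef
  have hL : 2 * y * L = 3 * x ^ 2 + 2 * W.a₂ * x + W.a₄ := by
    have h2y' : (2 : K) * y ≠ 0 := mul_ne_zero h2 hy
    have e1 : y - -y = 2 * y := by ring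
    rw [hLdef, e1, mul_div_assoc', mul_div_cancel_left₀ _ h2y']
    ring
  linear_combination (2 * y * L + (3 * x ^ 2 + 2 * W.a₂ * x + W.a₄)) * hL -
    (4 * W.a₂ + 8 * x) * heq

/-- The chord formula for `P₁ - P₂` on the short form. -/
theorem short_sub (h₁ : W.a₁ = 0) (h₃ : W.a₃ = 0) {x₁ y₁ x₂ y₂ : K}
    (hP₁ : W.Nonsingular x₁ y₁) (hP₂ : W.Nonsingular x₂ y₂) (hx : x₁ ≠ x₂) :
    ∃ (x₃ y₃ : K) (h' : W.Nonsingular x₃ y₃),
      Point.some x₁ y₁ hP₁ - Point.some x₂ y₂ hP₂ = Point.some x₃ y₃ h' ∧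
      (x₁ - x₂) ^ 2 * (x₃ + W.a₂ + x₁ + x₂) = (y₁ + y₂) ^ 2 := by
  rw [sub_eq_add_neg, Point.neg_some]
  refine ⟨_, _, _, Point.add_of_X_ne hx, ?_⟩
  rw [addX, slope_of_X_ne hx, short_negY h₁ h₃, h₁]
  have hx' : x₁ - x₂ ≠ 0 := sub_ne_zero.mpr hx
  field_simp
  ring

end Short

section Core

variable {K : Type*} [Field K] [DecidableEq K] {Γ : Type*} [LinearOrderedCommGroupWithZero Γ]
  (v : Valuation K Γ) {W : Affine K}

/-- The data of an "inertia-like" endomorphism of a valued field acting on a subgroup `T` of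
points of the short form curve `W`. -/
structure InertiaData (W : Affine K) (σ : K →+* K) (T : AddSubgroup W.Point) : Prop where
  a₁ : W.a₁ = 0
  a₃ : W.a₃ = 0
  a₆ : W.a₆ = 0
  val_a₂ : v W.a₂ ≤ 1
  val_a₄ : v W.a₄ ≤ 1
  val_two : v 2 = 1
  /-- `σ` acts trivially on the residue field -/
  val_sub : ∀ a, v a ≤ 1 → v (σ a - a) < 1
  /-- `T` is stable under `σ` -/
  stable : ∀ (x y : K) (h : W.Nonsingular x y), Point.some x y h ∈ T →
    ∃ h' : W.Nonsingular (σ x) (σ y), Point.some (σ x) (σ y) h' ∈ T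
  /-- `T` has no `2`-torsion -/
  no_two : ∀ R ∈ T, R + R = 0 → R = 0
  /-- the points of `T` are integral (no point of `T` in the kernel of reduction) -/
  integral : ∀ (x y : K) (h : W.Nonsingular x y), Point.some x y h ∈ T → v x ≤ 1

variable {v} {σ : K →+* K} {T : AddSubgroup W.Point}

theorem InertiaData.val_y (D : InertiaData v W σ T) {x y : K} {h : W.Nonsingular x y}
    (hR : Point.some x y h ∈ T) : v y ≤ 1 := by
  have hx := D.integral x y h hR
  have heq := short_equation D.a₁ D.a₃ D.a₆ h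
  apply val_le_one_of_sq
  rw [heq]
  refine val_add_le v (val_add_le v (val_pow_le_one v hx 3) ?_) ?_
  · exact val_mul_le_one v D.val_a₂ (val_pow_le_one v hx 2)
  · exact val_mul_le_one v D.val_a₄ hx

theorem InertiaData.y_ne_zero (D : InertiaData v W σ T) {x y : K} {h : W.Nonsingular x y}
    (hR : Point.some x y h ∈ T) : y ≠ 0 := by
  rintro rfl
  exact Point.some_ne_zero h (D.no_two _ hR (short_add_self_of_y_eq_zero D.a₁ D.a₃ h))

theorem InertiaData.two_ne_zero (D : InertiaData v W σ T) : (2 : K) ≠ 0 := by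
  intro h
  have := D.val_two
  rw [h, map_zero] at this
  exact zero_ne_one this

/-- The value of `(x² - a₄)²` is at most that of `y²` for a point of `T`. -/
theorem InertiaData.val_sq_le (D : InertiaData v W σ T) {x y : K} {h : W.Nonsingular x y}
    (hR : Point.some x y h ∈ T) : v ((x ^ 2 - W.a₄) ^ 2) ≤ v (y ^ 2) := by
  obtain ⟨x₂, y₂, h', hadd, hid⟩ := short_double D.a₁ D.a₃ D.a₆ h (D.y_ne_zero hR) D.two_ne_zero
  have h2R : Point.some x₂ y₂ h' ∈ T := hadd ▸ T.add_mem hR hR
  have hx₂ := D.integral _ _ _ h2R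
  rw [← hid, map_mul, map_mul]
  have h4 : v (4 : K) = 1 := by
    have : (4 : K) = 2 * 2 := by norm_num
    rw [this, map_mul, D.val_two, one_mul]
  rw [h4, one_mul]
  exact mul_le_of_le_one_right' hx₂

/-- **The final step.** If `σ x - x` and `σ y - y` have smaller valuation than `y`, then `σ`
fixes the point `(x, y)` of `T`. -/
theorem InertiaData.fixed_of_lt (D : InertiaData v W σ T) {x y : K} {h : W.Nonsingular x y}
    (hR : Point.some x y h ∈ T) (hx : v (σ x - x) < v y) (hy : v (σ y - y) < v y) :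
    σ x = x ∧ σ y = y := by
  obtain ⟨h', hσR⟩ := D.stable x y h hR
  have h2y : v (2 * y) = v y := val_two_mul v D.val_two
  have hsum : v (σ y + y) = v y := by
    have e : σ y + y = 2 * y + (σ y - y) := by ring
    rw [e, ← h2y]
    exact Valuation.map_add_eq_of_lt_left v (by rw [h2y]; exact hy)
  have hxx : σ x = x := by
    by_contra hne
    obtain ⟨x₃, y₃, h₃, hsub, hid⟩ := short_sub D.a₁ D.a₃ h' h hne
    have hQ : Point.some x₃ y₃ h₃ ∈ T := hsub ▸ T.sub_mem hσR hR
    have hx₃ := D.integral _ _ _ hQ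
    have hxA := D.integral _ _ _ hR
    have hσxA := D.integral _ _ _ hσR
    have h1 : v (x₃ + W.a₂ + σ x + x) ≤ 1 :=
      val_add_le v (val_add_le v (val_add_le v hx₃ D.val_a₂) hσxA) hxA
    have h2 : v ((σ y + y) ^ 2) ≤ v ((σ x - x) ^ 2) := by
      rw [← hid, map_mul]
      exact mul_le_of_le_one_right' h1
    rw [map_pow, map_pow, hsum] at h2
    have h3 : v (σ x - x) ^ 2 < v y ^ 2 := by
      have hy0 : v y ≠ 0 := by
        rw [ne_eq, map_eq_zero]
        exact D.y_ne_zero hR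
      exact pow_lt_pow_left₀ hx zero_le (by norm_num)
    exact absurd h2 (not_le.mpr h3)
  refine ⟨hxx, ?_⟩
  have heq := short_equation D.a₁ D.a₃ D.a₆ h
  have heq' := short_equation D.a₁ D.a₃ D.a₆ h'
  rw [hxx] at heq'
  have hsq : (σ y - y) * (σ y + y) = 0 := by linear_combination heq' - heq
  rcases mul_eq_zero.mp hsq with h0 | h0
  · exact sub_eq_zero.mp h0
  · rw [h0, map_zero] at hsum
    have : y = 0 := by
      rw [← map_eq_zero v]
      exact hsum.symm
    exact absurd this (D.y_ne_zero hR)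

/-- If `y` is a unit then `σ` fixes the point. -/
theorem InertiaData.fixed_of_val_y (D : InertiaData v W σ T) {x y : K} {h : W.Nonsingular x y}
    (hR : Point.some x y h ∈ T) (hy : v y = 1) : σ x = x ∧ σ y = y := by
  refine D.fixed_of_lt hR ?_ ?_
  · rw [hy]
    exact D.val_sub x (D.integral _ _ _ hR)
  · rw [hy]
    exact D.val_sub y (D.val_y hR)

/-- **Good reduction.** -/
theorem InertiaData.fixed_of_good (D : InertiaData v W σ T) (hbe : v W.a₄ = 1)
    (hdisc : v (W.a₂ ^ 2 - 4 * W.a₄) = 1) {x y : K} {h : W.Nonsingular x y}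
    (hR : Point.some x y h ∈ T) : σ x = x ∧ σ y = y := by
  refine D.fixed_of_val_y hR ?_
  have hx := D.integral _ _ _ hR
  have hy := D.val_y hR
  rcases lt_or_eq_of_le hy with hlt | heq1
  swap
  · exact heq1
  exfalso
  have heq := short_equation D.a₁ D.a₃ D.a₆ h
  have hy2 : v (y ^ 2) < 1 := by
    rw [map_pow]
    exact pow_lt_one₀ zero_le hlt (by norm_num)
  -- `x² ≡ a₄`
  have h1 : v (x ^ 2 - W.a₄) < 1 :=
    val_lt_one_of_sq v (lt_of_le_of_lt (D.val_sq_le hR) hy2)
  -- `x` is a unit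
  have hx1 : v x = 1 := by
    apply val_eq_one_of_sq
    have e : x ^ 2 = W.a₄ + (x ^ 2 - W.a₄) := by ring
    rw [e]
    exact val_add_eq_one v hbe h1
  -- `x² + a₂ x + a₄ ≡ 0`
  have h2 : v (x ^ 2 + W.a₂ * x + W.a₄) < 1 := by
    have e : y ^ 2 = x * (x ^ 2 + W.a₂ * x + W.a₄) := by rw [heq]; ring
    rw [e, map_mul, hx1, one_mul] at hy2
    exact hy2
  -- `a₂ x + 2 a₄ ≡ 0`
  have h3 : v (W.a₂ * x + 2 * W.a₄) < 1 := by
    have e : W.a₂ * x + 2 * W.a₄ = (x ^ 2 + W.a₂ * x + W.a₄) - (x ^ 2 - W.a₄) := by ring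
    rw [e]
    exact val_sub_lt v h2 h1
  have h4 : v (W.a₂ * x - 2 * W.a₄) ≤ 1 := by
    refine val_sub_le v (val_mul_le_one v D.val_a₂ hx) ?_
    rw [map_mul, D.val_two, one_mul]
    exact D.val_a₄
  have h5 : v (W.a₄ * (W.a₂ ^ 2 - 4 * W.a₄)) < 1 := by
    have e : W.a₄ * (W.a₂ ^ 2 - 4 * W.a₄) =
        (W.a₂ * x + 2 * W.a₄) * (W.a₂ * x - 2 * W.a₄) - W.a₂ ^ 2 * (x ^ 2 - W.a₄) := by ring
    rw [e]
    exact val_sub_lt v (val_mul_lt_one_left v h3 h4)
      (val_mul_lt_one_right v (val_pow_le_one v D.val_a₂ 2) h1)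
  rw [map_mul, hbe, hdisc, one_mul] at h5
  exact lt_irrefl _ h5

/-- **Multiplicative reduction with node at `(0, 0)`.** -/
theorem InertiaData.fixed_of_mult (D : InertiaData v W σ T) (hal : v W.a₂ = 1)
    (hbe : v W.a₄ < 1)
    (hnode : ∀ (x y : K) (h : W.Nonsingular x y), Point.some x y h ∈ T → v x < 1 → x ≠ 0 →
      v W.a₄ < v x ∧ ∃ c : K, σ c = c ∧ v c = v x)
    {x y : K} {h : W.Nonsingular x y}
    (hR : Point.some x y h ∈ T) : σ x = x ∧ σ y = y := by
  have hx := D.integral _ _ _ hR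
  have hy := D.val_y hR
  have heq := short_equation D.a₁ D.a₃ D.a₆ h
  rcases lt_or_eq_of_le hx with hxlt | hx1
  swap
  · -- `x` is a unit
    refine D.fixed_of_val_y hR ?_
    rcases lt_or_eq_of_le hy with hlt | heq1
    swap
    · exact heq1
    exfalso
    have hy2 : v (y ^ 2) < 1 := by
      rw [map_pow]
      exact pow_lt_one₀ zero_le hlt (by norm_num)
    have h1 : v (x ^ 2 - W.a₄) < 1 :=
      val_lt_one_of_sq v (lt_of_le_of_lt (D.val_sq_le hR) hy2)
    have h2 : v (x ^ 2) < 1 := by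
      have e : x ^ 2 = (x ^ 2 - W.a₄) + W.a₄ := by ring
      rw [e]
      exact val_add_lt v h1 hbe
    rw [map_pow, hx1, one_pow] at h2
    exact lt_irrefl _ h2
  -- near the node
  have hx0 : x ≠ 0 := by
    rintro rfl
    have : y ^ 2 = 0 := by rw [heq]; ring
    exact D.y_ne_zero hR (pow_eq_zero_iff (by norm_num) |>.mp this)
  obtain ⟨hlt, c, hσc, hc⟩ := hnode x y h hR hxlt hx0
  have hvx0 : v x ≠ 0 := by rw [ne_eq, map_eq_zero]; exact hx0
  have hc0 : c ≠ 0 := by
    rw [← map_ne_zero v, hc]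
    exact hvx0
  -- `t = y / x` is a unit
  set t := y / x with ht
  have hyt : y = x * t := by rw [ht]; field_simp
  have ht2 : t ^ 2 = W.a₂ + (x + W.a₄ / x) := by
    rw [ht, div_pow, heq]
    field_simp
    ring
  have hbx : v (W.a₄ / x) < 1 := by
    rw [map_div₀]
    exact (div_lt_one₀ (zero_lt_iff.mpr hvx0)).mpr hlt
  have hvt : v t = 1 := by
    apply val_eq_one_of_sq
    rw [ht2]
    exact val_add_eq_one v hal (val_add_lt v hxlt hbx)
  have hvy : v y = v x := by rw [hyt, map_mul, hvt, mul_one]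
  -- `σ x - x` is small
  have hσx : v (σ x - x) < v x := by
    have hw : v (x / c) = 1 := by
      rw [map_div₀, hc]
      exact div_self hvx0
    have h1 := D.val_sub (x / c) hw.le
    have e : σ (x / c) - x / c = (σ x - x) / c := by
      rw [map_div₀, hσc]
      ring
    rw [e, map_div₀, hc] at h1
    exact (div_lt_one₀ (zero_lt_iff.mpr hvx0)).mp h1
  have hσt : v (σ t - t) < 1 := D.val_sub t hvt.le
  have hσt' : v (σ t) ≤ 1 := by
    have e : σ t = (σ t - t) + t := by ring
    rw [e]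
    exact val_add_le v hσt.le hvt.le
  have hσy : v (σ y - y) < v x := by
    have e : σ y - y = (σ x - x) * σ t + x * (σ t - t) := by
      rw [hyt, map_mul]
      ring
    rw [e]
    refine val_add_lt v ?_ ?_
    · rw [map_mul]
      exact lt_of_le_of_lt (mul_le_of_le_one_right' hσt') hσx
    · rw [map_mul]
      exact mul_lt_of_lt_one_right (zero_lt_iff.mpr hvx0) hσt
  exact D.fixed_of_lt hR (hvy ▸ hσx) (hvy ▸ hσy)

end Core

section Galois

open WeierstrassCurve.Affine.Point

variable {R : Type*} {S : Type*} {K : Type*} [CommRing R] [CommRing S] [Field K]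
  [DecidableEq K] {W' : Affine R} [Algebra R S] [Algebra R K] [Algebra S K]
  [IsScalarTower R S K]

/-- The subgroup of `n`-torsion points. -/
def torsionSubgroup (W' : Affine R) (K : Type*) [Field K] [DecidableEq K] [Algebra R K]
    (n : ℕ) : AddSubgroup (W'⁄K).Point :=
  (nsmulAddMonoidHom (α := (W'⁄K).Point) n).ker

theorem mem_torsionSubgroup {n : ℕ} {P : (W'⁄K).Point} :
    P ∈ torsionSubgroup W' K n ↔ n • P = 0 :=
  Iff.rfl

theorem smul_some (σ : K ≃ₐ[S] K) {x y : K} (h : (W'⁄K).Nonsingular x y) :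
    σ • (Point.some x y h : (W'⁄K).Point) =
      Point.some (σ x) (σ y) ((W'.baseChange_nonsingular σ.toAlgHom.injective ..).mpr h) :=
  rfl

/-- The hypotheses of the inertia argument, for the `p`-torsion of the base change to `K` of a
short form curve over `R`, `A` a valuation subring of `K` and `σ` an automorphism of `K`. -/
theorem inertiaData_torsion (A : ValuationSubring K) (σ : K ≃ₐ[S] K)
    (h₁ : (W'⁄K).a₁ = 0) (h₃ : (W'⁄K).a₃ = 0) (h₆ : (W'⁄K).a₆ = 0)
    (hal : (W'⁄K).a₂ ∈ A) (hbe : (W'⁄K).a₄ ∈ A) (h2 : A.valuation 2 = 1)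
    (hσ : ∀ a ∈ A, σ a - a ∈ A.nonunits) {p : ℕ} (hp : Odd p)
    (hG1 : ∀ (x y : K) (h : (W'⁄K).Nonsingular x y),
      p • (Point.some x y h : (W'⁄K).Point) = 0 → x ∈ A) :
    InertiaData A.valuation (W'⁄K) (σ : K →+* K) (torsionSubgroup W' K p) where
  a₁ := h₁
  a₃ := h₃
  a₆ := h₆
  val_a₂ := (A.valuation_le_one_iff _).mpr hal
  val_a₄ := (A.valuation_le_one_iff _).mpr hbe
  val_two := h2
  val_sub := fun a ha =>
    (ValuationSubring.mem_nonunits_iff (A := A)).mp (hσ a ((A.valuation_le_one_iff _).mp ha))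
  stable := by
    intro x y h hR
    refine ⟨(W'.baseChange_nonsingular σ.toAlgHom.injective ..).mpr h, ?_⟩
    rw [mem_torsionSubgroup] at hR ⊢
    have h1 : σ • (p • (Point.some x y h : (W'⁄K).Point)) = 0 := by rw [hR, smul_zero]
    have h2 : σ • (p • (Point.some x y h : (W'⁄K).Point)) =
        p • (σ • (Point.some x y h : (W'⁄K).Point)) :=
      map_nsmul (Point.map (W' := W') σ.toAlgHom) p (Point.some x y h)
    rw [h2, smul_some] at h1
    exact h1
  no_two := by
    intro P hP h2P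
    rw [mem_torsionSubgroup] at hP
    obtain ⟨k, hk⟩ := hp
    have : (2 * k + 1) • P = k • (P + P) + P := by
      rw [add_smul, mul_smul, one_smul, two_smul, ← smul_add]
    rw [hk, this, h2P, smul_zero, zero_add] at hP
    exact hP
  integral := fun x y h hR =>
    (A.valuation_le_one_iff _).mpr (hG1 x y h (mem_torsionSubgroup.mp hR))

/-- **Inertia acts trivially on the `p`-torsion: good reduction.** -/
theorem smul_eq_self_of_good (A : ValuationSubring K) (σ : K ≃ₐ[S] K)
    (h₁ : (W'⁄K).a₁ = 0) (h₃ : (W'⁄K).a₃ = 0) (h₆ : (W'⁄K).a₆ = 0)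
    (hal : (W'⁄K).a₂ ∈ A) (h2 : A.valuation 2 = 1)
    (hσ : ∀ a ∈ A, σ a - a ∈ A.nonunits) {p : ℕ} (hp : Odd p)
    (hG1 : ∀ (x y : K) (h : (W'⁄K).Nonsingular x y),
      p • (Point.some x y h : (W'⁄K).Point) = 0 → x ∈ A)
    (hbe : A.valuation (W'⁄K).a₄ = 1)
    (hdisc : A.valuation ((W'⁄K).a₂ ^ 2 - 4 * (W'⁄K).a₄) = 1)
    (P : (W'⁄K).Point) (hP : p • P = 0) : σ • P = P := by
  have D := inertiaData_torsion A σ h₁ h₃ h₆ hal ((A.valuation_le_one_iff _).mp hbe.le) h2 hσ hp
    hG1
  rcases P with _ | ⟨x, y, h⟩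
  · rfl
  · obtain ⟨hx, hy⟩ := D.fixed_of_good hbe hdisc (mem_torsionSubgroup.mpr hP)
    rw [smul_some]
    have hx' : σ x = x := hx
    have hy' : σ y = y := hy
    simp only [hx', hy']

/-- **Inertia acts trivially on the `p`-torsion: multiplicative reduction with node at
`(0, 0)`**, assuming that `p`-torsion points near the node have `x`-coordinate `x` with
`v a₄ < v x` and `v x = v c` for some `σ`-fixed `c`. -/
theorem smul_eq_self_of_mult (A : ValuationSubring K) (σ : K ≃ₐ[S] K)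
    (h₁ : (W'⁄K).a₁ = 0) (h₃ : (W'⁄K).a₃ = 0) (h₆ : (W'⁄K).a₆ = 0)
    (h2 : A.valuation 2 = 1)
    (hσ : ∀ a ∈ A, σ a - a ∈ A.nonunits) {p : ℕ} (hp : Odd p)
    (hG1 : ∀ (x y : K) (h : (W'⁄K).Nonsingular x y),
      p • (Point.some x y h : (W'⁄K).Point) = 0 → x ∈ A)
    (hal : A.valuation (W'⁄K).a₂ = 1)
    (hbe : A.valuation (W'⁄K).a₄ < 1)
    (hnode : ∀ (x y : K) (h : (W'⁄K).Nonsingular x y),
      p • (Point.some x y h : (W'⁄K).Point) = 0 → A.valuation x < 1 → x ≠ 0 →
        A.valuation (W'⁄K).a₄ < A.valuation x ∧ ∃ c : K, σ c = c ∧ A.valuation c = A.valuation x)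
    (P : (W'⁄K).Point) (hP : p • P = 0) : σ • P = P := by
  have D := inertiaData_torsion A σ h₁ h₃ h₆ ((A.valuation_le_one_iff _).mp hal.le)
    ((A.valuation_le_one_iff _).mp hbe.le) h2 hσ hp hG1
  rcases P with _ | ⟨x, y, h⟩
  · rfl
  · obtain ⟨hx, hy⟩ := D.fixed_of_mult hal hbe
      (fun x y h hR => hnode x y h (mem_torsionSubgroup.mp hR)) (mem_torsionSubgroup.mpr hP)
    rw [smul_some]
    have hx' : σ x = x := hx
    have hy' : σ y = y := hy
    simp only [hx', hy']

end Galois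

end Fermat.Agent.S05.H13
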