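import Mathlib
import Fermat.Prelude.Def_FLTPrelim_Ramification

/-!
# Transport of the group law along an admissible change of variables

For a Weierstrass curve `W` over a field `F` and a change of variables `C = (u, r, s, t)`,
the map `(x, y) ↦ (u² x + r, u³ y + u² s x + t)` is an isomorphism of groups from the points of
`C • W` to the points of `W`.  For curves over `ℚ` base changed to an extension `K`, this
isomorphism commutes with the action of `K ≃ₐ[ℚ] K`.
-/

set_option autoImplicit false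

namespace Fermat.Agent.S05.H22

open WeierstrassCurve WeierstrassCurve.Affine

variable {F : Type*} [Field F]

/-- The `x`-coordinate of the image of `(x, y)`. -/
def vcX (C : VariableChange F) (x : F) : F := (C.u : F) ^ 2 * x + C.r

/-- The `y`-coordinate of the image of `(x, y)`. -/
def vcY (C : VariableChange F) (x y : F) : F := (C.u : F) ^ 3 * y + (C.u : F) ^ 2 * C.s * x + C.t

lemma vc_a₁ (C : VariableChange F) (W : WeierstrassCurve F) :
    (C • W).a₁ = (C.u : F)⁻¹ * (W.a₁ + 2 * C.s) := by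
  rw [variableChange_a₁, Units.val_inv_eq_inv_val]

lemma vc_a₂ (C : VariableChange F) (W : WeierstrassCurve F) :
    (C • W).a₂ = (C.u : F)⁻¹ ^ 2 * (W.a₂ - C.s * W.a₁ + 3 * C.r - C.s ^ 2) := by
  rw [variableChange_a₂, Units.val_inv_eq_inv_val]

lemma vc_a₃ (C : VariableChange F) (W : WeierstrassCurve F) :
    (C • W).a₃ = (C.u : F)⁻¹ ^ 3 * (W.a₃ + C.r * W.a₁ + 2 * C.t) := by
  rw [variableChange_a₃, Units.val_inv_eq_inv_val]

lemma vc_a₄ (C : VariableChange F) (W : WeierstrassCurve F) :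
    (C • W).a₄ = (C.u : F)⁻¹ ^ 4 * (W.a₄ - C.s * W.a₃ + 2 * C.r * W.a₂
      - (C.t + C.r * C.s) * W.a₁ + 3 * C.r ^ 2 - 2 * C.s * C.t) := by
  rw [variableChange_a₄, Units.val_inv_eq_inv_val]

lemma vc_a₆ (C : VariableChange F) (W : WeierstrassCurve F) :
    (C • W).a₆ = (C.u : F)⁻¹ ^ 6 * (W.a₆ + C.r * W.a₄ + C.r ^ 2 * W.a₂ + C.r ^ 3
      - C.t * W.a₃ - C.t ^ 2 - C.r * C.t * W.a₁) := by
  rw [variableChange_a₆, Units.val_inv_eq_inv_val]

lemma equation_vc (C : VariableChange F) (W : Affine F) (x y : F) :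
    (C • W).toAffine.Equation x y ↔ W.Equation (vcX C x) (vcY C x y) := by
  have hu : (C.u : F) ≠ 0 := C.u.ne_zero
  rw [equation_iff', equation_iff', vc_a₁, vc_a₂, vc_a₃, vc_a₄, vc_a₆, vcX, vcY]
  generalize (C.u : F) = u at hu
  constructor
  · intro h
    have h2 := congrArg (fun z => u ^ 6 * z) h
    simp only [mul_zero] at h2
    rw [← h2]
    field_simp
    ring
  · intro h
    have h2 := congrArg (fun z => u⁻¹ ^ 6 * z) h
    simp only [mul_zero] at h2
    rw [← h2]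
    field_simp
    ring

lemma negY_vc (C : VariableChange F) (W : Affine F) (x y : F) :
    W.negY (vcX C x) (vcY C x y) = vcY C x ((C • W).toAffine.negY x y) := by
  have hu : (C.u : F) ≠ 0 := C.u.ne_zero
  simp only [negY, vc_a₁, vc_a₃, vcX, vcY]
  generalize (C.u : F) = u at hu
  field_simp
  ring

lemma vcX_injective (C : VariableChange F) : Function.Injective (vcX C) := by
  intro x x' h
  have hu : (C.u : F) ^ 2 ≠ 0 := pow_ne_zero _ C.u.ne_zero
  simp only [vcX, add_left_inj] at h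
  exact mul_left_cancel₀ hu h

lemma vcY_injective (C : VariableChange F) (x : F) : Function.Injective (vcY C x) := by
  intro y y' h
  have hu : (C.u : F) ^ 3 ≠ 0 := pow_ne_zero _ C.u.ne_zero
  simp only [vcY, add_left_inj] at h
  exact mul_left_cancel₀ hu h

lemma nonsingular_vc (C : VariableChange F) (W : Affine F) (x y : F) :
    (C • W).toAffine.Nonsingular x y ↔ W.Nonsingular (vcX C x) (vcY C x y) := by
  have hu : (C.u : F) ≠ 0 := C.u.ne_zero
  rw [nonsingular_iff', nonsingular_iff', equation_vc]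
  refine and_congr_right fun _ => ?_
  rw [← not_and_or, ← not_and_or, not_iff_not]
  rw [vc_a₁, vc_a₂, vc_a₃, vc_a₄, vcX, vcY]
  generalize (C.u : F) = u at hu
  have e2 : 2 * (u ^ 3 * y + u ^ 2 * C.s * x + C.t) + W.a₁ * (u ^ 2 * x + C.r) + W.a₃
      = u ^ 3 * (2 * y + u⁻¹ * (W.a₁ + 2 * C.s) * x + u⁻¹ ^ 3 * (W.a₃ + C.r * W.a₁ + 2 * C.t)) := by
    field_simp
    ring
  have e1 : W.a₁ * (u ^ 3 * y + u ^ 2 * C.s * x + C.t)
        - (3 * (u ^ 2 * x + C.r) ^ 2 + 2 * W.a₂ * (u ^ 2 * x + C.r) + W.a₄)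
      = u ^ 4 * (u⁻¹ * (W.a₁ + 2 * C.s) * y - (3 * x ^ 2
          + 2 * (u⁻¹ ^ 2 * (W.a₂ - C.s * W.a₁ + 3 * C.r - C.s ^ 2)) * x
          + u⁻¹ ^ 4 * (W.a₄ - C.s * W.a₃ + 2 * C.r * W.a₂ - (C.t + C.r * C.s) * W.a₁
            + 3 * C.r ^ 2 - 2 * C.s * C.t)))
        - C.s * (u ^ 3 * (2 * y + u⁻¹ * (W.a₁ + 2 * C.s) * x
          + u⁻¹ ^ 3 * (W.a₃ + C.r * W.a₁ + 2 * C.t))) := by
    field_simp
    ring
  rw [e1, e2]
  constructor
  · rintro ⟨h1, h2⟩
    rw [h1, h2]
    simp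
  · rintro ⟨h1, h2⟩
    have h2' := (mul_eq_zero.mp h2).resolve_left (pow_ne_zero _ hu)
    rw [h2', mul_zero, mul_zero, sub_zero] at h1
    exact ⟨(mul_eq_zero.mp h1).resolve_left (pow_ne_zero _ hu), h2'⟩

variable [DecidableEq F]

lemma slope_vc (C : VariableChange F) (W : Affine F) {x₁ x₂ y₁ y₂ : F}
    (h₁ : (C • W).toAffine.Equation x₁ y₁) (h₂ : (C • W).toAffine.Equation x₂ y₂)
    (hxy : ¬(x₁ = x₂ ∧ y₁ = (C • W).toAffine.negY x₂ y₂)) :
    W.slope (vcX C x₁) (vcX C x₂) (vcY C x₁ y₁) (vcY C x₂ y₂)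
      = (C.u : F) * (C • W).toAffine.slope x₁ x₂ y₁ y₂ + C.s := by
  have hu : (C.u : F) ≠ 0 := C.u.ne_zero
  by_cases hx : x₁ = x₂
  · subst hx
    have hy : y₁ ≠ (C • W).toAffine.negY x₁ y₂ := fun h => hxy ⟨rfl, h⟩
    have hy' : vcY C x₁ y₁ ≠ W.negY (vcX C x₁) (vcY C x₁ y₂) := by
      rw [negY_vc]
      exact fun h => hy (vcY_injective C x₁ h)
    rw [slope_of_Y_ne rfl hy', slope_of_Y_ne rfl hy]
    have hy1 : y₁ = y₂ := Y_eq_of_Y_ne h₁ h₂ rfl hy
    subst hy1
    have hd : y₁ - (C • W).toAffine.negY x₁ y₁ ≠ 0 := sub_ne_zero.mpr hy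
    have hD : vcY C x₁ y₁ - W.negY (vcX C x₁) (vcY C x₁ y₁)
        = (C.u : F) ^ 3 * (y₁ - (C • W).toAffine.negY x₁ y₁) := by
      rw [negY_vc]
      simp only [vcY]
      ring
    have hN : 3 * vcX C x₁ ^ 2 + 2 * W.a₂ * vcX C x₁ + W.a₄ - W.a₁ * vcY C x₁ y₁
        = (C.u : F) ^ 4 * (3 * x₁ ^ 2 + 2 * (C • W).toAffine.a₂ * x₁ + (C • W).toAffine.a₄
            - (C • W).toAffine.a₁ * y₁)
          + C.s * ((C.u : F) ^ 3 * (y₁ - (C • W).toAffine.negY x₁ y₁)) := by
      simp only [negY, vc_a₁, vc_a₂, vc_a₃, vc_a₄, vcX, vcY]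
      generalize (C.u : F) = u at hu
      field_simp
      ring
    rw [hD, hN]
    generalize (C.u : F) = u at hu
    generalize y₁ - (C • W).toAffine.negY x₁ y₁ = d at hd
    field_simp
  · have hx' : vcX C x₁ ≠ vcX C x₂ := fun h => hx (vcX_injective C h)
    rw [slope_of_X_ne hx', slope_of_X_ne hx]
    have hd : x₁ - x₂ ≠ 0 := sub_ne_zero.mpr hx
    simp only [vcX, vcY]
    generalize (C.u : F) = u at hu
    have e : u ^ 2 * x₁ + C.r - (u ^ 2 * x₂ + C.r) = u ^ 2 * (x₁ - x₂) := by ring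
    rw [e]
    field_simp
    ring

omit [DecidableEq F] in
lemma addX_vc (C : VariableChange F) (W : Affine F) (x₁ x₂ ℓ : F) :
    W.addX (vcX C x₁) (vcX C x₂) ((C.u : F) * ℓ + C.s)
      = vcX C ((C • W).toAffine.addX x₁ x₂ ℓ) := by
  have hu : (C.u : F) ≠ 0 := C.u.ne_zero
  simp only [addX, vc_a₁, vc_a₂, vcX]
  generalize (C.u : F) = u at hu
  field_simp
  ring

omit [DecidableEq F] in
lemma negAddY_vc (C : VariableChange F) (W : Affine F) (x₁ x₂ y₁ ℓ : F) :
    W.negAddY (vcX C x₁) (vcX C x₂) (vcY C x₁ y₁) ((C.u : F) * ℓ + C.s)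
      = vcY C ((C • W).toAffine.addX x₁ x₂ ℓ) ((C • W).toAffine.negAddY x₁ x₂ y₁ ℓ) := by
  have hu : (C.u : F) ≠ 0 := C.u.ne_zero
  simp only [negAddY, addX_vc]
  simp only [vcX, vcY]
  generalize (C.u : F) = u at hu
  ring

omit [DecidableEq F] in
lemma addY_vc (C : VariableChange F) (W : Affine F) (x₁ x₂ y₁ ℓ : F) :
    W.addY (vcX C x₁) (vcX C x₂) (vcY C x₁ y₁) ((C.u : F) * ℓ + C.s)
      = vcY C ((C • W).toAffine.addX x₁ x₂ ℓ) ((C • W).toAffine.addY x₁ x₂ y₁ ℓ) := by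
  simp only [addY, addX_vc, negAddY_vc, negY_vc]

/-- The map on points induced by a change of variables. -/
noncomputable def vcFun (C : VariableChange F) (W : Affine F) :
    (C • W).toAffine.Point → W.Point
  | .zero => 0
  | .some x y h => .some (vcX C x) (vcY C x y) ((nonsingular_vc C W x y).mp h)

omit [DecidableEq F] in
@[simp] lemma vcFun_zero (C : VariableChange F) (W : Affine F) :
    vcFun C W (0 : (C • W).toAffine.Point) = 0 := rfl

omit [DecidableEq F] in
@[simp] lemma vcFun_some (C : VariableChange F) (W : Affine F) {x y : F}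
    (h : (C • W).toAffine.Nonsingular x y) :
    vcFun C W (.some x y h) = .some (vcX C x) (vcY C x y) ((nonsingular_vc C W x y).mp h) := rfl

lemma vcFun_add (C : VariableChange F) (W : Affine F) (P Q : (C • W).toAffine.Point) :
    vcFun C W (P + Q) = vcFun C W P + vcFun C W Q := by
  rcases P with _ | ⟨x₁, y₁, h₁⟩
  · rw [← Point.zero_def, zero_add, vcFun_zero, zero_add]
  rcases Q with _ | ⟨x₂, y₂, h₂⟩
  · rw [← Point.zero_def, add_zero, vcFun_zero, add_zero]
  by_cases hxy : x₁ = x₂ ∧ y₁ = (C • W).toAffine.negY x₂ y₂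
  · rw [Point.add_of_Y_eq hxy.1 hxy.2, vcFun_zero, vcFun_some, vcFun_some]
    refine (Point.add_of_Y_eq (congrArg _ hxy.1) ?_).symm
    rw [negY_vc, hxy.2, hxy.1]
  · have hxy' : ¬(vcX C x₁ = vcX C x₂ ∧ vcY C x₁ y₁ = W.negY (vcX C x₂) (vcY C x₂ y₂)) := by
      rintro ⟨hx, hy⟩
      have hx' := vcX_injective C hx
      subst hx'
      rw [negY_vc] at hy
      exact hxy ⟨rfl, vcY_injective C x₁ hy⟩
    rw [Point.add_some hxy, vcFun_some, vcFun_some, vcFun_some, Point.add_some hxy']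
    have hs := slope_vc C W h₁.1 h₂.1 hxy
    simp only [Point.some.injEq]
    rw [hs, addX_vc, addY_vc]
    exact ⟨rfl, rfl⟩

omit [DecidableEq F] in
lemma vcX_inv (C : VariableChange F) (x : F) : vcX C⁻¹ (vcX C x) = x := by
  have hu : (C.u : F) ≠ 0 := C.u.ne_zero
  simp only [vcX, VariableChange.inv_def, Units.val_inv_eq_inv_val]
  generalize (C.u : F) = u at hu
  field_simp
  ring

omit [DecidableEq F] in
lemma vcY_inv (C : VariableChange F) (x y : F) : vcY C⁻¹ (vcX C x) (vcY C x y) = y := by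
  have hu : (C.u : F) ≠ 0 := C.u.ne_zero
  simp only [vcX, vcY, VariableChange.inv_def, Units.val_inv_eq_inv_val]
  generalize (C.u : F) = u at hu
  field_simp
  ring

omit [DecidableEq F] in
lemma vcFun_injective (C : VariableChange F) (W : Affine F) :
    Function.Injective (vcFun C W) := by
  rintro (_ | ⟨x₁, y₁, h₁⟩) (_ | ⟨x₂, y₂, h₂⟩) h
  · rfl
  · exact absurd h (by simp [vcFun, Point.zero_def])
  · exact absurd h (by simp [vcFun, Point.zero_def])
  · simp only [vcFun_some, Point.some.injEq] at h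
    obtain ⟨hx, hy⟩ := h
    have hx' := vcX_injective C hx
    subst hx'
    have hy' := vcY_injective C x₁ hy
    subst hy'
    rfl

omit [DecidableEq F] in
lemma vcFun_surjective (C : VariableChange F) (W : Affine F) :
    Function.Surjective (vcFun C W) := by
  rintro (_ | ⟨X, Y, h⟩)
  · exact ⟨0, rfl⟩
  · have hX : vcX C (vcX C⁻¹ X) = X := by
      have := vcX_inv C⁻¹ X
      rwa [inv_inv] at this
    have hY : vcY C (vcX C⁻¹ X) (vcY C⁻¹ X Y) = Y := by
      have := vcY_inv C⁻¹ X Y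
      rwa [inv_inv] at this
    have hns : (C • W).toAffine.Nonsingular (vcX C⁻¹ X) (vcY C⁻¹ X Y) := by
      rw [nonsingular_vc, hX, hY]
      exact h
    refine ⟨.some _ _ hns, ?_⟩
    rw [vcFun_some]
    simp only [Point.some.injEq]
    exact ⟨hX, hY⟩

/-- The isomorphism of groups of points induced by a change of variables. -/
noncomputable def vcEquiv (C : VariableChange F) (W : Affine F) :
    (C • W).toAffine.Point ≃+ W.Point :=
  AddEquiv.ofBijective
    ({ toFun := vcFun C W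
       map_zero' := rfl
       map_add' := vcFun_add C W } : (C • W).toAffine.Point →+ W.Point)
    ⟨vcFun_injective C W, vcFun_surjective C W⟩

@[simp] lemma vcEquiv_apply (C : VariableChange F) (W : Affine F) (P : (C • W).toAffine.Point) :
    vcEquiv C W P = vcFun C W P := rfl

/-- Version of `vcEquiv` for a curve `W₁` which is propositionally equal to `C • W`. -/
noncomputable def vcEquivOfEq (C : VariableChange F) {W W₁ : Affine F} (h : W₁ = C • W) :
    W₁.Point ≃+ W.Point :=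
  h ▸ vcEquiv C W

lemma vcEquivOfEq_zero (C : VariableChange F) {W W₁ : Affine F} (h : W₁ = C • W) :
    vcEquivOfEq C h 0 = 0 := map_zero _

lemma vcEquivOfEq_some (C : VariableChange F) {W W₁ : Affine F} (h : W₁ = C • W) {x y : F}
    (hxy : W₁.Nonsingular x y) :
    vcEquivOfEq C h (.some x y hxy)
      = .some (vcX C x) (vcY C x y) ((nonsingular_vc C W x y).mp (h ▸ hxy)) := by
  subst h
  rfl

section Galois

variable {K : Type*} [Field K] [DecidableEq K] [Algebra ℚ K]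

/-- The isomorphism of groups of `K`-points induced by a change of variables over `ℚ`. -/
noncomputable def vcEquivBC (C₀ : VariableChange ℚ) {W₀ W₁ : WeierstrassCurve ℚ}
    (h : W₁ = C₀ • W₀) (K : Type*) [Field K] [DecidableEq K] [Algebra ℚ K] :
    (W₁⁄K).toAffine.Point ≃+ (W₀⁄K).toAffine.Point :=
  vcEquivOfEq (C₀.map (algebraMap ℚ K)) (W := W₀⁄K) (W₁ := W₁⁄K) (by
    rw [h]
    exact (map_variableChange W₀ C₀ (algebraMap ℚ K)).symm)

lemma vcEquivBC_some (C₀ : VariableChange ℚ) {W₀ W₁ : WeierstrassCurve ℚ}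
    (h : W₁ = C₀ • W₀) {x y : K} (hxy : (W₁⁄K).toAffine.Nonsingular x y) :
    ∃ hxy', vcEquivBC C₀ h K (.some x y hxy)
      = .some (algebraMap ℚ K (C₀.u : ℚ) ^ 2 * x + algebraMap ℚ K C₀.r)
          (algebraMap ℚ K (C₀.u : ℚ) ^ 3 * y + algebraMap ℚ K (C₀.u : ℚ) ^ 2
            * algebraMap ℚ K C₀.s * x + algebraMap ℚ K C₀.t) hxy' := by
  refine ⟨_, vcEquivOfEq_some _ _ hxy⟩

open WeierstrassCurve.Affine.Point in
lemma vcEquivBC_smul (C₀ : VariableChange ℚ) {W₀ W₁ : WeierstrassCurve ℚ}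
    (h : W₁ = C₀ • W₀) (σ : K ≃ₐ[ℚ] K) (P : (W₁⁄K).toAffine.Point) :
    vcEquivBC C₀ h K (σ • P) = σ • vcEquivBC C₀ h K P := by
  rcases P with _ | ⟨x, y, hxy⟩
  · have h1 : σ • (Point.zero : (W₁⁄K).toAffine.Point) = 0 := rfl
    have h2 : vcEquivBC C₀ h K (Point.zero : (W₁⁄K).toAffine.Point) = 0 := _root_.map_zero _
    have h3 : σ • (0 : (W₀⁄K).toAffine.Point) = 0 := rfl
    rw [h1, h2, _root_.map_zero, h3]
  · rw [algEquiv_smul_def, algEquiv_smul_def, Point.map_some]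
    unfold vcEquivBC
    rw [vcEquivOfEq_some, vcEquivOfEq_some, Point.map_some]
    simp only [vcX, vcY, VariableChange.map_u, VariableChange.map_r,
      VariableChange.map_s, VariableChange.map_t, Units.coe_map, MonoidHom.coe_coe,
      map_add, map_mul, map_pow, AlgHom.commutes]

open WeierstrassCurve.Affine.Point in
/-- If `σ` fixes the `n`-torsion of `W₁ = C₀ • W₀`, then it fixes the `n`-torsion of `W₀`. -/
theorem fixes_torsion_of_vc (C₀ : VariableChange ℚ) {W₀ W₁ : WeierstrassCurve ℚ}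
    (h : W₁ = C₀ • W₀) (σ : K ≃ₐ[ℚ] K) (n : ℤ)
    (hfix : ∀ P : (W₁⁄K).toAffine.Point, n • P = 0 → σ • P = P)
    (P : (W₀⁄K).toAffine.Point) (hP : n • P = 0) : σ • P = P := by
  set φ := vcEquivBC C₀ h K
  have h1 : n • φ.symm P = 0 := by
    rw [← map_zsmul, hP, _root_.map_zero]
  have h2 := hfix _ h1
  have h3 : φ (σ • φ.symm P) = σ • P := by
    rw [vcEquivBC_smul, AddEquiv.apply_symm_apply]
  rw [← h3, h2, AddEquiv.apply_symm_apply]

open WeierstrassCurve.Affine.Point in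
/-- Transfer of `GaloisRepUnramifiedAt` along a change of variables over `ℚ`. -/
theorem galoisRepUnramifiedAt_of_vc (C₀ : VariableChange ℚ) {W₀ W₁ : WeierstrassCurve ℚ}
    (h : W₁ = C₀ • W₀) (n q : ℕ)
    (H : GaloisRepUnramifiedAt (K := K) ℚ W₁ n q) :
    GaloisRepUnramifiedAt (K := K) ℚ W₀ n q := by
  intro A hA σ hσ x
  apply Subtype.ext
  show σ • (x : (W₀⁄K).toAffine.Point) = x
  refine fixes_torsion_of_vc C₀ h σ (n : ℤ) (fun P hP => ?_) _ ?_
  · have := H A hA σ hσ ⟨P, (Submodule.mem_torsionBy_iff _ _).mpr hP⟩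
    exact congrArg Subtype.val this
  · exact (Submodule.mem_torsionBy_iff _ _).mp x.2

end Galois

end Fermat.Agent.S05.H22
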