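import Mathlib
import Fermat.Prelude.Def_FLTPrelim_Ramification

/-!
# S05: basic facts on inertia groups of valuation subrings

`A` is a valuation subring of a field `L`, algebraic over `K`, and `σ` lies in the inertia
subgroup of `A` (in the sense of the prelude).
-/

set_option autoImplicit false

open scoped Pointwise

namespace Fermat.Agent.S05.H7

section general

variable {K L : Type*} [Field K] [Field L] [Algebra K L] {A : ValuationSubring L}
  {σ : L ≃ₐ[K] L}

/-- An element of the inertia subgroup lies in the decomposition subgroup. -/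
theorem mem_decomposition (hσ : σ ∈ A.inertiaSubgroupIn K) :
    σ ∈ A.decompositionSubgroup K := by
  obtain ⟨τ, -, rfl⟩ := hσ
  exact τ.2

theorem smul_eq_of_mem (hσ : σ ∈ A.decompositionSubgroup K) : σ • A = A := hσ

theorem inv_mem_decomposition (hσ : σ ∈ A.decompositionSubgroup K) :
    σ⁻¹ ∈ A.decompositionSubgroup K :=
  (A.decompositionSubgroup K).inv_mem hσ

/-- The decomposition group preserves `A`. -/
theorem apply_mem_of_decomposition (hσ : σ ∈ A.decompositionSubgroup K) {x : L} (hx : x ∈ A) :
    σ x ∈ A := by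
  have h1 : σ • x ∈ σ • A := ValuationSubring.smul_mem_pointwise_smul σ x A hx
  rw [smul_eq_of_mem hσ] at h1
  exact h1

theorem apply_mem_iff_of_decomposition (hσ : σ ∈ A.decompositionSubgroup K) {x : L} :
    σ x ∈ A ↔ x ∈ A := by
  refine ⟨fun h => ?_, apply_mem_of_decomposition hσ⟩
  have := apply_mem_of_decomposition (inv_mem_decomposition hσ) h
  simpa using this

/-- The decomposition group preserves the order of valuations. -/
theorem valuation_apply_le_iff (hσ : σ ∈ A.decompositionSubgroup K) (x y : L) :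
    A.valuation (σ x) ≤ A.valuation (σ y) ↔ A.valuation x ≤ A.valuation y := by
  by_cases hy : y = 0
  · subst hy
    simp
  have hσy : σ y ≠ 0 := by simpa using hy
  have e1 : A.valuation (σ x) ≤ A.valuation (σ y) ↔ σ (x / y) ∈ A := by
    rw [map_div₀, ← ValuationSubring.valuation_le_one_iff, map_div₀,
      div_le_one₀ (zero_lt_iff.2 ((map_ne_zero _).2 hσy))]
  have e2 : A.valuation x ≤ A.valuation y ↔ x / y ∈ A := by
    rw [← ValuationSubring.valuation_le_one_iff, map_div₀,
      div_le_one₀ (zero_lt_iff.2 ((map_ne_zero _).2 hy))]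
  rw [e1, e2, apply_mem_iff_of_decomposition hσ]

theorem valuation_apply_lt_iff (hσ : σ ∈ A.decompositionSubgroup K) (x y : L) :
    A.valuation (σ x) < A.valuation (σ y) ↔ A.valuation x < A.valuation y := by
  rw [← not_le, ← not_le, valuation_apply_le_iff hσ]

/-- Inertia acts trivially on the residue field. -/
theorem apply_sub_mem_nonunits (hσ : σ ∈ A.inertiaSubgroupIn K) {x : L} (hx : x ∈ A) :
    σ x - x ∈ A.nonunits := by
  obtain ⟨τ, hτ, rfl⟩ := hσ
  have h1 : τ • IsLocalRing.residue A ⟨x, hx⟩ = IsLocalRing.residue A ⟨x, hx⟩ := by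
    have := congrArg (fun f : RingAut (IsLocalRing.ResidueField A) =>
      f (IsLocalRing.residue A ⟨x, hx⟩)) (MonoidHom.mem_ker.1 hτ)
    exact this
  rw [← IsLocalRing.ResidueField.residue_smul] at h1
  have h2 : IsLocalRing.residue A (τ • (⟨x, hx⟩ : A) - ⟨x, hx⟩) = 0 := by
    rw [map_sub, h1, sub_self]
  rw [IsLocalRing.residue_eq_zero_iff] at h2
  exact ValuationSubring.coe_mem_nonunits_iff.2 h2

/-- In an algebraic extension every element is fixed by a positive power of a given
automorphism. -/
theorem exists_pow_apply_eq [Algebra.IsAlgebraic K L] (σ : L ≃ₐ[K] L) (x : L) :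
    ∃ n : ℕ, 0 < n ∧ (σ ^ n) x = x := by
  have hfin : ((minpoly K x).rootSet L).Finite := Polynomial.rootSet_finite _ _
  have hmem : ∀ k : ℕ, (σ ^ k) x ∈ (minpoly K x).rootSet L := by
    intro k
    have hx : IsIntegral K x := (Algebra.IsAlgebraic.isAlgebraic x).isIntegral
    rw [Polynomial.mem_rootSet]
    refine ⟨minpoly.ne_zero hx, ?_⟩
    have h1 := Polynomial.aeval_algHom_apply ((σ ^ k : L ≃ₐ[K] L) : L →ₐ[K] L) x (minpoly K x)
    rw [minpoly.aeval, map_zero] at h1
    exact h1
  have : Finite ((minpoly K x).rootSet L) := hfin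
  obtain ⟨i, j, hij, h⟩ := Finite.exists_ne_map_eq_of_infinite
    (fun k : ℕ => (⟨(σ ^ k) x, hmem k⟩ : (minpoly K x).rootSet L))
  have h' : (σ ^ i) x = (σ ^ j) x := congrArg Subtype.val h
  have key : ∀ a b : ℕ, a < b → (σ ^ a) x = (σ ^ b) x → ∃ n : ℕ, 0 < n ∧ (σ ^ n) x = x := by
    intro a b hab hx
    refine ⟨b - a, Nat.sub_pos_of_lt hab, ?_⟩
    have e : σ ^ b = σ ^ a * σ ^ (b - a) := by
      rw [← pow_add, Nat.add_sub_cancel' hab.le]
    rw [e, AlgEquiv.mul_apply] at hx
    exact ((σ ^ a).injective hx).symm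
  rcases lt_or_gt_of_ne hij with hlt | hlt
  · exact key i j hlt h'
  · exact key j i hlt h'.symm

/-- The decomposition group preserves valuations (algebraic case). -/
theorem valuation_apply_eq [Algebra.IsAlgebraic K L] (hσ : σ ∈ A.decompositionSubgroup K)
    (x : L) : A.valuation (σ x) = A.valuation x := by
  obtain ⟨n, hn, hx⟩ := exists_pow_apply_eq σ x
  have hpow : ∀ k : ℕ, σ ^ k ∈ A.decompositionSubgroup K := fun k =>
    (A.decompositionSubgroup K).pow_mem hσ k
  have step : ∀ k : ℕ, (σ ^ (k + 1)) x = (σ ^ k) (σ x) := by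
    intro k
    rw [pow_succ, AlgEquiv.mul_apply]
  rcases lt_trichotomy (A.valuation (σ x)) (A.valuation x) with h | h | h
  · exfalso
    have key : ∀ k : ℕ, A.valuation ((σ ^ (k + 1)) x) < A.valuation x := by
      intro k
      induction k with
      | zero => simpa using h
      | succ k ih =>
        have h1 : A.valuation ((σ ^ (k + 1)) (σ x)) < A.valuation ((σ ^ (k + 1)) x) :=
          (valuation_apply_lt_iff (hpow (k + 1)) (σ x) x).2 h
        rw [← step (k + 1)] at h1
        exact h1.trans ih
    obtain ⟨m, rfl⟩ : ∃ m, n = m + 1 := ⟨n - 1, by omega⟩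
    have := key m
    rw [hx] at this
    exact lt_irrefl _ this
  · exact h
  · exfalso
    have key : ∀ k : ℕ, A.valuation x < A.valuation ((σ ^ (k + 1)) x) := by
      intro k
      induction k with
      | zero => simpa using h
      | succ k ih =>
        have h1 : A.valuation ((σ ^ (k + 1)) x) < A.valuation ((σ ^ (k + 1)) (σ x)) :=
          (valuation_apply_lt_iff (hpow (k + 1)) x (σ x)).2 h
        rw [← step (k + 1)] at h1
        exact ih.trans h1
    obtain ⟨m, rfl⟩ : ∃ m, n = m + 1 := ⟨n - 1, by omega⟩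
    have := key m
    rw [hx] at this
    exact lt_irrefl _ this

theorem valuation_apply_sub_lt_one (hσ : σ ∈ A.inertiaSubgroupIn K) {x : L} (hx : x ∈ A) :
    A.valuation (σ x - x) < 1 :=
  (ValuationSubring.mem_nonunits_iff A).1 (apply_sub_mem_nonunits hσ hx)

/-- For a unit `u` of `A` and `σ` in inertia, `σ u / u ≡ 1`. -/
theorem valuation_apply_div_sub_one_lt_one (hσ : σ ∈ A.inertiaSubgroupIn K) {u : L}
    (hu : A.valuation u = 1) : A.valuation (σ u / u - 1) < 1 := by
  have hu0 : u ≠ 0 := by
    rintro rfl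
    simp at hu
  have hmem : u ∈ A := (ValuationSubring.valuation_le_one_iff A u).1 hu.le
  have h1 := valuation_apply_sub_lt_one hσ hmem
  have e : σ u / u - 1 = (σ u - u) / u := by field_simp
  rw [e, map_div₀, hu, div_one]
  exact h1

/-- If `x = c * u` with `c` fixed by `σ` and `u` a unit of `A`, then `σ x / x ≡ 1`. -/
theorem valuation_apply_div_sub_one_lt_one_of_eq_mul (hσ : σ ∈ A.inertiaSubgroupIn K)
    {x c u : L} (hc : σ c = c) (hc0 : c ≠ 0) (hu : A.valuation u = 1) (hx : x = c * u) :
    A.valuation (σ x / x - 1) < 1 := by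
  have hu0 : u ≠ 0 := by
    rintro rfl
    simp at hu
  have e : σ x / x = σ u / u := by
    rw [hx, map_mul, hc]
    field_simp
  rw [e]
  exact valuation_apply_div_sub_one_lt_one hσ hu

end general

section integers

variable {L : Type*} [Field L] {A : ValuationSubring L} {q : ℕ}

theorem intCast_mem' (n : ℤ) : (n : L) ∈ A := intCast_mem A n

theorem valuation_intCast_le_one (n : ℤ) : A.valuation (n : L) ≤ 1 :=
  (ValuationSubring.valuation_le_one_iff A _).2 (intCast_mem' n)

theorem valuation_natCast_lt_one (hA : A.LiesOverPrime q) : A.valuation (q : L) < 1 :=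
  (ValuationSubring.mem_nonunits_iff A).1 hA

/-- An integer is a non-unit of `A` iff it is divisible by `q`. -/
theorem valuation_intCast_lt_one_iff (hq : q.Prime) (hA : A.LiesOverPrime q) (n : ℤ) :
    A.valuation (n : L) < 1 ↔ (q : ℤ) ∣ n := by
  constructor
  · intro h
    by_contra hdvd
    have hcop : IsCoprime (q : ℤ) n :=
      (Int.isCoprime_iff_gcd_eq_one).2 (by
        have hp : Prime (q : ℤ) := Nat.prime_iff_prime_int.1 hq
        rcases Int.isCoprime_iff_gcd_eq_one.1 ((Prime.coprime_iff_not_dvd hp).2 hdvd) with h1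
        exact h1)
    obtain ⟨a, b, hab⟩ := hcop
    have h1 : (a : L) * (q : L) + (b : L) * (n : L) = 1 := by
      have := congrArg (fun z : ℤ => (z : L)) hab
      push_cast at this
      exact this
    have h2 : A.valuation ((a : L) * (q : L) + (b : L) * (n : L)) < 1 := by
      apply Valuation.map_add_lt
      · rw [map_mul]
        calc A.valuation (a : L) * A.valuation (q : L)
            ≤ 1 * A.valuation (q : L) := by gcongr; exact valuation_intCast_le_one a
          _ < 1 := by rw [one_mul]; exact valuation_natCast_lt_one hA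
      · rw [map_mul]
        calc A.valuation (b : L) * A.valuation (n : L)
            ≤ 1 * A.valuation (n : L) := by gcongr; exact valuation_intCast_le_one b
          _ < 1 := by rw [one_mul]; exact h
    rw [h1, map_one] at h2
    exact lt_irrefl _ h2
  · rintro ⟨m, rfl⟩
    push_cast
    rw [map_mul]
    calc A.valuation (q : L) * A.valuation (m : L)
        ≤ A.valuation (q : L) * 1 := by gcongr; exact valuation_intCast_le_one m
      _ < 1 := by rw [mul_one]; exact valuation_natCast_lt_one hA

theorem valuation_intCast_eq_one (hq : q.Prime) (hA : A.LiesOverPrime q) {n : ℤ}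
    (h : ¬ (q : ℤ) ∣ n) : A.valuation (n : L) = 1 := by
  rcases lt_or_eq_of_le (valuation_intCast_le_one (A := A) n) with h1 | h1
  · exact absurd ((valuation_intCast_lt_one_iff hq hA n).1 h1) h
  · exact h1

theorem intCast_mem_nonunits_iff (hq : q.Prime) (hA : A.LiesOverPrime q) (n : ℤ) :
    (n : L) ∈ A.nonunits ↔ (q : ℤ) ∣ n := by
  rw [ValuationSubring.mem_nonunits_iff A, valuation_intCast_lt_one_iff hq hA]

/-- The valuation of a nonzero integer is a power of the valuation of `q`. -/
theorem valuation_intCast_eq_pow (hq : q.Prime) (hA : A.LiesOverPrime q) {n : ℤ} (hn : n ≠ 0) :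
    ∃ (k : ℕ) (m : ℤ), n = (q : ℤ) ^ k * m ∧ ¬ (q : ℤ) ∣ m ∧
      A.valuation (n : L) = A.valuation (q : L) ^ k := by
  have hp : Prime (q : ℤ) := Nat.prime_iff_prime_int.1 hq
  obtain ⟨k, m, hm, hnm⟩ := WfDvdMonoid.max_power_factor hn hp.irreducible
  refine ⟨k, m, hnm, hm, ?_⟩
  rw [hnm]
  push_cast
  rw [map_mul, map_pow, valuation_intCast_eq_one hq hA hm, mul_one]

end integers

end Fermat.Agent.S05.H7
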