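import Mathlib
import Fermat.Prelude.Def_FLTPrelim_Ramification
import Fermat.Agent.S05.H7_Inertia

/-!
# S05, W6: arithmetic of the Frey curve at an odd prime `q ≠ p`

With `A = a ^ p`, `B = b ^ p`, `C = c ^ p = A + B`, the Frey curve
`Y² + XY = X³ + ((B - 1 - A)/4) X² - (AB/16) X` becomes, after the change of variables
`X = x/4 + e/4`, `Y = y/8 - x/8 - e/8`, the short curve `y² = x³ + al x² + be x` with

* `e = 0`, `al = B - A`, `be = -AB` if `q ∤ c`;
* `e = A`, `al = 2A + B`, `be = AC` if `q ∣ c`.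

In both cases `al² - 4 be` is a `q`-unit, and either `be` is a `q`-unit (good reduction) or
`al` is a `q`-unit and `be` has the valuation of the `p`-th power of a nonzero integer
(multiplicative reduction with the node at `(0, 0)`).
-/

set_option autoImplicit false
set_option linter.style.haveILetI false
set_option linter.unusedSectionVars false
set_option linter.unusedVariables false

open WeierstrassCurve

namespace Fermat.Agent.S05.H27

section Data

variable (P : FreyPackage) (q : ℕ)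

/-- The shift of the `x`-coordinate moving the node to `(0, 0)`. -/
noncomputable def freyShift : ℤ := if (q : ℤ) ∣ P.c then P.a ^ P.p else 0

/-- The coefficient `a₂` of the short model. -/
noncomputable def freyAl : ℤ :=
  if (q : ℤ) ∣ P.c then 2 * P.a ^ P.p + P.b ^ P.p else P.b ^ P.p - P.a ^ P.p

/-- The coefficient `a₄` of the short model. -/
noncomputable def freyBe : ℤ :=
  if (q : ℤ) ∣ P.c then P.a ^ P.p * P.c ^ P.p else -(P.a ^ P.p * P.b ^ P.p)

/-- The change of variables from the Frey curve to the short model. -/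
noncomputable def freyVC : VariableChange ℚ where
  u := Units.mk0 (1 / 2) (by norm_num)
  r := (freyShift P q : ℚ) / 4
  s := -1 / 2
  t := -(freyShift P q : ℚ) / 8

/-- The short model of the Frey curve adapted to the prime `q`. -/
noncomputable def freyShort : WeierstrassCurve ℚ := freyVC P q • P.freyCurve

theorem freyShort_def : freyShort P q = freyVC P q • P.freyCurve := rfl

theorem freyVC_u_inv : (((freyVC P q).u⁻¹ : ℚˣ) : ℚ) = 2 := by
  simp [freyVC]

theorem freyShort_a₁ : (freyShort P q).a₁ = 0 := by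
  rw [freyShort, variableChange_a₁, freyVC_u_inv]
  simp only [freyVC, FreyPackage.freyCurve]
  norm_num

theorem freyShort_a₃ : (freyShort P q).a₃ = 0 := by
  rw [freyShort, variableChange_a₃, freyVC_u_inv]
  simp only [freyVC, FreyPackage.freyCurve]
  ring

theorem freyShort_a₂_aux : (freyShort P q).a₂ =
    (P.b : ℚ) ^ P.p - (P.a : ℚ) ^ P.p + 3 * (freyShift P q : ℚ) := by
  rw [freyShort, variableChange_a₂, freyVC_u_inv]
  simp only [freyVC, FreyPackage.freyCurve]
  ring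

theorem freyShort_a₄_aux : (freyShort P q).a₄ =
    -((P.a : ℚ) ^ P.p * (P.b : ℚ) ^ P.p)
      + 2 * (freyShift P q : ℚ) * ((P.b : ℚ) ^ P.p - (P.a : ℚ) ^ P.p)
      + 3 * (freyShift P q : ℚ) ^ 2 := by
  rw [freyShort, variableChange_a₄, freyVC_u_inv]
  simp only [freyVC, FreyPackage.freyCurve]
  ring

theorem freyShort_a₆_aux : (freyShort P q).a₆ =
    (freyShift P q : ℚ) * ((freyShift P q : ℚ) - (P.a : ℚ) ^ P.p)
      * ((freyShift P q : ℚ) + (P.b : ℚ) ^ P.p) := by
  rw [freyShort, variableChange_a₆, freyVC_u_inv]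
  simp only [freyVC, FreyPackage.freyCurve]
  ring

theorem freyShort_a₆ : (freyShort P q).a₆ = 0 := by
  rw [freyShort_a₆_aux]
  unfold freyShift
  split_ifs <;> simp

theorem freyShort_a₂ : (freyShort P q).a₂ = (freyAl P q : ℚ) := by
  rw [freyShort_a₂_aux]
  unfold freyShift freyAl
  split_ifs <;> push_cast <;> ring

theorem freyShort_a₄ : (freyShort P q).a₄ = (freyBe P q : ℚ) := by
  rw [freyShort_a₄_aux]
  unfold freyShift freyBe
  split_ifs
  · push_cast
    have h : (P.c : ℚ) ^ P.p = (P.a : ℚ) ^ P.p + (P.b : ℚ) ^ P.p := by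
      have := congrArg (fun z : ℤ => (z : ℚ)) P.hFLT
      push_cast at this
      exact this.symm
    rw [h]
    ring
  · push_cast
    ring

end Data

section Arith

variable (P : FreyPackage) {q : ℕ}

theorem prime_int (hq : q.Prime) : Prime (q : ℤ) := Nat.prime_iff_prime_int.mp hq

theorem not_dvd_and_dvd_of_gcd {x y : ℤ} (hq : q.Prime) (hg : gcd x y = 1)
    (hx : (q : ℤ) ∣ x) (hy : (q : ℤ) ∣ y) : False := by
  have h := dvd_gcd hx hy
  rw [hg] at h
  exact (prime_int hq).not_dvd_one h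

theorem not_dvd_b_of_dvd_a (hq : q.Prime) (h : (q : ℤ) ∣ P.a) : ¬ (q : ℤ) ∣ P.b :=
  fun h' => not_dvd_and_dvd_of_gcd hq P.hgcdab h h'

theorem not_dvd_c_of_dvd_a (hq : q.Prime) (h : (q : ℤ) ∣ P.a) : ¬ (q : ℤ) ∣ P.c :=
  fun h' => not_dvd_and_dvd_of_gcd hq P.hgcdac h h'

theorem not_dvd_a_of_dvd_b (hq : q.Prime) (h : (q : ℤ) ∣ P.b) : ¬ (q : ℤ) ∣ P.a :=
  fun h' => not_dvd_and_dvd_of_gcd hq P.hgcdab h' h

theorem not_dvd_c_of_dvd_b (hq : q.Prime) (h : (q : ℤ) ∣ P.b) : ¬ (q : ℤ) ∣ P.c :=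
  fun h' => not_dvd_and_dvd_of_gcd hq P.hgcdbc h h'

theorem not_dvd_a_of_dvd_c (hq : q.Prime) (h : (q : ℤ) ∣ P.c) : ¬ (q : ℤ) ∣ P.a :=
  fun h' => not_dvd_and_dvd_of_gcd hq P.hgcdac h' h

theorem not_dvd_b_of_dvd_c (hq : q.Prime) (h : (q : ℤ) ∣ P.c) : ¬ (q : ℤ) ∣ P.b :=
  fun h' => not_dvd_and_dvd_of_gcd hq P.hgcdbc h' h

theorem dvd_pow_iff (hq : q.Prime) (x : ℤ) : (q : ℤ) ∣ x ^ P.p ↔ (q : ℤ) ∣ x :=
  ⟨fun h => (prime_int hq).dvd_of_dvd_pow h, fun h => dvd_pow h P.hp0⟩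

/-- `al² - 4 be` is a square of `b ^ p` or `c ^ p`. -/
theorem freyAl_sq_sub (q : ℕ) :
    freyAl P q ^ 2 - 4 * freyBe P q =
      if (q : ℤ) ∣ P.c then (P.b ^ P.p) ^ 2 else (P.c ^ P.p) ^ 2 := by
  unfold freyAl freyBe
  split_ifs
  · rw [← P.hFLT]; ring
  · rw [← P.hFLT]; ring

theorem freyBe_ne_zero (q : ℕ) : freyBe P q ≠ 0 := by
  unfold freyBe
  split_ifs
  · exact mul_ne_zero (pow_ne_zero _ P.ha0) (pow_ne_zero _ P.hc0)
  · exact neg_ne_zero.mpr (mul_ne_zero (pow_ne_zero _ P.ha0) (pow_ne_zero _ P.hb0))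

/-- The discriminant-type quantity `al² - 4 be` is prime to `q`. -/
theorem not_dvd_freyAl_sq_sub (hq : q.Prime) : ¬ (q : ℤ) ∣ freyAl P q ^ 2 - 4 * freyBe P q := by
  rw [freyAl_sq_sub]
  split_ifs with h
  · intro h'
    exact not_dvd_b_of_dvd_c P hq h ((dvd_pow_iff P hq _).mp ((prime_int hq).dvd_of_dvd_pow h'))
  · intro h'
    exact h ((dvd_pow_iff P hq _).mp ((prime_int hq).dvd_of_dvd_pow h'))

/-- If `q ∣ abc` then `al` is prime to `q`. -/
theorem not_dvd_freyAl (hq : q.Prime) (h : (q : ℤ) ∣ P.a * P.b * P.c) :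
    ¬ (q : ℤ) ∣ freyAl P q := by
  unfold freyAl
  split_ifs with hc
  · -- `2A + B = A + C`
    intro h'
    have h1 : (q : ℤ) ∣ P.a ^ P.p := by
      have h2 : (q : ℤ) ∣ P.c ^ P.p := (dvd_pow_iff P hq _).mpr hc
      have h3 : 2 * P.a ^ P.p + P.b ^ P.p = P.a ^ P.p + P.c ^ P.p := by
        rw [← P.hFLT]; ring
      rw [h3] at h'
      exact (dvd_add_left h2).mp h'
    exact not_dvd_a_of_dvd_c P hq hc ((dvd_pow_iff P hq _).mp h1)
  · intro h'
    rcases (prime_int hq).dvd_or_dvd h with hab | hc'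
    · rcases (prime_int hq).dvd_or_dvd hab with ha | hb
      · have h2 : (q : ℤ) ∣ P.a ^ P.p := (dvd_pow_iff P hq _).mpr ha
        have h3 : (q : ℤ) ∣ P.b ^ P.p := by
          have := dvd_add h' h2
          simpa using this
        exact not_dvd_b_of_dvd_a P hq ha ((dvd_pow_iff P hq _).mp h3)
      · have h2 : (q : ℤ) ∣ P.b ^ P.p := (dvd_pow_iff P hq _).mpr hb
        have h3 : (q : ℤ) ∣ P.a ^ P.p := by
          have := dvd_sub h2 h'
          simpa using this
        exact not_dvd_a_of_dvd_b P hq hb ((dvd_pow_iff P hq _).mp h3)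
    · exact hc hc'

/-- If `q ∤ abc` then `be` is prime to `q`. -/
theorem not_dvd_freyBe (hq : q.Prime) (h : ¬ (q : ℤ) ∣ P.a * P.b * P.c) :
    ¬ (q : ℤ) ∣ freyBe P q := by
  have hc : ¬ (q : ℤ) ∣ P.c := fun hc => h (dvd_mul_of_dvd_right hc _)
  have ha : ¬ (q : ℤ) ∣ P.a := fun ha => h (dvd_mul_of_dvd_left (dvd_mul_of_dvd_left ha _) _)
  have hb : ¬ (q : ℤ) ∣ P.b := fun hb => h (dvd_mul_of_dvd_left (dvd_mul_of_dvd_right hb _) _)
  unfold freyBe
  rw [if_neg hc, dvd_neg]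
  intro h'
  rcases (prime_int hq).dvd_or_dvd h' with h1 | h1
  · exact ha ((dvd_pow_iff P hq _).mp h1)
  · exact hb ((dvd_pow_iff P hq _).mp h1)

/-- If `q ∣ abc` then `q ∣ be`, and `be = t ^ p * m` with `t ∈ {a, b, c}` divisible by `q`
and `m` prime to `q`. -/
theorem freyBe_eq_pow_mul (hq : q.Prime) (h : (q : ℤ) ∣ P.a * P.b * P.c) :
    ∃ t m : ℤ, t ≠ 0 ∧ (q : ℤ) ∣ t ∧ ¬ (q : ℤ) ∣ m ∧ freyBe P q = t ^ P.p * m := by
  unfold freyBe
  split_ifs with hc
  · refine ⟨P.c, P.a ^ P.p, P.hc0, hc, ?_, by ring⟩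
    exact fun h' => not_dvd_a_of_dvd_c P hq hc ((dvd_pow_iff P hq _).mp h')
  · rcases (prime_int hq).dvd_or_dvd h with hab | hc'
    · rcases (prime_int hq).dvd_or_dvd hab with ha | hb
      · refine ⟨P.a, -(P.b ^ P.p), P.ha0, ha, ?_, by ring⟩
        rw [dvd_neg]
        exact fun h' => not_dvd_b_of_dvd_a P hq ha ((dvd_pow_iff P hq _).mp h')
      · refine ⟨P.b, -(P.a ^ P.p), P.hb0, hb, ?_, by ring⟩
        rw [dvd_neg]
        exact fun h' => not_dvd_a_of_dvd_b P hq hb ((dvd_pow_iff P hq _).mp h')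
    · exact absurd hc' hc

end Arith

section Val

open Fermat.Agent.S05.H7

variable {L : Type*} [Field L] (V : ValuationSubring L) (P : FreyPackage) {q : ℕ}

theorem valuation_two_eq_one (hq : q.Prime) (hV : V.LiesOverPrime q) (hq2 : q ≠ 2) :
    V.valuation (2 : L) = 1 := by
  have h : ¬ (q : ℤ) ∣ (2 : ℤ) := by
    intro h
    have h1 : q ∣ 2 := by exact_mod_cast h
    exact hq2 ((Nat.prime_dvd_prime_iff_eq hq Nat.prime_two).mp h1)
  have := valuation_intCast_eq_one (L := L) hq hV h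
  simpa using this

theorem valuation_natCast_prime_eq_one (hq : q.Prime) (hV : V.LiesOverPrime q) {p : ℕ}
    (hp : p.Prime) (hqp : q ≠ p) : V.valuation (p : L) = 1 := by
  have h : ¬ (q : ℤ) ∣ (p : ℤ) := by
    intro h
    have h1 : q ∣ p := by exact_mod_cast h
    exact hqp ((Nat.prime_dvd_prime_iff_eq hq hp).mp h1)
  have := valuation_intCast_eq_one (L := L) hq hV h
  simpa using this

theorem valuation_p_eq_one (hq : q.Prime) (hV : V.LiesOverPrime q) (hqp : q ≠ P.p) :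
    V.valuation (P.p : L) = 1 :=
  valuation_natCast_prime_eq_one V hq hV P.pp hqp

/-- `al² - 4 be` is a unit. -/
theorem valuation_disc_eq_one (hq : q.Prime) (hV : V.LiesOverPrime q) :
    V.valuation ((freyAl P q : L) ^ 2 - 4 * (freyBe P q : L)) = 1 := by
  have := valuation_intCast_eq_one (L := L) hq hV (not_dvd_freyAl_sq_sub P hq)
  push_cast at this
  exact this

theorem valuation_freyAl_le_one : V.valuation (freyAl P q : L) ≤ 1 :=
  valuation_intCast_le_one _

theorem valuation_freyBe_le_one : V.valuation (freyBe P q : L) ≤ 1 :=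
  valuation_intCast_le_one _

theorem freyAl_mem : (freyAl P q : L) ∈ V := intCast_mem V _

theorem freyBe_mem : (freyBe P q : L) ∈ V := intCast_mem V _

/-- Good reduction: `be` is a unit. -/
theorem valuation_freyBe_eq_one_of_good (hq : q.Prime) (hV : V.LiesOverPrime q)
    (h : ¬ (q : ℤ) ∣ P.a * P.b * P.c) : V.valuation (freyBe P q : L) = 1 :=
  valuation_intCast_eq_one hq hV (not_dvd_freyBe P hq h)

/-- Multiplicative reduction: `al` is a unit. -/
theorem valuation_freyAl_eq_one_of_mult (hq : q.Prime) (hV : V.LiesOverPrime q)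
    (h : (q : ℤ) ∣ P.a * P.b * P.c) : V.valuation (freyAl P q : L) = 1 :=
  valuation_intCast_eq_one hq hV (not_dvd_freyAl P hq h)

/-- Multiplicative reduction: `be` is a non-unit whose valuation is the `p`-th power of the
valuation of a nonzero integer. -/
theorem valuation_freyBe_of_mult (hq : q.Prime) (hV : V.LiesOverPrime q)
    (h : (q : ℤ) ∣ P.a * P.b * P.c) :
    V.valuation (freyBe P q : L) < 1 ∧
      ∃ t : ℤ, t ≠ 0 ∧ V.valuation (freyBe P q : L) = V.valuation (t : L) ^ P.p := by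
  obtain ⟨t, m, ht0, hqt, hqm, hbe⟩ := freyBe_eq_pow_mul P hq h
  have hm : V.valuation (m : L) = 1 := valuation_intCast_eq_one hq hV hqm
  have ht : V.valuation (t : L) < 1 := (valuation_intCast_lt_one_iff hq hV t).mpr hqt
  have e : V.valuation (freyBe P q : L) = V.valuation (t : L) ^ P.p := by
    rw [hbe]
    push_cast
    rw [map_mul, map_pow, hm, mul_one]
  refine ⟨?_, t, ht0, e⟩
  rw [e]
  exact pow_lt_one₀ zero_le ht P.hp0

/-- **Frey arithmetic at an odd prime `q ≠ p`**, valuation form. -/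
theorem frey_arith (hq : q.Prime) (hV : V.LiesOverPrime q) (hq2 : q ≠ 2) (hqp : q ≠ P.p) :
    V.valuation (2 : L) = 1 ∧ V.valuation (P.p : L) = 1 ∧
    V.valuation (freyAl P q : L) ≤ 1 ∧ V.valuation (freyBe P q : L) ≤ 1 ∧
    V.valuation ((freyAl P q : L) ^ 2 - 4 * (freyBe P q : L)) = 1 ∧
    (V.valuation (freyBe P q : L) = 1 ∨
      (V.valuation (freyAl P q : L) = 1 ∧ V.valuation (freyBe P q : L) < 1 ∧
        ∃ t : ℤ, t ≠ 0 ∧ V.valuation (freyBe P q : L) = V.valuation (t : L) ^ P.p)) := by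
  refine ⟨valuation_two_eq_one V hq hV hq2, valuation_p_eq_one V P hq hV hqp,
    valuation_freyAl_le_one V P, valuation_freyBe_le_one V P, valuation_disc_eq_one V P hq hV, ?_⟩
  by_cases h : (q : ℤ) ∣ P.a * P.b * P.c
  · exact Or.inr ⟨valuation_freyAl_eq_one_of_mult V P hq hV h, valuation_freyBe_of_mult V P hq hV h⟩
  · exact Or.inl (valuation_freyBe_eq_one_of_good V P hq hV h)

/-! ### Membership forms -/

theorem inv_mem_of_valuation_eq_one {x : L} (h : V.valuation x = 1) : x⁻¹ ∈ V := by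
  rw [← V.valuation_le_one_iff, map_inv₀, h, inv_one]

theorem two_inv_mem (hq : q.Prime) (hV : V.LiesOverPrime q) (hq2 : q ≠ 2) : (2 : L)⁻¹ ∈ V :=
  inv_mem_of_valuation_eq_one V (valuation_two_eq_one V hq hV hq2)

theorem p_inv_mem (hq : q.Prime) (hV : V.LiesOverPrime q) (hqp : q ≠ P.p) :
    ((P.p : L))⁻¹ ∈ V :=
  inv_mem_of_valuation_eq_one V (valuation_p_eq_one V P hq hV hqp)

theorem freyAl_inv_mem_of_mult (hq : q.Prime) (hV : V.LiesOverPrime q)
    (h : (q : ℤ) ∣ P.a * P.b * P.c) : ((freyAl P q : L))⁻¹ ∈ V :=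
  inv_mem_of_valuation_eq_one V (valuation_freyAl_eq_one_of_mult V P hq hV h)

theorem freyBe_inv_mem_of_good (hq : q.Prime) (hV : V.LiesOverPrime q)
    (h : ¬ (q : ℤ) ∣ P.a * P.b * P.c) : ((freyBe P q : L))⁻¹ ∈ V :=
  inv_mem_of_valuation_eq_one V (valuation_freyBe_eq_one_of_good V P hq hV h)

theorem freyBe_mem_nonunits_of_mult (hq : q.Prime) (hV : V.LiesOverPrime q)
    (h : (q : ℤ) ∣ P.a * P.b * P.c) : (freyBe P q : L) ∈ V.nonunits :=
  V.mem_nonunits_iff.mpr (valuation_freyBe_of_mult V P hq hV h).1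

theorem disc_inv_mem (hq : q.Prime) (hV : V.LiesOverPrime q) :
    ((freyAl P q : L) ^ 2 - 4 * (freyBe P q : L))⁻¹ ∈ V :=
  inv_mem_of_valuation_eq_one V (valuation_disc_eq_one V P hq hV)

theorem freyBe_cast_ne_zero [CharZero L] : (freyBe P q : L) ≠ 0 :=
  Int.cast_ne_zero.mpr (freyBe_ne_zero P q)

/-- A square root of `al` exists in an algebraically closed field. -/
theorem exists_sq_eq_freyAl [IsAlgClosed L] : ∃ ρ : L, ρ ^ 2 = (freyAl P q : L) :=
  IsAlgClosed.exists_pow_nat_eq _ (by norm_num)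

end Val

section BaseChange

variable (P : FreyPackage) (q : ℕ) (K : Type*) [Field K] [Algebra ℚ K]

theorem freyShort_baseChange_a₁ : ((freyShort P q)⁄K).a₁ = 0 := by
  rw [WeierstrassCurve.baseChange, WeierstrassCurve.map_a₁, freyShort_a₁, map_zero]

theorem freyShort_baseChange_a₃ : ((freyShort P q)⁄K).a₃ = 0 := by
  rw [WeierstrassCurve.baseChange, WeierstrassCurve.map_a₃, freyShort_a₃, map_zero]

theorem freyShort_baseChange_a₆ : ((freyShort P q)⁄K).a₆ = 0 := by
  rw [WeierstrassCurve.baseChange, WeierstrassCurve.map_a₆, freyShort_a₆, map_zero]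

theorem freyShort_baseChange_a₂ : ((freyShort P q)⁄K).a₂ = (freyAl P q : K) := by
  rw [WeierstrassCurve.baseChange, WeierstrassCurve.map_a₂, freyShort_a₂, map_intCast]

theorem freyShort_baseChange_a₄ : ((freyShort P q)⁄K).a₄ = (freyBe P q : K) := by
  rw [WeierstrassCurve.baseChange, WeierstrassCurve.map_a₄, freyShort_a₄, map_intCast]

/-- The same five statements for the curve written as `(freyVC P q • P.freyCurve)⁄K`. -/
theorem freyVC_smul_baseChange :
    ((freyVC P q • P.freyCurve)⁄K).a₁ = 0 ∧ ((freyVC P q • P.freyCurve)⁄K).a₃ = 0 ∧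
    ((freyVC P q • P.freyCurve)⁄K).a₆ = 0 ∧
    ((freyVC P q • P.freyCurve)⁄K).a₂ = (freyAl P q : K) ∧
    ((freyVC P q • P.freyCurve)⁄K).a₄ = (freyBe P q : K) :=
  ⟨freyShort_baseChange_a₁ P q K, freyShort_baseChange_a₃ P q K, freyShort_baseChange_a₆ P q K,
    freyShort_baseChange_a₂ P q K, freyShort_baseChange_a₄ P q K⟩

end BaseChange

section ValCurve

variable (P : FreyPackage) {q : ℕ} {K : Type*} [Field K] [Algebra ℚ K] (V : ValuationSubring K)

/-- **Frey arithmetic at an odd prime `q ≠ p`**, stated on the coefficients of the base-changed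
short model `W = (freyVC P q • P.freyCurve)⁄K`. -/
theorem frey_arith_curve (hq : q.Prime) (hV : V.LiesOverPrime q) (hq2 : q ≠ 2) (hqp : q ≠ P.p) :
    V.valuation (2 : K) = 1 ∧ V.valuation (P.p : K) = 1 ∧
    ((freyVC P q • P.freyCurve)⁄K).a₂ ∈ V ∧ ((freyVC P q • P.freyCurve)⁄K).a₄ ∈ V ∧
    V.valuation (((freyVC P q • P.freyCurve)⁄K).a₂ ^ 2
      - 4 * ((freyVC P q • P.freyCurve)⁄K).a₄) = 1 ∧
    (V.valuation ((freyVC P q • P.freyCurve)⁄K).a₄ = 1 ∨
      (V.valuation ((freyVC P q • P.freyCurve)⁄K).a₂ = 1 ∧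
        V.valuation ((freyVC P q • P.freyCurve)⁄K).a₄ < 1 ∧
        ∃ t : ℤ, t ≠ 0 ∧
          V.valuation ((freyVC P q • P.freyCurve)⁄K).a₄ = V.valuation (t : K) ^ P.p)) := by
  obtain ⟨-, -, -, h2, h4⟩ := freyVC_smul_baseChange P q K
  rw [h2, h4]
  obtain ⟨a, b, c, d, e, f⟩ := frey_arith V P hq hV hq2 hqp
  exact ⟨a, b, freyAl_mem V P, freyBe_mem V P, e, f⟩

theorem freyShort_baseChange_a₄_ne_zero [CharZero K] (q : ℕ) :
    ((freyVC P q • P.freyCurve)⁄K).a₄ ≠ 0 := by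
  rw [(freyVC_smul_baseChange P q K).2.2.2.2]
  exact freyBe_cast_ne_zero (L := K) P

theorem exists_sq_eq_a₂ [IsAlgClosed K] (q : ℕ) :
    ∃ ρ : K, ρ ^ 2 = ((freyVC P q • P.freyCurve)⁄K).a₂ := by
  rw [(freyVC_smul_baseChange P q K).2.2.2.1]
  exact exists_sq_eq_freyAl (L := K) P

end ValCurve

end Fermat.Agent.S05.H27
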