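import Mathlib

/-!
# S05, work package W1 (helper19): Vieta / collinearity / `x`-only formulas on short curves

A Weierstrass curve is *short* when `a₁ = a₃ = a₆ = 0`, i.e. it is
`y² = x³ + a₂ x² + a₄ x`.  All statements are about Mathlib's `WeierstrassCurve.Affine.Point`.

Main results (namespace `Fermat.Agent.S05.Vieta`):
* `IsShort`, `IsShort.equation_iff`, `IsShort.negY`, `IsShort.neg_some`
* `line_of_add_some` : the sum of two affine points that are not opposite, with the line through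
  them and the three Vieta relations
* `line_of_add_eq_zero` : three affine points summing to zero are collinear, with Vieta
* `add_self_of_y_ne_zero`, `add_self_of_y_eq_zero` : doubling
* `xonly_add_sub` : the `x`-only identities for `P₁ + P₂`, `P₁ - P₂`
-/

open WeierstrassCurve WeierstrassCurve.Affine

namespace Fermat.Agent.S05.Vieta

variable {F : Type*} [Field F]

/-- The curve is `y² = x³ + a₂ x² + a₄ x`. -/
structure IsShort (W : Affine F) : Prop where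
  a₁ : W.a₁ = 0
  a₃ : W.a₃ = 0
  a₆ : W.a₆ = 0

namespace IsShort

variable {W : Affine F} (hW : IsShort W)
include hW

lemma equation_iff (x y : F) :
    W.Equation x y ↔ y ^ 2 = x ^ 3 + W.a₂ * x ^ 2 + W.a₄ * x := by
  rw [Affine.equation_iff, hW.a₁, hW.a₃, hW.a₆]
  constructor <;> intro h <;> linear_combination h

lemma negY (x y : F) : W.negY x y = -y := by
  simp [Affine.negY, hW.a₁, hW.a₃]

lemma nonsingular_iff (x y : F) :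
    W.Nonsingular x y ↔ y ^ 2 = x ^ 3 + W.a₂ * x ^ 2 + W.a₄ * x ∧
      (3 * x ^ 2 + 2 * W.a₂ * x + W.a₄ ≠ 0 ∨ y + y ≠ 0) := by
  rw [Affine.nonsingular_iff, hW.equation_iff, hW.a₁, hW.a₃]
  refine and_congr_right fun _ => or_congr ?_ ?_
  · rw [zero_mul, ne_comm]
  · rw [zero_mul, sub_zero, sub_zero, ne_eq, ne_eq, not_iff_not]
    constructor <;> intro h <;> linear_combination h

lemma nonsingular_neg {x y : F} (h : W.Nonsingular x y) : W.Nonsingular x (-y) := by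
  have := (Affine.nonsingular_neg x y).mpr h
  rwa [hW.negY] at this

lemma neg_some [DecidableEq F] {x y : F} (h : W.Nonsingular x y) :
    -(Point.some x y h) = Point.some x (-y) (hW.nonsingular_neg h) := by
  rw [Point.neg_some]
  congr 1
  exact hW.negY x y

lemma addX (x₁ x₂ ℓ : F) : W.addX x₁ x₂ ℓ = ℓ ^ 2 - W.a₂ - x₁ - x₂ := by
  simp [Affine.addX, hW.a₁]

lemma addY (x₁ x₂ y₁ ℓ : F) :
    W.addY x₁ x₂ y₁ ℓ = -(ℓ * (W.addX x₁ x₂ ℓ - x₁) + y₁) := by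
  rw [Affine.addY, hW.negY, Affine.negAddY]

end IsShort

section Line

variable [DecidableEq F] {W : Affine F}

/-- **Sum of two affine points** on a short curve: if `P₁ ≠ -P₂`, there is a line `y = L x + N`
through `P₁` and `P₂` (tangent if `P₁ = P₂`), the sum is `(x₃, -(L x₃ + N))`, and the Vieta
relations hold. -/
theorem line_of_add_some (hW : IsShort W) {x₁ y₁ x₂ y₂ : F} (h₁ : W.Nonsingular x₁ y₁)
    (h₂ : W.Nonsingular x₂ y₂) (hxy : ¬(x₁ = x₂ ∧ y₁ = -y₂)) :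
    ∃ (L N x₃ : F) (h₃ : W.Nonsingular x₃ (-(L * x₃ + N))),
      Point.some x₁ y₁ h₁ + Point.some x₂ y₂ h₂ = Point.some x₃ (-(L * x₃ + N)) h₃ ∧
      L = W.slope x₁ x₂ y₁ y₂ ∧
      y₁ = L * x₁ + N ∧ y₂ = L * x₂ + N ∧
      x₁ + x₂ + x₃ = L ^ 2 - W.a₂ ∧
      x₁ * x₂ + x₁ * x₃ + x₂ * x₃ = W.a₄ - 2 * L * N ∧
      x₁ * x₂ * x₃ = N ^ 2 := by
  have hxy' : ¬(x₁ = x₂ ∧ y₁ = W.negY x₂ y₂) := by rwa [hW.negY]
  set L := W.slope x₁ x₂ y₁ y₂ with hL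
  set x₃ := W.addX x₁ x₂ L with hx₃
  have hx₃' : x₃ = L ^ 2 - W.a₂ - x₁ - x₂ := hW.addX x₁ x₂ L
  have hsum := Point.add_some hxy' (h₁ := h₁) (h₂ := h₂)
  have hY : W.addY x₁ x₂ y₁ L = -(L * x₃ + (y₁ - L * x₁)) := by
    rw [hW.addY]; ring
  have hns : W.Nonsingular x₃ (-(L * x₃ + (y₁ - L * x₁))) := by
    rw [← hY]; exact Affine.nonsingular_add h₁ h₂ hxy'
  have hy₂ : y₂ = L * x₂ + (y₁ - L * x₁) := by
    by_cases hx : x₁ = x₂
    · have hy : y₁ ≠ W.negY x₂ y₂ := fun h => hxy' ⟨hx, h⟩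
      have := Affine.Y_eq_of_Y_ne h₁.1 h₂.1 hx hy
      rw [← this, hx]; ring
    · have hx' : x₁ - x₂ ≠ 0 := sub_ne_zero.mpr hx
      rw [hL, Affine.slope_of_X_ne hx]
      field_simp
      ring
  -- Vieta from the factorisation of the addition polynomial
  have hpoly := Affine.addPolynomial_slope h₁.1 h₂.1 hxy'
  rw [Affine.addPolynomial_eq, neg_inj, Cubic.prod_X_sub_C_eq, Cubic.toPoly_injective] at hpoly
  have hc := congrArg Cubic.c hpoly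
  have hd := congrArg Cubic.d hpoly
  simp only [hW.a₁, hW.a₃, hW.a₆] at hc hd
  refine ⟨L, y₁ - L * x₁, x₃, hns, ?_, rfl, by ring, hy₂, by rw [hx₃']; ring, ?_, ?_⟩
  · rw [hsum]
    congr 1
  · rw [← hx₃, ← hL] at hc
    linear_combination -hc
  · rw [← hx₃, ← hL] at hd
    linear_combination hd

/-- **Collinearity**: three affine points on a short curve with `P₁ + P₂ + P₃ = 0` lie on a line
`y = L x + N`, and the Vieta relations hold. -/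
theorem line_of_add_eq_zero (hW : IsShort W) {x₁ y₁ x₂ y₂ x₃ y₃ : F}
    {h₁ : W.Nonsingular x₁ y₁} {h₂ : W.Nonsingular x₂ y₂} {h₃ : W.Nonsingular x₃ y₃}
    (h : Point.some x₁ y₁ h₁ + Point.some x₂ y₂ h₂ + Point.some x₃ y₃ h₃ = 0) :
    ∃ L N : F, y₁ = L * x₁ + N ∧ y₂ = L * x₂ + N ∧ y₃ = L * x₃ + N ∧
      x₁ + x₂ + x₃ = L ^ 2 - W.a₂ ∧
      x₁ * x₂ + x₁ * x₃ + x₂ * x₃ = W.a₄ - 2 * L * N ∧
      x₁ * x₂ * x₃ = N ^ 2 := by
  have h12 : Point.some x₁ y₁ h₁ + Point.some x₂ y₂ h₂ = -Point.some x₃ y₃ h₃ :=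
    eq_neg_of_add_eq_zero_left h
  have hxy : ¬(x₁ = x₂ ∧ y₁ = -y₂) := by
    rintro ⟨hx, hy⟩
    rw [Point.add_of_Y_eq hx (by rw [hW.negY]; exact hy)] at h12
    exact Point.some_ne_zero _ (neg_eq_zero.mp h12.symm)
  obtain ⟨L, N, x, hns, hsum, -, e₁, e₂, v₁, v₂, v₃⟩ := line_of_add_some hW h₁ h₂ hxy
  rw [hsum, hW.neg_some, Point.some.injEq] at h12
  obtain ⟨rfl, hy⟩ := h12
  exact ⟨L, N, e₁, e₂, by linear_combination hy, v₁, v₂, v₃⟩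

/-- **Difference of two affine points** on a short curve: the same as `line_of_add_some` for
`P₁ + (-P₂)`. -/
theorem line_of_sub_some (hW : IsShort W) {x₁ y₁ x₂ y₂ : F} (h₁ : W.Nonsingular x₁ y₁)
    (h₂ : W.Nonsingular x₂ y₂) (hxy : ¬(x₁ = x₂ ∧ y₁ = y₂)) :
    ∃ (L N x₃ : F) (h₃ : W.Nonsingular x₃ (-(L * x₃ + N))),
      Point.some x₁ y₁ h₁ - Point.some x₂ y₂ h₂ = Point.some x₃ (-(L * x₃ + N)) h₃ ∧
      L = W.slope x₁ x₂ y₁ (-y₂) ∧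
      y₁ = L * x₁ + N ∧ -y₂ = L * x₂ + N ∧
      x₁ + x₂ + x₃ = L ^ 2 - W.a₂ ∧
      x₁ * x₂ + x₁ * x₃ + x₂ * x₃ = W.a₄ - 2 * L * N ∧
      x₁ * x₂ * x₃ = N ^ 2 := by
  have hxy' : ¬(x₁ = x₂ ∧ y₁ = - -y₂) := by rwa [neg_neg]
  obtain ⟨L, N, x₃, h₃, hsum, hL, r⟩ :=
    line_of_add_some hW h₁ (hW.nonsingular_neg h₂) hxy'
  refine ⟨L, N, x₃, h₃, ?_, hL, r⟩
  rw [sub_eq_add_neg, hW.neg_some, hsum]

/-- **Doubling** on a short curve, `y ≠ 0`. -/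
theorem add_self_of_y_ne_zero (hW : IsShort W) (h2 : (2 : F) ≠ 0) {x y : F}
    (h : W.Nonsingular x y) (hy : y ≠ 0) :
    ∃ (x' y' : F) (h' : W.Nonsingular x' y'),
      Point.some x y h + Point.some x y h = Point.some x' y' h' ∧
      x' * (4 * y ^ 2) = (x ^ 2 - W.a₄) ^ 2 ∧
      x' = ((3 * x ^ 2 + 2 * W.a₂ * x + W.a₄) / (2 * y)) ^ 2 - W.a₂ - 2 * x := by
  have hxy : ¬(x = x ∧ y = -y) := by
    rintro ⟨-, hy'⟩
    have : 2 * y = 0 := by linear_combination hy'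
    rcases mul_eq_zero.mp this with h0 | h0
    · exact h2 h0
    · exact hy h0
  obtain ⟨L, N, x₃, h₃, hsum, hL, e₁, -, v₁, v₂, v₃⟩ := line_of_add_some hW h h hxy
  refine ⟨x₃, _, h₃, hsum, ?_, ?_⟩
  · have hβ : W.a₄ = x * x + x * x₃ + x * x₃ + 2 * L * N := by linear_combination -v₂
    rw [hβ, e₁]
    linear_combination (-4 * (x₃ - L ^ 2)) * v₃
  · have hne : y ≠ W.negY x y := by
      rw [hW.negY]; exact fun h' => hxy ⟨rfl, h'⟩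
    have hL' : L = (3 * x ^ 2 + 2 * W.a₂ * x + W.a₄) / (2 * y) := by
      rw [hL, Affine.slope_of_Y_ne rfl hne, hW.negY, hW.a₁]
      congr 1
      · ring
      · ring
    rw [← hL']
    linear_combination v₁

/-- **Doubling** on a short curve, `y = 0`: the point is `2`-torsion. -/
theorem add_self_of_y_eq_zero (hW : IsShort W) {x y : F} (h : W.Nonsingular x y)
    (hy : y = 0) : Point.some x y h + Point.some x y h = 0 :=
  Point.add_self_of_Y_eq (by rw [hW.negY, hy, neg_zero])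

/-- **`x`-only identities** for `P₁ + P₂` and `P₁ - P₂` on a short curve (`x₁ ≠ x₂`). -/
theorem xonly_add_sub (hW : IsShort W) {x₁ y₁ x₂ y₂ : F} (h₁ : W.Nonsingular x₁ y₁)
    (h₂ : W.Nonsingular x₂ y₂) (hx : x₁ ≠ x₂) :
    ∃ (Xp Yp Xm Ym : F) (hp : W.Nonsingular Xp Yp) (hm : W.Nonsingular Xm Ym),
      Point.some x₁ y₁ h₁ + Point.some x₂ y₂ h₂ = Point.some Xp Yp hp ∧
      Point.some x₁ y₁ h₁ - Point.some x₂ y₂ h₂ = Point.some Xm Ym hm ∧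
      (x₁ - x₂) ^ 2 * Xp = (y₁ - y₂) ^ 2 - (W.a₂ + x₁ + x₂) * (x₁ - x₂) ^ 2 ∧
      (x₁ - x₂) ^ 2 * Xm = (y₁ + y₂) ^ 2 - (W.a₂ + x₁ + x₂) * (x₁ - x₂) ^ 2 ∧
      (x₁ - x₂) ^ 2 * (Xp + Xm) =
        2 * (x₁ * x₂ + W.a₄) * (x₁ + x₂) + 4 * W.a₂ * (x₁ * x₂) ∧
      (x₁ - x₂) ^ 2 * (Xp * Xm) = (x₁ * x₂ - W.a₄) ^ 2 := by
  have hd : x₁ - x₂ ≠ 0 := sub_ne_zero.mpr hx
  have hd2 : (x₁ - x₂) ^ 2 ≠ 0 := pow_ne_zero 2 hd
  have E₁ := (hW.equation_iff x₁ y₁).mp h₁.1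
  have E₂ := (hW.equation_iff x₂ y₂).mp h₂.1
  obtain ⟨Lp, Np, Xp, hp, hsum, hLp, -, -, vp, -, -⟩ :=
    line_of_add_some hW h₁ h₂ (fun h => hx h.1)
  obtain ⟨Lm, Nm, Xm, hm, hdiff, hLm, -, -, vm, -, -⟩ :=
    line_of_sub_some hW h₁ h₂ (fun h => hx h.1)
  rw [Affine.slope_of_X_ne hx] at hLp hLm
  have hXp : (x₁ - x₂) ^ 2 * Xp = (y₁ - y₂) ^ 2 - (W.a₂ + x₁ + x₂) * (x₁ - x₂) ^ 2 := by
    have : Xp = ((y₁ - y₂) / (x₁ - x₂)) ^ 2 - W.a₂ - x₁ - x₂ := by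
      rw [← hLp]; linear_combination vp
    rw [this]
    field_simp
    ring
  have hXm : (x₁ - x₂) ^ 2 * Xm = (y₁ + y₂) ^ 2 - (W.a₂ + x₁ + x₂) * (x₁ - x₂) ^ 2 := by
    have : Xm = ((y₁ - -y₂) / (x₁ - x₂)) ^ 2 - W.a₂ - x₁ - x₂ := by
      rw [← hLm]; linear_combination vm
    rw [this]
    field_simp
    ring
  refine ⟨Xp, _, Xm, _, hp, hm, hsum, hdiff, hXp, hXm, ?_, ?_⟩
  · rw [mul_add, hXp, hXm]
    linear_combination 2 * E₁ + 2 * E₂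
  · apply mul_left_cancel₀ hd2
    have : (x₁ - x₂) ^ 2 * ((x₁ - x₂) ^ 2 * (Xp * Xm)) =
        ((x₁ - x₂) ^ 2 * Xp) * ((x₁ - x₂) ^ 2 * Xm) := by ring
    rw [this, hXp, hXm]
    linear_combination
      (y₁ ^ 2 - y₂ ^ 2 + (x₁ ^ 3 + W.a₂ * x₁ ^ 2 + W.a₄ * x₁)
        - (x₂ ^ 3 + W.a₂ * x₂ ^ 2 + W.a₄ * x₂)
        - 2 * ((W.a₂ + x₁ + x₂) * (x₁ - x₂) ^ 2)) * E₁ +
      (-(y₁ ^ 2 - y₂ ^ 2 + (x₁ ^ 3 + W.a₂ * x₁ ^ 2 + W.a₄ * x₁)
        - (x₂ ^ 3 + W.a₂ * x₂ ^ 2 + W.a₄ * x₂))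
        - 2 * ((W.a₂ + x₁ + x₂) * (x₁ - x₂) ^ 2)) * E₂

end Line

end Fermat.Agent.S05.Vieta
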