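import Fermat.Agent.S05.W3_Main
import Fermat.Agent.S05.H7_Inertia
import Fermat.Agent.S05.H7_Kernel
import Fermat.Agent.S05.H13_Inertia
import Fermat.Agent.S05.H22_VarChange
import Fermat.Agent.S05.H27_FreyArith

/-!
# S05, final assembly (helper20, hedge): the Frey representation is unramified at odd `q ≠ p`
-/

set_option autoImplicit false

open WeierstrassCurve WeierstrassCurve.Affine WeierstrassCurve.Affine.Point

namespace Fermat.Agent.S05.H20F

/-- Inertia at `q` fixes the `p`-torsion of the short model of the Frey curve. -/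
theorem short_fixed (P : FreyPackage) {q : ℕ} (hq : q.Prime) (hq2 : q ≠ 2) (hqp : q ≠ P.p)
    (A : ValuationSubring (AlgebraicClosure ℚ)) (hA : A.LiesOverPrime q)
    (σ : AlgebraicClosure ℚ ≃ₐ[ℚ] AlgebraicClosure ℚ) (hσ : σ ∈ A.inertiaSubgroupIn ℚ)
    (R : ((H27.freyVC P q • P.freyCurve)⁄(AlgebraicClosure ℚ)).Point) (hR : P.p • R = 0) :
    σ • R = R := by
  obtain ⟨h2, hp, hal, hbe, hdisc, hcase⟩ := H27.frey_arith_curve P A hq hA hq2 hqp
  obtain ⟨h₁, h₃, h₆, -, -⟩ := H27.freyVC_smul_baseChange P q (AlgebraicClosure ℚ)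
  have hσ' : ∀ a ∈ A, σ a - a ∈ A.nonunits := fun a ha => H7.apply_sub_mem_nonunits hσ ha
  have hodd : Odd P.p := P.pp.odd_of_ne_two (by have := P.hp5; omega)
  have hG1 : ∀ (x y : AlgebraicClosure ℚ)
      (h : ((H27.freyVC P q • P.freyCurve)⁄(AlgebraicClosure ℚ)).Nonsingular x y),
      P.p • (Point.some x y h :
        ((H27.freyVC P q • P.freyCurve)⁄(AlgebraicClosure ℚ)).Point) = 0 → x ∈ A :=
    fun x y h h0 => H7K.mem_of_nsmul_eq_zero A ⟨h₁, h₃, h₆⟩ hal hbe h2 h hp h0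
  rcases hcase with hgood | ⟨hal1, hbe1, t, ht, hvt⟩
  · exact H13.smul_eq_self_of_good A σ h₁ h₃ h₆ hal h2 hσ' hodd hG1 hgood hdisc R hR
  · obtain ⟨ρ, hρ⟩ := H27.exists_sq_eq_a₂ P (K := AlgebraicClosure ℚ) q
    have hD : W3.NodeData A ((H27.freyVC P q • P.freyCurve)⁄(AlgebraicClosure ℚ)) ρ :=
      ⟨⟨h₁, h₃, h₆⟩, h2, hal1, hρ, hbe1, H27.freyShort_baseChange_a₄_ne_zero P q⟩
    refine H13.smul_eq_self_of_mult A σ h₁ h₃ h₆ h2 hσ' hodd hG1 hal1 hbe1 ?_ R hR
    intro x y h h0 hx hx0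
    obtain ⟨hM, k, hk⟩ := W3.torsion_near_node_val hD hodd h h0 hx hvt
    refine ⟨hM, (t : AlgebraicClosure ℚ) ^ (2 * k), ?_, hk.symm⟩
    rw [map_zpow₀, map_intCast]

/-- **S05**: the mod-`p` representation of the Frey curve is unramified at every prime
`q ≠ 2, p`. -/
theorem frey_unramified (P : FreyPackage) {q : ℕ} (hq : q.Prime) (hq2 : q ≠ 2) (hqp : q ≠ P.p) :
    P.GaloisRepUnramifiedAt q := by
  unfold FreyPackage.GaloisRepUnramifiedAt
  refine H22.galoisRepUnramifiedAt_of_vc (K := AlgebraicClosure ℚ) (H27.freyVC P q)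
    (W₀ := P.freyCurve) (W₁ := H27.freyVC P q • P.freyCurve) rfl P.p q ?_
  intro A hA σ hσ x
  apply Subtype.ext
  have hx : P.p • (x : ((H27.freyVC P q • P.freyCurve)⁄(AlgebraicClosure ℚ)).Point) = 0 := by
    have := (Submodule.mem_torsionBy_iff _ _).mp x.2
    exact_mod_cast this
  exact short_fixed P hq hq2 hqp A hA σ hσ _ hx

end Fermat.Agent.S05.H20F
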