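import Mathlib.AlgebraicGeometry.EllipticCurve.Affine.Point
import Mathlib.RingTheory.Valuation.Basic

/-!
# S05, work package W4: the core inertia argument (generic form)

Setting: a field `K` with a valuation `v`, a ring endomorphism `σ` of `K` acting trivially on the
residue field (`v a ≤ 1 → v (σ a - a) < 1`), a short Weierstrass curve
`W : y² = x³ + α x² + β x` over `K` with `v`-integral coefficients, and an additive map `Φ` on the
points of `W` with `Φ (x, y) = (σ x, σ y)`.

Under the hypothesis that the kernel of reduction `{v x > 1}` contains no point killed by the odd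
number `p` (work package W2) we show that `σ` fixes the coordinates of every point killed by `p`

* in the case of good reduction (`β` and `α² - 4β` units), and
* in the case of multiplicative reduction (`α` unit), provided that the `p`-torsion points which
  reduce to the node have `v β < v x` and `v x = v τ` for some `σ`-fixed `τ` (work package W3).
-/

set_option autoImplicit false
set_option linter.unusedSectionVars false
set_option linter.unusedVariables false

namespace Fermat.Agent.S05.H10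

open WeierstrassCurve WeierstrassCurve.Affine

variable {K : Type*} [Field K] [DecidableEq K]
variable {Γ₀ : Type*} [LinearOrderedCommGroupWithZero Γ₀]

/-- Short Weierstrass form `y² = x³ + a₂ x² + a₄ x`. -/
structure IsShort (W : WeierstrassCurve K) : Prop where
  a₁ : W.a₁ = 0
  a₃ : W.a₃ = 0
  a₆ : W.a₆ = 0

/-- The kernel of reduction `{(x, y) : v x > 1}` has no nonzero point killed by `p`. -/
def NoTorsionInKernel (v : Valuation K Γ₀) (W : WeierstrassCurve K) (p : ℕ) : Prop :=
  ∀ (x y : K) (h : W.toAffine.Nonsingular x y), 1 < v x → p • (Point.some x y h) ≠ 0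

variable {v : Valuation K Γ₀} {W : WeierstrassCurve K}

lemma IsShort.equation (hW : IsShort W) {x y : K} (h : W.toAffine.Equation x y) :
    y ^ 2 = x ^ 3 + W.a₂ * x ^ 2 + W.a₄ * x := by
  have := (W.toAffine.equation_iff x y).mp h
  rw [hW.a₁, hW.a₃, hW.a₆] at this
  linear_combination this

lemma IsShort.negY (hW : IsShort W) (x y : K) : W.toAffine.negY x y = -y := by
  simp [Affine.negY, hW.a₁, hW.a₃]

/-! ### Valuation helpers -/

lemma val_le_one_of_sq {a : K} (h : v (a ^ 2) ≤ 1) : v a ≤ 1 := by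
  by_contra hcon
  rw [not_le] at hcon
  have : 1 < v a ^ 2 := one_lt_pow₀ hcon (by norm_num)
  rw [map_pow] at h
  exact absurd h (not_le.mpr this)

lemma val_eq_one_of_sq {a : K} (h : v (a ^ 2) = 1) : v a = 1 := by
  rw [map_pow] at h
  exact (pow_eq_one_iff_of_nonneg zero_le (by norm_num)).mp h

lemma val_add_le_one {a b : K} (ha : v a ≤ 1) (hb : v b ≤ 1) : v (a + b) ≤ 1 :=
  (v.map_add a b).trans (max_le ha hb)

lemma val_sub_le_one {a b : K} (ha : v a ≤ 1) (hb : v b ≤ 1) : v (a - b) ≤ 1 :=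
  (v.map_sub a b).trans (max_le ha hb)

lemma val_mul_le_one {a b : K} (ha : v a ≤ 1) (hb : v b ≤ 1) : v (a * b) ≤ 1 := by
  rw [map_mul]; exact mul_le_one' ha hb

lemma val_pow_le_one {a : K} (ha : v a ≤ 1) (n : ℕ) : v (a ^ n) ≤ 1 := by
  rw [map_pow]; exact pow_le_one' ha n

lemma val_add_lt_one {a b : K} (ha : v a < 1) (hb : v b < 1) : v (a + b) < 1 :=
  (v.map_add a b).trans_lt (max_lt ha hb)

lemma val_sub_lt_one {a b : K} (ha : v a < 1) (hb : v b < 1) : v (a - b) < 1 :=
  (v.map_sub a b).trans_lt (max_lt ha hb)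

lemma val_mul_lt_one_left {a b : K} (ha : v a < 1) (hb : v b ≤ 1) : v (a * b) < 1 := by
  rw [map_mul]
  calc v a * v b ≤ v a * 1 := by gcongr
    _ = v a := mul_one _
    _ < 1 := ha

lemma val_mul_lt_one_right {a b : K} (ha : v a ≤ 1) (hb : v b < 1) : v (a * b) < 1 := by
  rw [mul_comm]; exact val_mul_lt_one_left hb ha

lemma val_natCast_le_one (v : Valuation K Γ₀) (n : ℕ) : v (n : K) ≤ 1 := by
  induction n with
  | zero => simp
  | succ n ih =>
    rw [Nat.cast_succ]
    exact val_add_le_one ih (by rw [map_one])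

/-- unit + nonunit is a unit -/
lemma val_add_eq_one {a b : K} (ha : v a = 1) (hb : v b < 1) : v (a + b) = 1 := by
  rw [← ha]
  exact v.map_add_eq_of_lt_left (by rw [ha]; exact hb)


/-! ### Points killed by an odd number -/

/-- A point killed by an odd number has `y ≠ 0`. -/
lemma y_ne_zero_of_torsion (hW : IsShort W) {p : ℕ} (hp : Odd p) {x y : K}
    (h : W.toAffine.Nonsingular x y) (hP : p • Point.some x y h = 0) : y ≠ 0 := by
  intro hy
  have h2 : Point.some x y h + Point.some x y h = 0 :=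
    Point.add_self_of_Y_eq (by rw [hW.negY, hy, neg_zero])
  obtain ⟨k, rfl⟩ := hp
  have : (2 * k + 1) • Point.some x y h = Point.some x y h := by
    rw [add_smul, one_smul, mul_comm, mul_smul, two_smul, h2, smul_zero, zero_add]
  rw [this] at hP
  exact Point.some_ne_zero h hP

/-- The doubling formula `x(2P) * 4y² = (x² - β)²`. -/
lemma double_X (hW : IsShort W) (h2 : (2 : K) ≠ 0) {x y : K}
    (h : W.toAffine.Nonsingular x y) (hy : y ≠ 0) :
    ∃ (x' y' : K) (h' : W.toAffine.Nonsingular x' y'),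
      Point.some x y h + Point.some x y h = Point.some x' y' h' ∧
      x' * (4 * y ^ 2) = (x ^ 2 - W.a₄) ^ 2 := by
  have hne : y ≠ W.toAffine.negY x y := by
    rw [hW.negY]
    intro hc
    have : 2 * y = 0 := by linear_combination hc
    rcases mul_eq_zero.mp this with h | h
    exacts [h2 h, hy h]
  refine ⟨_, _, _, Point.add_self_of_Y_ne hne, ?_⟩
  rw [Affine.addX, Affine.slope_of_Y_ne rfl hne, hW.negY, hW.a₁]
  have heq := hW.equation h.1
  have h4 : (4 : K) ≠ 0 := by
    have : (4 : K) = 2 * 2 := by norm_num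
    rw [this]; exact mul_ne_zero h2 h2
  have hden : y - -y = 2 * y := by ring
  rw [hden]
  field_simp
  linear_combination (-(16 * (W.a₂ + 2 * x))) * heq


/-- Points killed by `p` have integral `x`-coordinate. -/
lemma x_integral {p : ℕ} (H2 : NoTorsionInKernel v W p) {x y : K}
    (h : W.toAffine.Nonsingular x y) (hP : p • Point.some x y h = 0) : v x ≤ 1 := by
  by_contra hcon
  rw [not_le] at hcon
  exact H2 x y h hcon hP

/-- Integral `x` forces integral `y`. -/
lemma y_integral (hW : IsShort W) (hα : v W.a₂ ≤ 1) (hβ : v W.a₄ ≤ 1) {x y : K}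
    (h : W.toAffine.Equation x y) (hx : v x ≤ 1) : v y ≤ 1 := by
  apply val_le_one_of_sq
  rw [hW.equation h]
  exact val_add_le_one (val_add_le_one (val_pow_le_one hx 3)
    (val_mul_le_one hα (val_pow_le_one hx 2))) (val_mul_le_one hβ hx)

/-- If a point killed by the odd number `p` does not reduce to a singular point
(`x² - β` is a unit), then `y` is a unit. -/
lemma y_unit_of_not_node (hW : IsShort W) (hα : v W.a₂ ≤ 1) (hβ : v W.a₄ ≤ 1) (h2 : v 2 = 1)
    {p : ℕ} (hp : Odd p) (H2 : NoTorsionInKernel v W p) {x y : K}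
    (h : W.toAffine.Nonsingular x y) (hP : p • Point.some x y h = 0)
    (hnode : v (x ^ 2 - W.a₄) = 1) : v y = 1 := by
  have hx := x_integral H2 h hP
  have hy1 := y_integral hW hα hβ h.1 hx
  rcases hy1.lt_or_eq with hlt | heq
  swap
  · exact heq
  exfalso
  have hy0 := y_ne_zero_of_torsion hW hp h hP
  have h20 : (2 : K) ≠ 0 := by
    intro h0
    rw [h0, map_zero] at h2
    exact zero_ne_one h2
  obtain ⟨x', y', h', hadd, hx'⟩ := double_X hW h20 h hy0
  -- `2P` is killed by `p`
  have hP2 : p • Point.some x' y' h' = 0 := by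
    rw [← hadd, smul_add, hP, add_zero]
  have hx'1 := x_integral H2 h' hP2
  -- valuation of `x' * 4 y²`
  have hv : v (x' * (4 * y ^ 2)) = 1 := by
    rw [hx', map_pow, hnode, one_pow]
  have h4 : v (4 * y ^ 2) < 1 := by
    have : (4 : K) = 2 * 2 := by norm_num
    rw [map_mul, this, map_mul, h2, one_mul, one_mul, map_pow]
    exact pow_lt_one₀ zero_le hlt (by norm_num)
  have : v (x' * (4 * y ^ 2)) < 1 := val_mul_lt_one_right hx'1 h4
  rw [hv] at this
  exact lt_irrefl _ this


/-- The valuation of `addX` when the slope is not integral. -/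
lemma one_lt_val_addX (hW : IsShort W) (hα : v W.a₂ ≤ 1) {x₁ x₂ ℓ : K} (hx₁ : v x₁ ≤ 1)
    (hx₂ : v x₂ ≤ 1) (hℓ : 1 < v ℓ) : 1 < v (W.toAffine.addX x₁ x₂ ℓ) := by
  have h1 : W.toAffine.addX x₁ x₂ ℓ = ℓ ^ 2 - (W.a₂ + x₁ + x₂) := by
    rw [Affine.addX, hW.a₁]; ring
  have h2 : v (W.a₂ + x₁ + x₂) ≤ 1 := val_add_le_one (val_add_le_one hα hx₁) hx₂
  have h3 : 1 < v (ℓ ^ 2) := by
    rw [map_pow]; exact one_lt_pow₀ hℓ (by norm_num)
  rw [h1, v.map_sub_eq_of_lt_left (h2.trans_lt h3)]
  exact h3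

/-- **The slope argument.** If the slope of the line through `σ P` and `-P` is not integral
(whenever `σ x ≠ x`) and `σ y ≠ -y`, then `σ` fixes the point `P` killed by `p`. -/
lemma fixed_of_slope (hW : IsShort W) (hα : v W.a₂ ≤ 1)
    {p : ℕ} (H2 : NoTorsionInKernel v W p)
    (σ : K →+* K) (hσ : ∀ a, v a ≤ 1 → v (σ a - a) < 1)
    (Φ : W.toAffine.Point →+ W.toAffine.Point)
    (hΦ : ∀ (x y : K) (h : W.toAffine.Nonsingular x y),
      ∃ h' : W.toAffine.Nonsingular (σ x) (σ y), Φ (Point.some x y h) = Point.some (σ x) (σ y) h')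
    {x y : K} (h : W.toAffine.Nonsingular x y) (hP : p • Point.some x y h = 0)
    (hslope : σ x ≠ x → 1 < v ((σ y + y) / (σ x - x)))
    (hneg : σ x = x → σ y ≠ -y) : σ x = x ∧ σ y = y := by
  have hx := x_integral H2 h hP
  obtain ⟨h', hΦP⟩ := hΦ x y h
  have hσx : v (σ x) ≤ 1 := by
    have : σ x = (σ x - x) + x := by ring
    rw [this]
    exact val_add_le_one (hσ x hx).le hx
  have hxx : σ x = x := by
    by_contra hne
    have hℓ := hslope hne
    have hQ : Point.some (σ x) (σ y) h' + -Point.some x y h =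
        Point.some _ _ (nonsingular_add h' ((nonsingular_neg ..).mpr h)
          (fun hxy => hne hxy.1)) := by
      rw [Point.neg_some]; exact Point.add_of_X_ne hne
    have hpQ : p • (Point.some (σ x) (σ y) h' + -Point.some x y h) = 0 := by
      rw [smul_add, smul_neg, hP, neg_zero, add_zero, ← hΦP, ← map_nsmul, hP, map_zero]
    rw [hQ] at hpQ
    refine H2 _ _ _ ?_ hpQ
    apply one_lt_val_addX hW hα hσx hx
    rw [Affine.slope_of_X_ne hne, hW.negY, sub_neg_eq_add]
    exact hℓ
  refine ⟨hxx, ?_⟩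
  have e1 := hW.equation h.1
  have e2 := hW.equation h'.1
  rw [hxx] at e2
  have : (σ y - y) * (σ y + y) = 0 := by linear_combination e2 - e1
  rcases mul_eq_zero.mp this with h0 | h0
  · exact sub_eq_zero.mp h0
  · exact absurd (eq_neg_of_add_eq_zero_left h0) (hneg hxx)


lemma one_lt_val_div {a b : K} (ha : v a = 1) (hb : v b < 1) (hb0 : b ≠ 0) : 1 < v (a / b) := by
  rw [map_div₀, ha, one_div]
  exact (one_lt_inv₀ (v.pos_iff.mpr hb0)).mpr hb

/-- **Unit case**: a point killed by `p` whose `y`-coordinate is a unit is fixed by `σ`. -/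
lemma fixed_of_unit_y (hW : IsShort W) (hα : v W.a₂ ≤ 1) (h2 : v 2 = 1)
    {p : ℕ} (H2 : NoTorsionInKernel v W p)
    (σ : K →+* K) (hσ : ∀ a, v a ≤ 1 → v (σ a - a) < 1)
    (Φ : W.toAffine.Point →+ W.toAffine.Point)
    (hΦ : ∀ (x y : K) (h : W.toAffine.Nonsingular x y),
      ∃ h' : W.toAffine.Nonsingular (σ x) (σ y), Φ (Point.some x y h) = Point.some (σ x) (σ y) h')
    {x y : K} (h : W.toAffine.Nonsingular x y) (hP : p • Point.some x y h = 0)
    (hy : v y = 1) : σ x = x ∧ σ y = y := by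
  have hx := x_integral H2 h hP
  have h2y : v (2 * y) = 1 := by rw [map_mul, h2, hy, one_mul]
  have hσy := hσ y hy.le
  refine fixed_of_slope hW hα H2 σ hσ Φ hΦ h hP (fun hne => ?_) (fun _ hc => ?_)
  · apply one_lt_val_div _ (hσ x hx) (sub_ne_zero.mpr hne)
    have : σ y + y = 2 * y + (σ y - y) := by ring
    rw [this]
    exact val_add_eq_one h2y hσy
  · have : σ y - y = -(2 * y) := by rw [hc]; ring
    rw [this, Valuation.map_neg, h2y] at hσy
    exact lt_irrefl _ hσy

/-- **Good reduction**: if `β` and `α² - 4β` are units, no integral point with `y` a non-unit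
has `x² - β` a non-unit. -/
lemma not_node_of_good (hW : IsShort W) (hα : v W.a₂ ≤ 1) (hβ : v W.a₄ = 1)
    (hΔ : v (W.a₂ ^ 2 - 4 * W.a₄) = 1) {x y : K} (h : W.toAffine.Equation x y) (hx : v x ≤ 1)
    (hy : v y < 1) : v (x ^ 2 - W.a₄) = 1 := by
  have hint : v (x ^ 2 - W.a₄) ≤ 1 := val_sub_le_one (val_pow_le_one hx 2) hβ.le
  rcases hint.lt_or_eq with hlt | heq
  swap
  · exact heq
  exfalso
  have e := hW.equation h
  have hy2 : v (x * (x ^ 2 + W.a₂ * x + W.a₄)) < 1 := by
    have : x * (x ^ 2 + W.a₂ * x + W.a₄) = y ^ 2 := by rw [e]; ring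
    rw [this, map_pow]
    exact pow_lt_one₀ zero_le hy (by norm_num)
  have hq : v (x ^ 2 + W.a₂ * x + W.a₄) ≤ 1 :=
    val_add_le_one (val_add_le_one (val_pow_le_one hx 2) (val_mul_le_one hα hx)) hβ.le
  -- `x` is a unit, since otherwise `β` is not
  have hx1 : v x = 1 := by
    rcases hx.lt_or_eq with hxlt | hxeq
    · exfalso
      have : W.a₄ = x * x - (x ^ 2 - W.a₄) := by ring
      have hb : v W.a₄ < 1 := by
        rw [this]
        exact val_sub_lt_one (val_mul_lt_one_left hxlt hx) hlt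
      rw [hβ] at hb
      exact lt_irrefl _ hb
    · exact hxeq
  have hq1 : v (x ^ 2 + W.a₂ * x + W.a₄) < 1 := by
    rw [map_mul, hx1, one_mul] at hy2
    exact hy2
  have h1 : v (W.a₂ * x + 2 * W.a₄) < 1 := by
    have : W.a₂ * x + 2 * W.a₄ = (x ^ 2 + W.a₂ * x + W.a₄) - (x ^ 2 - W.a₄) := by ring
    rw [this]
    exact val_sub_lt_one hq1 hlt
  have h2 : v (W.a₂ * x - 2 * W.a₄) ≤ 1 := by
    have : W.a₂ * x - 2 * W.a₄ = (W.a₂ * x + 2 * W.a₄) - 4 * W.a₄ := by ring
    rw [this]
    refine val_sub_le_one h1.le ?_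
    have h4 : v (4 : K) ≤ 1 := by
      have : (4 : K) = ((4 : ℕ) : K) := by norm_num
      rw [this]
      exact val_natCast_le_one v 4
    exact val_mul_le_one h4 hβ.le
  have key : W.a₄ * (W.a₂ ^ 2 - 4 * W.a₄) =
      (W.a₂ * x + 2 * W.a₄) * (W.a₂ * x - 2 * W.a₄) - W.a₂ ^ 2 * (x ^ 2 - W.a₄) := by ring
  have : v (W.a₄ * (W.a₂ ^ 2 - 4 * W.a₄)) < 1 := by
    rw [key]
    exact val_sub_lt_one (val_mul_lt_one_left h1 h2)
      (val_mul_lt_one_right (val_pow_le_one hα 2) hlt)
  rw [map_mul, hβ, hΔ, one_mul] at this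
  exact lt_irrefl _ this


/-- **Node case**: a point killed by `p` which reduces to the node `(0, 0)`, with
`v β < v x` (not on the "middle component") and `v x = v τ` for a `σ`-fixed `τ`,
is fixed by `σ`. -/
lemma fixed_of_node (hW : IsShort W) (hα : v W.a₂ = 1) (h2 : v 2 = 1)
    {p : ℕ} (H2 : NoTorsionInKernel v W p)
    (σ : K →+* K) (hσ : ∀ a, v a ≤ 1 → v (σ a - a) < 1)
    (Φ : W.toAffine.Point →+ W.toAffine.Point)
    (hΦ : ∀ (x y : K) (h : W.toAffine.Nonsingular x y),
      ∃ h' : W.toAffine.Nonsingular (σ x) (σ y), Φ (Point.some x y h) = Point.some (σ x) (σ y) h')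
    {x y : K} (h : W.toAffine.Nonsingular x y) (hP : p • Point.some x y h = 0)
    (hx : v x < 1) (hβx : v W.a₄ < v x) {τ : K} (hτ : σ τ = τ) (hxτ : v x = v τ) :
    σ x = x ∧ σ y = y := by
  have hvx0 : v x ≠ 0 := (lt_of_le_of_lt zero_le hβx).ne'
  have hx0 : x ≠ 0 := (v.ne_zero_iff).mp hvx0
  have hτ0 : τ ≠ 0 := (v.ne_zero_iff).mp (hxτ ▸ hvx0)
  have e := hW.equation h.1
  -- `t = y / x` is a unit
  set t : K := y / x with ht
  have hyt : y = t * x := by rw [ht]; field_simp
  have ht2 : t ^ 2 = W.a₂ + (x + W.a₄ / x) := by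
    rw [ht]; field_simp; linear_combination e
  have hβx' : v (W.a₄ / x) < 1 := by
    rw [map_div₀]
    exact (div_lt_one₀ (lt_of_le_of_lt zero_le hβx)).mpr hβx
  have hvt : v t = 1 := by
    apply val_eq_one_of_sq
    rw [ht2]
    exact val_add_eq_one hα (val_add_lt_one hx hβx')
  -- `u = x / τ` is a unit
  set u : K := x / τ with hu
  have hxu : x = u * τ := by rw [hu]; field_simp
  have hvu : v u = 1 := by
    rw [hu, map_div₀, hxτ]
    exact div_self (hxτ ▸ hvx0)
  have hσu := hσ u hvu.le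
  have hσt := hσ t hvt.le
  have hσx : σ x = σ u * τ := by
    conv_lhs => rw [hxu, map_mul, hτ]
  have hσy : σ y = σ t * σ x := by
    conv_lhs => rw [hyt, map_mul]
  have h2t : v (2 * t) = 1 := by rw [map_mul, h2, hvt, one_mul]
  have hst : v (σ t + t) = 1 := by
    have : σ t + t = 2 * t + (σ t - t) := by ring
    rw [this]
    exact val_add_eq_one h2t hσt
  have hσt1 : v (σ t) ≤ 1 := by
    have : σ t = (σ t - t) + t := by ring
    rw [this]
    exact val_add_le_one hσt.le hvt.le
  refine fixed_of_slope hW hα.le H2 σ hσ Φ hΦ h hP (fun hne => ?_) (fun hxx hc => ?_)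
  · have hune : σ u - u ≠ 0 := by
      intro h0
      apply hne
      rw [hσx, sub_eq_zero.mp h0, ← hxu]
    have key : (σ y + y) / (σ x - x) = σ t + (σ t + t) * (u / (σ u - u)) := by
      have ey : y = t * (u * τ) := by rw [← hxu]; exact hyt
      have e1 : σ y + y = σ t * (σ u * τ) + t * (u * τ) := by
        rw [hσy, hσx, ← ey]
      have e2 : σ x - x = σ u * τ - u * τ := by
        rw [hσx, ← hxu]
      rw [e1, e2]
      have : σ u * τ - u * τ ≠ 0 := by
        rw [← sub_mul]; exact mul_ne_zero hune hτ0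
      field_simp
      ring
    rw [key]
    have h1 : 1 < v ((σ t + t) * (u / (σ u - u))) := by
      rw [map_mul, hst, one_mul]
      exact one_lt_val_div hvu hσu hune
    rw [v.map_add_eq_of_lt_right (hσt1.trans_lt h1)]
    exact h1
  · have h1 : σ t * x = -(t * x) := by rw [← hyt, ← hc, hσy, hxx]
    have h3 : σ t - t = -(2 * t) := by
      have : (σ t + t) * x = 0 := by linear_combination h1
      rcases mul_eq_zero.mp this with h0 | h0
      · linear_combination h0
      · exact absurd h0 hx0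
    rw [h3, Valuation.map_neg, h2t] at hσt
    exact lt_irrefl _ hσt

/-- **Core theorem (W4)**, coordinate form. -/
theorem core (hW : IsShort W) (hα : v W.a₂ ≤ 1) (hβ : v W.a₄ ≤ 1) (h2 : v 2 = 1)
    (hΔ : v (W.a₂ ^ 2 - 4 * W.a₄) = 1)
    {p : ℕ} (hp : Odd p) (H2 : NoTorsionInKernel v W p)
    (σ : K →+* K) (hσ : ∀ a, v a ≤ 1 → v (σ a - a) < 1)
    (Φ : W.toAffine.Point →+ W.toAffine.Point)
    (hΦ : ∀ (x y : K) (h : W.toAffine.Nonsingular x y),
      ∃ h' : W.toAffine.Nonsingular (σ x) (σ y), Φ (Point.some x y h) = Point.some (σ x) (σ y) h')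
    (H3 : v W.a₄ < 1 → ∀ (x y : K) (h : W.toAffine.Nonsingular x y),
      p • Point.some x y h = 0 → v x < 1 → v W.a₄ < v x ∧ ∃ τ : K, σ τ = τ ∧ v x = v τ)
    {x y : K} (h : W.toAffine.Nonsingular x y) (hP : p • Point.some x y h = 0) :
    σ x = x ∧ σ y = y := by
  have hx := x_integral H2 h hP
  have hy := y_integral hW hα hβ h.1 hx
  rcases hβ.lt_or_eq with hβlt | hβ1
  · -- multiplicative reduction
    have hα1 : v W.a₂ = 1 := by
      apply val_eq_one_of_sq
      have h4 : v (4 * W.a₄) < 1 := val_mul_lt_one_right (by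
        have : (4 : K) = ((4 : ℕ) : K) := by norm_num
        rw [this]; exact val_natCast_le_one v 4) hβlt
      have : W.a₂ ^ 2 = (W.a₂ ^ 2 - 4 * W.a₄) + 4 * W.a₄ := by ring
      rw [this]
      exact val_add_eq_one hΔ h4
    rcases hx.lt_or_eq with hxlt | hx1
    · obtain ⟨hβx, τ, hτ, hxτ⟩ := H3 hβlt x y h hP hxlt
      exact fixed_of_node hW hα1 h2 H2 σ hσ Φ hΦ h hP hxlt hβx hτ hxτ
    · have hnode : v (x ^ 2 - W.a₄) = 1 := by
        have hx2 : v (x ^ 2) = 1 := by rw [map_pow, hx1, one_pow]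
        rw [sub_eq_add_neg]
        exact val_add_eq_one hx2 (by rw [Valuation.map_neg]; exact hβlt)
      exact fixed_of_unit_y hW hα h2 H2 σ hσ Φ hΦ h hP
        (y_unit_of_not_node hW hα hβ h2 hp H2 h hP hnode)
  · -- good reduction
    have hy1 : v y = 1 := by
      by_contra hne
      have hylt : v y < 1 := lt_of_le_of_ne hy hne
      exact hne (y_unit_of_not_node hW hα hβ h2 hp H2 h hP
        (not_node_of_good hW hα hβ1 hΔ h.1 hx hylt))
    exact fixed_of_unit_y hW hα h2 H2 σ hσ Φ hΦ h hP hy1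

/-- **Core theorem (W4)**, point form: `Φ` fixes every point killed by `p`. -/
theorem core_point (hW : IsShort W) (hα : v W.a₂ ≤ 1) (hβ : v W.a₄ ≤ 1) (h2 : v 2 = 1)
    (hΔ : v (W.a₂ ^ 2 - 4 * W.a₄) = 1)
    {p : ℕ} (hp : Odd p) (H2 : NoTorsionInKernel v W p)
    (σ : K →+* K) (hσ : ∀ a, v a ≤ 1 → v (σ a - a) < 1)
    (Φ : W.toAffine.Point →+ W.toAffine.Point)
    (hΦ : ∀ (x y : K) (h : W.toAffine.Nonsingular x y),
      ∃ h' : W.toAffine.Nonsingular (σ x) (σ y), Φ (Point.some x y h) = Point.some (σ x) (σ y) h')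
    (H3 : v W.a₄ < 1 → ∀ (x y : K) (h : W.toAffine.Nonsingular x y),
      p • Point.some x y h = 0 → v x < 1 → v W.a₄ < v x ∧ ∃ τ : K, σ τ = τ ∧ v x = v τ)
    (P : W.toAffine.Point) (hP : p • P = 0) : Φ P = P := by
  rcases P with _ | ⟨x, y, h⟩
  · exact map_zero Φ
  · obtain ⟨h', e⟩ := hΦ x y h
    obtain ⟨hx, hy⟩ := core hW hα hβ h2 hΔ hp H2 σ hσ Φ hΦ H3 h hP
    rw [e]
    simp only [Point.some.injEq]
    exact ⟨hx, hy⟩

end Fermat.Agent.S05.H10
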