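import Mathlib.AlgebraicGeometry.EllipticCurve.Affine.Point
import Mathlib.RingTheory.Valuation.ValuationSubring
import Mathlib.Tactic

/-!
# S05, work package W2: the kernel of reduction has no torsion prime to the residue characteristic

For a Weierstrass curve `y² = x³ + a₂ x² + a₄ x + a₆` over a valued field `(K, v)` with
`v a₂, v a₄, v a₆ ≤ 1`, the points with `1 < v x` (together with `0`) form the kernel of reduction.
In the chart `z = x / y`, `w = 1 / y` addition satisfies `z(P₁ + P₂) ≡ z(P₁) + z(P₂)` modulo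
elements of valuation `≤ ρ³` (when `v z(Pᵢ) ≤ ρ < 1`).  Hence `z(n • P) ≡ n z(P)` and
`n • P ≠ 0` whenever `v n = 1`.
-/

set_option autoImplicit false
set_option linter.unusedSectionVars false
set_option linter.unusedSimpArgs false

namespace Fermat.Agent.S05.H12

open WeierstrassCurve

section Field

variable {K : Type*} [Field K] {Γ₀ : Type*} [LinearOrderedCommGroupWithZero Γ₀]
  (v : Valuation K Γ₀)

omit v in
lemma g_mul_lt_one {a b : Γ₀} (ha : a ≤ 1) (hb : b < 1) : a * b < 1 :=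
  calc a * b ≤ 1 * b := mul_le_mul' ha le_rfl
    _ = b := one_mul b
    _ < 1 := hb

omit v in
lemma g_mul_le {a b r : Γ₀} (ha : a ≤ 1) (hb : b ≤ r) : a * b ≤ r :=
  calc a * b ≤ 1 * r := mul_le_mul' ha hb
    _ = r := one_mul r

omit v in
lemma g_mul_le' {a b r : Γ₀} (ha : a ≤ r) (hb : b ≤ 1) : a * b ≤ r :=
  calc a * b ≤ r * 1 := mul_le_mul' ha hb
    _ = r := mul_one r

omit v in
lemma g_pow_lt_one {a : Γ₀} (ha : a < 1) {n : ℕ} (hn : n ≠ 0) : a ^ n < 1 :=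
  pow_lt_one₀ zero_le ha hn

omit v in
lemma g_cube_lt {a : Γ₀} (ha : a < 1) (h0 : a ≠ 0) : a ^ 3 < a := by
  have h1 : a ^ 2 < 1 := g_pow_lt_one ha two_ne_zero
  calc a ^ 3 = a ^ 2 * a := pow_succ a 2
    _ < 1 * a := mul_lt_mul_of_pos_right h1 (zero_lt_iff.mpr h0)
    _ = a := one_mul a

omit v in
lemma g_cube_le {a : Γ₀} (ha : a ≤ 1) : a ^ 3 ≤ a := by
  have h1 : a ^ 2 ≤ 1 := pow_le_one' ha 2
  calc a ^ 3 = a ^ 2 * a := pow_succ a 2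
    _ ≤ 1 * a := mul_le_mul' h1 le_rfl
    _ = a := one_mul a

omit v in
lemma val_lt_one_of_sq {t : Γ₀} (h : t ^ 2 < 1) : t < 1 := by
  by_contra hcon
  push Not at hcon
  have : (1 : Γ₀) ≤ t ^ 2 := one_le_pow_of_one_le' hcon 2
  exact absurd h (not_lt.mpr this)

/-- Basic facts on a point in the kernel of reduction. -/
lemma ker_basic {a₂ a₄ a₆ x y : K} (h2 : v a₂ ≤ 1) (h4 : v a₄ ≤ 1) (h6 : v a₆ ≤ 1)
    (hE : y ^ 2 = x ^ 3 + a₂ * x ^ 2 + a₄ * x + a₆) (hx : 1 < v x) :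
    x ≠ 0 ∧ y ≠ 0 ∧ v (x / y) < 1 ∧ v (x / y) ≠ 0 ∧ v (1 / y) = v (x / y) ^ 3 := by
  have hx0 : x ≠ 0 := by
    rintro rfl
    simp at hx
  have hvx0 : v x ≠ 0 := (v.ne_zero_iff).mpr hx0
  have hxinv : v x⁻¹ < 1 := by
    rw [map_inv₀]
    exact inv_lt_one_of_one_lt₀ hx
  set u : K := 1 + (a₂ * x⁻¹ + a₄ * x⁻¹ ^ 2 + a₆ * x⁻¹ ^ 3) with hu
  have hsmall : v (a₂ * x⁻¹ + a₄ * x⁻¹ ^ 2 + a₆ * x⁻¹ ^ 3) < 1 := by
    have e1 : v (a₂ * x⁻¹) < 1 := by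
      rw [map_mul]
      exact g_mul_lt_one h2 hxinv
    have e2 : v (a₄ * x⁻¹ ^ 2) < 1 := by
      rw [map_mul, map_pow]
      exact g_mul_lt_one h4 (g_pow_lt_one hxinv two_ne_zero)
    have e3 : v (a₆ * x⁻¹ ^ 3) < 1 := by
      rw [map_mul, map_pow]
      exact g_mul_lt_one h6 (g_pow_lt_one hxinv three_ne_zero)
    exact lt_of_le_of_lt (v.map_add _ _) (max_lt (lt_of_le_of_lt (v.map_add _ _) (max_lt e1 e2)) e3)
  have hvu : v u = 1 := v.map_one_add_of_lt hsmall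
  have hy2 : y ^ 2 = x ^ 3 * u := by
    rw [hE, hu]
    field_simp
    ring
  have hvy2 : v y ^ 2 = v x ^ 3 := by
    rw [← map_pow, hy2, map_mul, hvu, mul_one, map_pow]
  have hy0 : y ≠ 0 := by
    rintro rfl
    rw [map_zero, zero_pow two_ne_zero] at hvy2
    exact pow_ne_zero 3 hvx0 hvy2.symm
  have hvy0 : v y ≠ 0 := (v.ne_zero_iff).mpr hy0
  have hz2 : v (x / y) ^ 2 = (v x)⁻¹ := by
    rw [map_div₀, div_pow, hvy2]
    field_simp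
  have hz : v (x / y) < 1 := by
    apply val_lt_one_of_sq
    rw [hz2]
    exact inv_lt_one_of_one_lt₀ hx
  have hz0 : v (x / y) ≠ 0 := (v.ne_zero_iff).mpr (div_ne_zero hx0 hy0)
  refine ⟨hx0, hy0, hz, hz0, ?_⟩
  have hw : 1 / y = (x / y) ^ 3 * u := by
    field_simp
    rw [hy2]
  rw [hw, map_mul, hvu, mul_one, map_pow]

/-- The core estimate: if the line `y = ℓ x + n` meets the curve in `P₁, P₂` (in the kernel of
reduction) and in a third point with `x`-coordinate `x₃` (Vieta relations), and the line has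
`(z, w)`-parameters `lam = -ℓ / n`, `nu = 1 / n` which are small, then the third point lies in
the kernel of reduction and `z(P₁ + P₂) ≡ z(P₁) + z(P₂)`. -/
lemma core_estimate {a₂ a₄ a₆ x₁ y₁ x₂ y₂ x₃ ℓ n lam nu : K} {ρ : Γ₀}
    (h2 : v a₂ ≤ 1) (h4 : v a₄ ≤ 1) (h6 : v a₆ ≤ 1) (hρ : ρ < 1)
    (hy₁ : y₁ ≠ 0) (hy₂ : y₂ ≠ 0)
    (hz₁ : v (x₁ / y₁) ≤ ρ) (hz₂ : v (x₂ / y₂) ≤ ρ)
    (L1 : y₁ = ℓ * x₁ + n) (L2 : y₂ = ℓ * x₂ + n)
    (V1 : x₁ + x₂ + x₃ = ℓ ^ 2 - a₂) (V2 : x₁ * x₂ + x₁ * x₃ + x₂ * x₃ = a₄ - 2 * ℓ * n)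
    (V3 : x₁ * x₂ * x₃ = n ^ 2 - a₆)
    (hn : nu * n = 1) (hl : ℓ * nu = -lam) (hlam : v lam ≤ ρ ^ 2) (hnu : v nu ≤ ρ ^ 3) :
    (ℓ * x₃ + n) ≠ 0 ∧ v (1 / (ℓ * x₃ + n)) ≤ ρ ^ 3 ∧
      v (x₃ / (-(ℓ * x₃ + n)) - x₁ / y₁ - x₂ / y₂) ≤ ρ ^ 3 := by
  have hρ1 : ρ ≤ 1 := hρ.le
  have hρ2 : ρ ^ 2 < 1 := g_pow_lt_one hρ two_ne_zero
  have hρ3 : ρ ^ 3 ≤ ρ := g_cube_le hρ1
  have hn0 : n ≠ 0 := right_ne_zero_of_mul_eq_one hn
  have hnu0 : nu ≠ 0 := left_ne_zero_of_mul_eq_one hn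
  have hlam1 : v lam < 1 := lt_of_le_of_lt hlam hρ2
  have hlam1' : v lam ≤ 1 := hlam1.le
  have hln : lam * n = -ℓ := by
    linear_combination n * hl - ℓ * hn
  set c₃ : K := 1 + (a₂ * lam + a₄ * lam ^ 2 + a₆ * lam ^ 3) with hc₃
  have hc₃v : v c₃ = 1 := by
    apply v.map_one_add_of_lt
    have e1 : v (a₂ * lam) < 1 := by rw [map_mul]; exact g_mul_lt_one h2 hlam1
    have e2 : v (a₄ * lam ^ 2) < 1 := by
      rw [map_mul, map_pow]; exact g_mul_lt_one h4 (g_pow_lt_one hlam1 two_ne_zero)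
    have e3 : v (a₆ * lam ^ 3) < 1 := by
      rw [map_mul, map_pow]; exact g_mul_lt_one h6 (g_pow_lt_one hlam1 three_ne_zero)
    exact lt_of_le_of_lt (v.map_add _ _) (max_lt (lt_of_le_of_lt (v.map_add _ _) (max_lt e1 e2)) e3)
  have hc₃0 : c₃ ≠ 0 := by
    intro h
    rw [h, map_zero] at hc₃v
    exact zero_ne_one hc₃v
  set c₂ : K := a₂ + 2 * a₄ * lam + 3 * a₆ * lam ^ 2 with hc₂
  have hc₂v : v c₂ ≤ 1 := by
    have i2 : v (2 : K) ≤ 1 := by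
      have : (2 : K) = 1 + 1 := by norm_num
      rw [this]
      exact v.map_add_le (by simp) (by simp)
    have i3 : v (3 : K) ≤ 1 := by
      have : (3 : K) = 2 + 1 := by norm_num
      rw [this]
      exact v.map_add_le i2 (by simp)
    refine v.map_add_le (v.map_add_le h2 ?_) ?_
    · rw [map_mul, map_mul]
      exact g_mul_le (g_mul_le i2 h4) hlam1'
    · rw [map_mul, map_mul, map_pow]
      exact g_mul_le (g_mul_le i3 h6) (pow_le_one' hlam1' 2)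
  set y₃ : K := ℓ * x₃ + n with hy₃
  -- Vieta: product and sum
  have Vden : y₁ * y₂ * y₃ = n ^ 3 * c₃ := by
    have e : y₁ * y₂ * y₃ = n ^ 3 - a₂ * ℓ * n ^ 2 + a₄ * ℓ ^ 2 * n - a₆ * ℓ ^ 3 := by
      rw [L1, L2, hy₃]
      linear_combination ℓ ^ 3 * V3 + ℓ ^ 2 * n * V2 + ℓ * n ^ 2 * V1
    rw [e, hc₃]
    linear_combination (-(a₂ * n ^ 2) - a₄ * n * (lam * n - ℓ) - a₆ * ((lam * n) ^ 2 - (lam * n) * ℓ + ℓ ^ 2)) * hln
  have Vnum : x₁ * y₂ * y₃ + x₂ * y₁ * y₃ + x₃ * y₁ * y₂ = -(n ^ 2 * c₂) := by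
    have e : x₁ * y₂ * y₃ + x₂ * y₁ * y₃ + x₃ * y₁ * y₂ =
        -(a₂ * n ^ 2 - 2 * a₄ * ℓ * n + 3 * a₆ * ℓ ^ 2) := by
      rw [L1, L2, hy₃]
      linear_combination 3 * ℓ ^ 2 * V3 + 2 * ℓ * n * V2 + n ^ 2 * V1
    rw [e, hc₂]
    linear_combination (2 * a₄ * n + 3 * a₆ * (lam * n - ℓ)) * hln
  have hy₃0 : y₃ ≠ 0 := by
    intro h
    rw [h, mul_zero] at Vden
    exact mul_ne_zero (pow_ne_zero 3 hn0) hc₃0 Vden.symm
  -- the error term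
  have hsum : x₁ / y₁ + x₂ / y₂ + x₃ / y₃ = -(nu * c₂ / c₃) := by
    have h1 : x₁ / y₁ + x₂ / y₂ + x₃ / y₃ =
        (x₁ * y₂ * y₃ + x₂ * y₁ * y₃ + x₃ * y₁ * y₂) / (y₁ * y₂ * y₃) := by
      field_simp
    have hnu' : nu = n⁻¹ := eq_inv_of_mul_eq_one_left hn
    rw [h1, Vnum, Vden, hnu']
    field_simp
  have hε : v (nu * c₂ / c₃) ≤ ρ ^ 3 := by
    rw [map_div₀, map_mul, hc₃v, div_one]
    exact g_mul_le' hnu hc₂v
  have hz₃ : v (x₃ / y₃) ≤ ρ := by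
    have e : x₃ / y₃ = -(nu * c₂ / c₃) - x₁ / y₁ - x₂ / y₂ := by
      linear_combination hsum
    rw [e]
    refine v.map_sub_le (v.map_sub_le ?_ hz₁) hz₂
    rw [Valuation.map_neg]
    exact hε.trans hρ3
  refine ⟨hy₃0, ?_, ?_⟩
  · have e0 : nu * y₃ + lam * x₃ = 1 := by
      rw [hy₃]
      linear_combination x₃ * hl + hn
    have e : 1 / y₃ = nu + lam * (x₃ / y₃) := by
      field_simp
      linear_combination -e0
    rw [e]
    refine v.map_add_le hnu ?_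
    rw [map_mul]
    calc v lam * v (x₃ / y₃) ≤ ρ ^ 2 * ρ := mul_le_mul' hlam hz₃
      _ = ρ ^ 3 := (pow_succ ρ 2).symm
  · have e : x₃ / -y₃ - x₁ / y₁ - x₂ / y₂ = nu * c₂ / c₃ := by
      rw [div_neg]
      linear_combination -hsum
    rw [e]
    exact hε

lemma val_two_le_one : v (2 : K) ≤ 1 := by
  have : (2 : K) = 1 + 1 := by norm_num
  rw [this]
  exact v.map_add_le (by simp) (by simp)

lemma val_three_le_one : v (3 : K) ≤ 1 := by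
  have : (3 : K) = 2 + 1 := by norm_num
  rw [this]
  exact v.map_add_le (val_two_le_one v) (by simp)

/-- The chord case. -/
lemma chord_estimate {a₂ a₄ a₆ x₁ y₁ x₂ y₂ : K} {ρ : Γ₀}
    (h2 : v a₂ ≤ 1) (h4 : v a₄ ≤ 1) (h6 : v a₆ ≤ 1) (hρ : ρ < 1)
    (hE₁ : y₁ ^ 2 = x₁ ^ 3 + a₂ * x₁ ^ 2 + a₄ * x₁ + a₆)
    (hE₂ : y₂ ^ 2 = x₂ ^ 3 + a₂ * x₂ ^ 2 + a₄ * x₂ + a₆)
    (hx₁ : 1 < v x₁) (hx₂ : 1 < v x₂)
    (hz₁ : v (x₁ / y₁) ≤ ρ) (hz₂ : v (x₂ / y₂) ≤ ρ) (hne : x₁ ≠ x₂)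
    {ℓ x₃ : K} (hℓ : ℓ = (y₁ - y₂) / (x₁ - x₂)) (hx₃ : x₃ = ℓ ^ 2 - a₂ - x₁ - x₂) :
    (ℓ * (x₃ - x₁) + y₁) ≠ 0 ∧ v (1 / (ℓ * (x₃ - x₁) + y₁)) ≤ ρ ^ 3 ∧
      v (x₃ / (-(ℓ * (x₃ - x₁) + y₁)) - x₁ / y₁ - x₂ / y₂) ≤ ρ ^ 3 := by
  obtain ⟨hx₁0, hy₁0, hz₁1, -, hw₁⟩ := ker_basic v h2 h4 h6 hE₁ hx₁
  obtain ⟨hx₂0, hy₂0, hz₂1, -, hw₂⟩ := ker_basic v h2 h4 h6 hE₂ hx₂
  have hρ1 : ρ ≤ 1 := hρ.le
  have hd : x₁ - x₂ ≠ 0 := sub_ne_zero.mpr hne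
  have hℓ' : ℓ * (x₁ - x₂) = y₁ - y₂ := by
    rw [hℓ]; field_simp
  set n : K := y₁ - ℓ * x₁ with hn
  have L1 : y₁ = ℓ * x₁ + n := by rw [hn]; ring
  have L2 : y₂ = ℓ * x₂ + n := by rw [hn]; linear_combination hℓ'
  -- the `(z, w)`-chart
  set z₁ : K := x₁ / y₁ with hz₁d
  set z₂ : K := x₂ / y₂ with hz₂d
  set w₁ : K := 1 / y₁ with hw₁d
  set w₂ : K := 1 / y₂ with hw₂d
  have hvw₁ : v w₁ ≤ ρ ^ 3 := by rw [hw₁]; exact pow_le_pow_left' hz₁ 3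
  have hvw₂ : v w₂ ≤ ρ ^ 3 := by rw [hw₂]; exact pow_le_pow_left' hz₂ 3
  have hρ3 : ρ ^ 3 ≤ ρ := g_cube_le hρ1
  have hvw₁' : v w₁ < 1 := lt_of_le_of_lt (hvw₁.trans hρ3) hρ
  have hvw₂' : v w₂ < 1 := lt_of_le_of_lt (hvw₂.trans hρ3) hρ
  have F₁ : w₁ = z₁ ^ 3 + a₂ * z₁ ^ 2 * w₁ + a₄ * z₁ * w₁ ^ 2 + a₆ * w₁ ^ 3 := by
    rw [hz₁d, hw₁d]
    field_simp
    linear_combination hE₁
  have F₂ : w₂ = z₂ ^ 3 + a₂ * z₂ ^ 2 * w₂ + a₄ * z₂ * w₂ ^ 2 + a₆ * w₂ ^ 3 := by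
    rw [hz₂d, hw₂d]
    field_simp
    linear_combination hE₂
  set N : K := z₁ ^ 2 + z₁ * z₂ + z₂ ^ 2 + a₂ * (z₁ + z₂) * w₂ + a₄ * w₂ ^ 2 with hN
  set D : K := 1 + -(a₂ * z₁ ^ 2 + a₄ * z₁ * (w₁ + w₂) + a₆ * (w₁ ^ 2 + w₁ * w₂ + w₂ ^ 2)) with hD
  have R : (w₁ - w₂) * D = (z₁ - z₂) * N := by
    rw [hD, hN]
    linear_combination F₁ - F₂
  have hDv : v D = 1 := by
    apply v.map_one_add_of_lt
    rw [Valuation.map_neg]
    have e1 : v (a₂ * z₁ ^ 2) < 1 := by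
      rw [map_mul, map_pow]; exact g_mul_lt_one h2 (g_pow_lt_one hz₁1 two_ne_zero)
    have e2 : v (a₄ * z₁ * (w₁ + w₂)) < 1 := by
      rw [map_mul, map_mul]
      exact g_mul_lt_one (g_mul_le h4 hz₁1.le) (lt_of_le_of_lt (v.map_add _ _) (max_lt hvw₁' hvw₂'))
    have e3 : v (a₆ * (w₁ ^ 2 + w₁ * w₂ + w₂ ^ 2)) < 1 := by
      rw [map_mul]
      refine g_mul_lt_one h6 ?_
      have t1 : v (w₁ ^ 2) < 1 := by rw [map_pow]; exact g_pow_lt_one hvw₁' two_ne_zero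
      have t2 : v (w₁ * w₂) < 1 := by rw [map_mul]; exact g_mul_lt_one hvw₁'.le hvw₂'
      have t3 : v (w₂ ^ 2) < 1 := by rw [map_pow]; exact g_pow_lt_one hvw₂' two_ne_zero
      exact lt_of_le_of_lt (v.map_add _ _)
        (max_lt (lt_of_le_of_lt (v.map_add _ _) (max_lt t1 t2)) t3)
    exact lt_of_le_of_lt (v.map_add _ _) (max_lt (lt_of_le_of_lt (v.map_add _ _) (max_lt e1 e2)) e3)
  have hD0 : D ≠ 0 := by
    intro h
    rw [h, map_zero] at hDv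
    exact zero_ne_one hDv
  have hNv : v N ≤ ρ ^ 2 := by
    have hρ32 : ρ ^ 3 ≤ ρ ^ 2 := by
      calc ρ ^ 3 = ρ ^ 2 * ρ := pow_succ ρ 2
        _ ≤ ρ ^ 2 * 1 := mul_le_mul' le_rfl hρ1
        _ = ρ ^ 2 := mul_one _
    have t1 : v (z₁ ^ 2) ≤ ρ ^ 2 := by rw [map_pow]; exact pow_le_pow_left' hz₁ 2
    have t2 : v (z₁ * z₂) ≤ ρ ^ 2 := by
      rw [map_mul, pow_two]; exact mul_le_mul' hz₁ hz₂
    have t3 : v (z₂ ^ 2) ≤ ρ ^ 2 := by rw [map_pow]; exact pow_le_pow_left' hz₂ 2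
    have t4 : v (a₂ * (z₁ + z₂) * w₂) ≤ ρ ^ 2 := by
      rw [map_mul, map_mul]
      refine g_mul_le ?_ (hvw₂.trans hρ32)
      exact g_mul_le h2 (v.map_add_le (hz₁.trans hρ1) (hz₂.trans hρ1))
    have t5 : v (a₄ * w₂ ^ 2) ≤ ρ ^ 2 := by
      rw [map_mul, map_pow]
      refine g_mul_le h4 ?_
      calc v w₂ ^ 2 ≤ (ρ ^ 3) ^ 2 := pow_le_pow_left' hvw₂ 2
        _ ≤ ρ ^ 2 := pow_le_pow_left' hρ3 2
    exact v.map_add_le (v.map_add_le (v.map_add_le (v.map_add_le t1 t2) t3) t4) t5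
  -- `z₁ ≠ z₂`
  have hzne : z₁ - z₂ ≠ 0 := by
    intro h
    have h0 : (w₁ - w₂) * D = 0 := by rw [R, h, zero_mul]
    have hw : w₁ - w₂ = 0 := (mul_eq_zero.mp h0).resolve_right hD0
    have hy : y₁ = y₂ := by
      have : (1 : K) / y₁ = 1 / y₂ := sub_eq_zero.mp hw
      field_simp at this
      exact this.symm
    apply hne
    have hz : x₁ / y₁ = x₂ / y₂ := sub_eq_zero.mp h
    rw [hy] at hz
    field_simp at hz
    exact hz
  set lam : K := (w₁ - w₂) / (z₁ - z₂) with hlam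
  have hlamD : lam * D = N := by
    rw [hlam, div_mul_eq_mul_div, R]
    exact mul_div_cancel_left₀ N hzne
  have hlamv : v lam ≤ ρ ^ 2 := by
    have : v lam = v N := by
      rw [← hlamD, map_mul, hDv, mul_one]
    rw [this]; exact hNv
  set nu : K := w₁ - lam * z₁ with hnu
  have hnuv : v nu ≤ ρ ^ 3 := by
    refine v.map_sub_le hvw₁ ?_
    rw [map_mul]
    calc v lam * v z₁ ≤ ρ ^ 2 * ρ := mul_le_mul' hlamv hz₁
      _ = ρ ^ 3 := (pow_succ ρ 2).symm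
  set dd : K := x₁ * y₂ - x₂ * y₁ with hdd
  have hzd : z₁ - z₂ = dd / (y₁ * y₂) := by
    rw [hz₁d, hz₂d, hdd]
    field_simp
  have hwd : w₁ - w₂ = (y₂ - y₁) / (y₁ * y₂) := by
    rw [hw₁d, hw₂d]
    field_simp
  have hd' : dd ≠ 0 := by
    intro h
    apply hzne
    rw [hzd, h, zero_div]
  have hlam' : lam = (y₂ - y₁) / dd := by
    rw [hlam, hzd, hwd]
    field_simp
  have hnudd : nu * dd = x₁ - x₂ := by
    have e1 : lam * dd = y₂ - y₁ := by rw [hlam']; field_simp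
    have e2 : w₁ * y₁ = 1 := by rw [hw₁d]; field_simp
    have e3 : z₁ * y₁ = x₁ := by rw [hz₁d]; field_simp
    have e4 : y₁ * (nu * dd) = y₁ * (x₁ - x₂) := by
      rw [hnu]
      have : y₁ * ((w₁ - lam * z₁) * dd) = (w₁ * y₁) * dd - (lam * dd) * (z₁ * y₁) := by ring
      rw [this, e1, e2, e3, hdd]
      ring
    exact mul_left_cancel₀ hy₁0 e4
  have hndd : n * (x₁ - x₂) = dd := by
    rw [hn, hdd]
    linear_combination (-x₁) * hℓ'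
  have hnun : nu * n = 1 := by
    have e : (nu * n) * (dd * (x₁ - x₂)) = 1 * (dd * (x₁ - x₂)) := by
      have : (nu * n) * (dd * (x₁ - x₂)) = (nu * dd) * (n * (x₁ - x₂)) := by ring
      rw [this, hnudd, hndd]
      ring
    exact mul_right_cancel₀ (mul_ne_zero hd' hd) e
  have hlnu : ℓ * nu = -lam := by
    have e1 : lam * dd = y₂ - y₁ := by rw [hlam']; field_simp
    have e : (ℓ * nu) * dd = (-lam) * dd := by
      have : (ℓ * nu) * dd = ℓ * (nu * dd) := by ring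
      rw [this, hnudd, hℓ', neg_mul, e1]
      ring
    exact mul_right_cancel₀ hd' e
  have V1 : x₁ + x₂ + x₃ = ℓ ^ 2 - a₂ := by rw [hx₃]; ring
  have G₁ : (ℓ * x₁ + n) ^ 2 = x₁ ^ 3 + a₂ * x₁ ^ 2 + a₄ * x₁ + a₆ := by rw [← L1]; exact hE₁
  have G₂ : (ℓ * x₂ + n) ^ 2 = x₂ ^ 3 + a₂ * x₂ ^ 2 + a₄ * x₂ + a₆ := by rw [← L2]; exact hE₂
  have hQ : x₁ ^ 2 + x₁ * x₂ + x₂ ^ 2 + (a₂ - ℓ ^ 2) * (x₁ + x₂) + (a₄ - 2 * ℓ * n) = 0 := by
    apply mul_left_cancel₀ hd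
    linear_combination G₂ - G₁
  have V2 : x₁ * x₂ + x₁ * x₃ + x₂ * x₃ = a₄ - 2 * ℓ * n := by
    rw [hx₃]
    linear_combination -hQ
  have V3 : x₁ * x₂ * x₃ = n ^ 2 - a₆ := by
    rw [hx₃]
    linear_combination (-x₁) * hQ - G₁
  have key := core_estimate v h2 h4 h6 hρ hy₁0 hy₂0 hz₁ hz₂ L1 L2 V1 V2 V3 hnun hlnu hlamv hnuv
  have e : ℓ * (x₃ - x₁) + y₁ = ℓ * x₃ + n := by rw [hn]; ring
  rw [e]
  exact key

/-- The tangent case. -/
lemma tangent_estimate {a₂ a₄ a₆ x y : K} {ρ : Γ₀}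
    (h2 : v a₂ ≤ 1) (h4 : v a₄ ≤ 1) (h6 : v a₆ ≤ 1) (hρ : ρ < 1)
    (hE : y ^ 2 = x ^ 3 + a₂ * x ^ 2 + a₄ * x + a₆)
    (hx : 1 < v x) (hz : v (x / y) ≤ ρ) (h2y : y + y ≠ 0)
    {ℓ x₃ : K} (hℓ : ℓ = (3 * x ^ 2 + 2 * a₂ * x + a₄) / (y + y))
    (hx₃ : x₃ = ℓ ^ 2 - a₂ - x - x) :
    (ℓ * (x₃ - x) + y) ≠ 0 ∧ v (1 / (ℓ * (x₃ - x) + y)) ≤ ρ ^ 3 ∧
      v (x₃ / (-(ℓ * (x₃ - x) + y)) - x / y - x / y) ≤ ρ ^ 3 := by
  obtain ⟨hx0, hy0, hz1, -, hw⟩ := ker_basic v h2 h4 h6 hE hx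
  have hρ1 : ρ ≤ 1 := hρ.le
  have hρ3 : ρ ^ 3 ≤ ρ := g_cube_le hρ1
  have hρ32 : ρ ^ 3 ≤ ρ ^ 2 := by
    calc ρ ^ 3 = ρ ^ 2 * ρ := pow_succ ρ 2
      _ ≤ ρ ^ 2 * 1 := mul_le_mul' le_rfl hρ1
      _ = ρ ^ 2 := mul_one _
  have h20 : (2 : K) ≠ 0 := by
    intro h
    apply h2y
    have : y + y = 2 * y := by ring
    rw [this, h, zero_mul]
  have hℓ' : ℓ * (y + y) = 3 * x ^ 2 + 2 * a₂ * x + a₄ := by
    rw [hℓ, div_mul_cancel₀ _ h2y]
  obtain ⟨n, hn⟩ : ∃ n : K, n = y - ℓ * x := ⟨_, rfl⟩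
  have L1 : y = ℓ * x + n := by rw [hn]; ring
  obtain ⟨z, hzy⟩ : ∃ z : K, z * y = x := ⟨x / y, div_mul_cancel₀ _ hy0⟩
  obtain ⟨w, hwy⟩ : ∃ w : K, w * y = 1 := ⟨1 / y, div_mul_cancel₀ _ hy0⟩
  have hzd : x / y = z := by rw [← hzy]; exact mul_div_cancel_right₀ z hy0
  have hwd : 1 / y = w := by rw [← hwy]; exact mul_div_cancel_right₀ w hy0
  have hz' : v z ≤ ρ := hzd ▸ hz
  have hz1' : v z < 1 := hzd ▸ hz1
  have hvw : v w ≤ ρ ^ 3 := by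
    rw [← hwd, hw, hzd]; exact pow_le_pow_left' hz' 3
  have hvw' : v w < 1 := lt_of_le_of_lt (hvw.trans hρ3) hρ
  obtain ⟨M, hM⟩ : ∃ M : K, M = 3 * z ^ 2 + 2 * a₂ * z * w + a₄ * w ^ 2 := ⟨_, rfl⟩
  obtain ⟨D, hD⟩ : ∃ D : K, D = 1 + -(a₂ * z ^ 2 + 2 * a₄ * z * w + 3 * a₆ * w ^ 2) := ⟨_, rfl⟩
  have i2 := val_two_le_one v
  have i3 := val_three_le_one v
  have hDv : v D = 1 := by
    rw [hD]
    apply v.map_one_add_of_lt
    rw [Valuation.map_neg]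
    have e1 : v (a₂ * z ^ 2) < 1 := by
      rw [map_mul, map_pow]; exact g_mul_lt_one h2 (g_pow_lt_one hz1' two_ne_zero)
    have e2 : v (2 * a₄ * z * w) < 1 := by
      rw [map_mul, map_mul, map_mul]
      exact g_mul_lt_one (g_mul_le (g_mul_le i2 h4) hz1'.le) hvw'
    have e3 : v (3 * a₆ * w ^ 2) < 1 := by
      rw [map_mul, map_mul, map_pow]
      exact g_mul_lt_one (g_mul_le i3 h6) (g_pow_lt_one hvw' two_ne_zero)
    exact lt_of_le_of_lt (v.map_add _ _) (max_lt (lt_of_le_of_lt (v.map_add _ _) (max_lt e1 e2)) e3)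
  have hD0 : D ≠ 0 := by
    intro h
    rw [h, map_zero] at hDv
    exact zero_ne_one hDv
  have hMv : v M ≤ ρ ^ 2 := by
    rw [hM]
    have t1 : v (3 * z ^ 2) ≤ ρ ^ 2 := by
      rw [map_mul, map_pow]; exact g_mul_le i3 (pow_le_pow_left' hz' 2)
    have t2 : v (2 * a₂ * z * w) ≤ ρ ^ 2 := by
      rw [map_mul, map_mul, map_mul]
      exact g_mul_le (g_mul_le (g_mul_le i2 h2) (hz'.trans hρ1)) (hvw.trans hρ32)
    have t3 : v (a₄ * w ^ 2) ≤ ρ ^ 2 := by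
      rw [map_mul, map_pow]
      refine g_mul_le h4 ?_
      calc v w ^ 2 ≤ (ρ ^ 3) ^ 2 := pow_le_pow_left' hvw 2
        _ ≤ ρ ^ 2 := pow_le_pow_left' hρ3 2
    exact v.map_add_le (v.map_add_le t1 t2) t3
  obtain ⟨lam, hlamD⟩ : ∃ lam : K, lam * D = M := ⟨M / D, div_mul_cancel₀ _ hD0⟩
  obtain ⟨nu, hnuD⟩ : ∃ nu : K, nu * D = -(2 * w) := ⟨-(2 * w) / D, div_mul_cancel₀ _ hD0⟩
  have hlamv : v lam ≤ ρ ^ 2 := by
    have : v lam = v M := by rw [← hlamD, map_mul, hDv, mul_one]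
    rw [this]; exact hMv
  have hnuv : v nu ≤ ρ ^ 3 := by
    have : v nu = v (-(2 * w)) := by rw [← hnuD, map_mul, hDv, mul_one]
    rw [this, Valuation.map_neg, map_mul]
    exact g_mul_le i2 hvw
  -- key relations
  have hDy : D * y ^ 2 = y ^ 2 - a₂ * x ^ 2 - 2 * a₄ * x - 3 * a₆ := by
    rw [hD, ← hzy]
    linear_combination (-(2 * a₄ * z * y) - 3 * a₆ * (w * y + 1)) * hwy
  have hn2 : n * (2 * y) = -(D * y ^ 2) := by
    rw [hDy, hn]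
    linear_combination (-x) * hℓ' + 3 * hE
  have hMy : M * y ^ 2 = 3 * x ^ 2 + 2 * a₂ * x + a₄ := by
    rw [hM, ← hzy]
    linear_combination (2 * a₂ * z * y + a₄ * (w * y + 1)) * hwy
  have hnun : nu * n = 1 := by
    have e : (nu * n) * (D * (2 * y)) = 1 * (D * (2 * y)) := by
      have : (nu * n) * (D * (2 * y)) = (nu * D) * (n * (2 * y)) := by ring
      rw [this, hnuD, hn2]
      linear_combination (2 * D * y) * hwy
    exact mul_right_cancel₀ (mul_ne_zero hD0 (mul_ne_zero h20 hy0)) e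
  have hlnu : ℓ * nu = -lam := by
    have e : (ℓ * nu) * (D * y ^ 2) = (-lam) * (D * y ^ 2) := by
      have e1 : (ℓ * nu) * (D * y ^ 2) = (nu * D) * (ℓ * y ^ 2) := by ring
      have e2 : (-lam) * (D * y ^ 2) = -((lam * D) * y ^ 2) := by ring
      rw [e1, e2, hnuD, hlamD, hMy]
      linear_combination (-(y * w)) * hℓ' - (3 * x ^ 2 + 2 * a₂ * x + a₄) * hwy
    exact mul_right_cancel₀ (mul_ne_zero hD0 (pow_ne_zero 2 hy0)) e
  have V1 : x + x + x₃ = ℓ ^ 2 - a₂ := by rw [hx₃]; ring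
  have V2 : x * x + x * x₃ + x * x₃ = a₄ - 2 * ℓ * n := by
    rw [hx₃, hn]
    linear_combination hℓ'
  have V3 : x * x * x₃ = n ^ 2 - a₆ := by
    rw [hx₃, hn]
    linear_combination x * hℓ' - hE
  have key := core_estimate v h2 h4 h6 hρ hy0 hy0 hz hz L1 L1 V1 V2 V3 hnun hlnu hlamv hnuv
  have e : ℓ * (x₃ - x) + y = ℓ * x₃ + n := by rw [hn]; ring
  rw [e]
  exact key

end Field

section Curve

open WeierstrassCurve.Affine

variable {K : Type*} [Field K] [DecidableEq K] {Γ₀ : Type*} [LinearOrderedCommGroupWithZero Γ₀]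
  (v : Valuation K Γ₀) {W : WeierstrassCurve.Affine K}

/-- The `z`-coordinate `x / y` of a point (`0` at the origin). -/
noncomputable def zc : W.Point → K
  | .zero => 0
  | .some x y _ => x / y

@[simp] lemma zc_zero : zc (0 : W.Point) = 0 := rfl

@[simp] lemma zc_some {x y : K} (h : W.Nonsingular x y) : zc (Point.some x y h) = x / y := rfl

/-- The kernel of reduction: the origin together with the points with `1 < v x`. -/
def InKer (P : W.Point) : Prop :=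
  P = 0 ∨ ∃ (x y : K) (h : W.Nonsingular x y), P = Point.some x y h ∧ 1 < v x

lemma inKer_zero : InKer v (0 : W.Point) := Or.inl rfl

lemma inKer_some {x y : K} (h : W.Nonsingular x y) :
    InKer v (Point.some x y h) ↔ 1 < v x := by
  constructor
  · rintro (h0 | ⟨x', y', h', he, hx⟩)
    · exact absurd h0 (Point.some_ne_zero h)
    · cases he
      exact hx
  · intro hx
    exact Or.inr ⟨x, y, h, rfl, hx⟩

lemma short_equation (h1 : W.a₁ = 0) (h3 : W.a₃ = 0) {x y : K} (h : W.Equation x y) :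
    y ^ 2 = x ^ 3 + W.a₂ * x ^ 2 + W.a₄ * x + W.a₆ := by
  have := (W.equation_iff x y).mp h
  rw [h1, h3] at this
  linear_combination this

/-- The main lemma: addition on the kernel of reduction is `z₁ + z₂` up to third order. -/
theorem inKer_add (h1 : W.a₁ = 0) (h3 : W.a₃ = 0) (h2 : v W.a₂ ≤ 1) (h4 : v W.a₄ ≤ 1)
    (h6 : v W.a₆ ≤ 1) {ρ : Γ₀} (hρ : ρ < 1) {P₁ P₂ : W.Point} (hP₁ : InKer v P₁)
    (hP₂ : InKer v P₂) (hz₁ : v (zc P₁) ≤ ρ) (hz₂ : v (zc P₂) ≤ ρ) :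
    InKer v (P₁ + P₂) ∧ v (zc (P₁ + P₂) - zc P₁ - zc P₂) ≤ ρ ^ 3 := by
  rcases hP₁ with rfl | ⟨x₁, y₁, hn₁, rfl, hx₁⟩
  · rw [zero_add]
    refine ⟨hP₂, ?_⟩
    simp
  rcases hP₂ with rfl | ⟨x₂, y₂, hn₂, rfl, hx₂⟩
  · rw [add_zero]
    refine ⟨(inKer_some v hn₁).mpr hx₁, ?_⟩
    simp
  have hE₁ := short_equation h1 h3 hn₁.1
  have hE₂ := short_equation h1 h3 hn₂.1
  rw [zc_some] at hz₁ hz₂
  have hnegY : ∀ x y : K, W.negY x y = -y := by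
    intro x y
    simp [negY, h1, h3]
  by_cases hxy : x₁ = x₂ ∧ y₁ = W.negY x₂ y₂
  · rw [Point.add_of_Y_eq hxy.1 hxy.2]
    refine ⟨inKer_zero v, ?_⟩
    obtain ⟨hx, hy⟩ := hxy
    rw [hnegY] at hy
    subst hx
    subst hy
    simp only [zc_zero, zc_some]
    have : (0 : K) - x₁ / -y₂ - x₁ / y₂ = 0 := by
      rw [div_neg]; ring
    rw [this, map_zero]
    exact zero_le
  · rw [Point.add_some hxy]
    set ℓ := W.slope x₁ x₂ y₁ y₂ with hℓ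
    have hX : W.addX x₁ x₂ ℓ = ℓ ^ 2 - W.a₂ - x₁ - x₂ := by
      simp [addX, h1]
    have hY : W.addY x₁ x₂ y₁ ℓ = -(ℓ * (W.addX x₁ x₂ ℓ - x₁) + y₁) := by
      simp only [addY, negAddY, negY, addX, h1, h3]
      ring
    have hns := nonsingular_add hn₁ hn₂ hxy
    have hE₃ := short_equation h1 h3 hns.1
    rw [← hℓ] at hE₃
    have key : (ℓ * (W.addX x₁ x₂ ℓ - x₁) + y₁) ≠ 0 ∧
        v (1 / (ℓ * (W.addX x₁ x₂ ℓ - x₁) + y₁)) ≤ ρ ^ 3 ∧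
        v (W.addX x₁ x₂ ℓ / (-(ℓ * (W.addX x₁ x₂ ℓ - x₁) + y₁)) - x₁ / y₁ - x₂ / y₂) ≤ ρ ^ 3 := by
      by_cases hx : x₁ = x₂
      · have hy : y₁ ≠ W.negY x₂ y₂ := fun h => hxy ⟨hx, h⟩
        have hyy : y₁ = y₂ := Y_eq_of_Y_ne hn₁.1 hn₂.1 hx hy
        subst hx
        subst hyy
        have h2y : y₁ + y₁ ≠ 0 := by
          intro h
          apply hy
          rw [hnegY]
          linear_combination h
        have hℓ' : ℓ = (3 * x₁ ^ 2 + 2 * W.a₂ * x₁ + W.a₄) / (y₁ + y₁) := by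
          rw [hℓ, slope_of_Y_ne rfl hy, hnegY, h1]
          congr 1
          · ring
          · ring
        exact tangent_estimate v h2 h4 h6 hρ hE₁ hx₁ hz₁ h2y hℓ' hX
      · have hℓ' : ℓ = (y₁ - y₂) / (x₁ - x₂) := by
          rw [hℓ, slope_of_X_ne hx]
        exact chord_estimate v h2 h4 h6 hρ hE₁ hE₂ hx₁ hx₂ hz₁ hz₂ hx hℓ' hX
    obtain ⟨k1, k2, k3⟩ := key
    have hρ3 : ρ ^ 3 < 1 := g_pow_lt_one hρ three_ne_zero
    constructor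
    · rw [inKer_some]
      by_contra hcon
      push Not at hcon
      -- `v x₃ ≤ 1` forces `v y₃ ≤ 1`
      have hy3 : v (W.addY x₁ x₂ y₁ ℓ) ^ 2 ≤ 1 := by
        rw [← map_pow, hE₃]
        refine v.map_add_le (v.map_add_le (v.map_add_le ?_ ?_) ?_) h6
        · rw [map_pow]; exact pow_le_one' hcon 3
        · rw [map_mul, map_pow]; exact g_mul_le h2 (pow_le_one' hcon 2)
        · rw [map_mul]; exact g_mul_le h4 hcon
      have hy3' : 1 < v (W.addY x₁ x₂ y₁ ℓ) := by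
        rw [hY, Valuation.map_neg]
        have hlt : (v (ℓ * (W.addX x₁ x₂ ℓ - x₁) + y₁))⁻¹ < 1 := by
          have := lt_of_le_of_lt k2 hρ3
          rwa [one_div, map_inv₀] at this
        have hne : v (ℓ * (W.addX x₁ x₂ ℓ - x₁) + y₁) ≠ 0 := (v.ne_zero_iff).mpr k1
        by_contra hle
        push Not at hle
        have hge : (1 : Γ₀) ≤ (v (ℓ * (W.addX x₁ x₂ ℓ - x₁) + y₁))⁻¹ :=
          (one_le_inv₀ (zero_lt_iff.mpr hne)).mpr hle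
        exact absurd hlt (not_lt.mpr hge)
      have : (1 : Γ₀) < v (W.addY x₁ x₂ y₁ ℓ) ^ 2 := one_lt_pow' hy3' two_ne_zero
      exact absurd hy3 (not_le.mpr this)
    · simp only [zc_some]
      rw [hY]
      exact k3

lemma val_natCast_le_one (n : ℕ) : v (n : K) ≤ 1 := by
  induction n with
  | zero => simp
  | succ k ih =>
    rw [Nat.cast_succ]
    exact v.map_add_le ih (by simp)

/-- Multiples of a point in the kernel of reduction: `z(j • P) ≡ j z(P)` to third order. -/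
theorem inKer_nsmul (h1 : W.a₁ = 0) (h3 : W.a₃ = 0) (h2 : v W.a₂ ≤ 1) (h4 : v W.a₄ ≤ 1)
    (h6 : v W.a₆ ≤ 1) {ρ : Γ₀} (hρ : ρ < 1) {P : W.Point} (hP : InKer v P)
    (hz : v (zc P) ≤ ρ) (j : ℕ) :
    InKer v (j • P) ∧ v (zc (j • P) - (j : K) * zc P) ≤ ρ ^ 3 := by
  induction j with
  | zero =>
    rw [zero_smul]
    refine ⟨inKer_zero v, ?_⟩
    simp
  | succ k ih =>
    obtain ⟨ih1, ih2⟩ := ih
    have hρ3 : ρ ^ 3 ≤ ρ := g_cube_le hρ.le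
    have hk : v (zc (k • P)) ≤ ρ := by
      have e : zc (k • P) = (zc (k • P) - (k : K) * zc P) + (k : K) * zc P := by ring
      rw [e]
      refine v.map_add_le (ih2.trans hρ3) ?_
      rw [map_mul]
      exact g_mul_le (val_natCast_le_one v k) hz
    obtain ⟨a1, a2⟩ := inKer_add v h1 h3 h2 h4 h6 hρ ih1 hP hk hz
    rw [succ_nsmul]
    refine ⟨a1, ?_⟩
    have e : zc (k • P + P) - ((k + 1 : ℕ) : K) * zc P =
        (zc (k • P + P) - zc (k • P) - zc P) + (zc (k • P) - (k : K) * zc P) := by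
      push_cast
      ring
    rw [e]
    exact v.map_add_le a2 ih2

/-- **W2.** A point in the kernel of reduction is not killed by an integer which is a unit. -/
theorem nsmul_ne_zero_of_one_lt (h1 : W.a₁ = 0) (h3 : W.a₃ = 0) (h2 : v W.a₂ ≤ 1)
    (h4 : v W.a₄ ≤ 1) (h6 : v W.a₆ ≤ 1) {x y : K} (h : W.Nonsingular x y) (hx : 1 < v x)
    {n : ℕ} (hn : v (n : K) = 1) :
    n • Point.some x y h ≠ 0 ∧ InKer v (n • Point.some x y h) := by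
  obtain ⟨-, -, hz1, hz0, -⟩ := ker_basic v h2 h4 h6 (short_equation h1 h3 h.1) hx
  have hP : InKer v (Point.some x y h) := (inKer_some v h).mpr hx
  obtain ⟨k1, k2⟩ := inKer_nsmul v h1 h3 h2 h4 h6 hz1 hP (le_of_eq (congrArg v (zc_some h))) n
  refine ⟨?_, k1⟩
  intro h0
  rw [h0, zc_zero, zero_sub, Valuation.map_neg, map_mul, hn, one_mul, zc_some] at k2
  exact absurd k2 (not_le.mpr (g_cube_lt hz1 hz0))

end Curve

section Subring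

open WeierstrassCurve.Affine

variable {K : Type*} [Field K] [DecidableEq K] (A : ValuationSubring K)
  {W : WeierstrassCurve.Affine K}

/-- **W2**, for a valuation subring: if `x ∉ A` and `n` is a unit of `A`, then
`n • (x, y) ≠ 0`. -/
theorem nsmul_some_ne_zero (h1 : W.a₁ = 0) (h3 : W.a₃ = 0) (h2 : W.a₂ ∈ A) (h4 : W.a₄ ∈ A)
    (h6 : W.a₆ ∈ A) {x y : K} (h : W.Nonsingular x y) (hx : x ∉ A) {n : ℕ}
    (hn : A.valuation (n : K) = 1) : n • Point.some x y h ≠ 0 := by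
  have hx' : 1 < A.valuation x := by
    by_contra hcon
    push Not at hcon
    exact hx ((A.valuation_le_one_iff x).mp hcon)
  exact (nsmul_ne_zero_of_one_lt A.valuation h1 h3 ((A.valuation_le_one_iff _).mpr h2)
    ((A.valuation_le_one_iff _).mpr h4) ((A.valuation_le_one_iff _).mpr h6) h hx' hn).1

/-- **W2**, contrapositive form: torsion points of order prime to the residue characteristic
have integral `x`-coordinate. -/
theorem x_mem_of_nsmul_eq_zero (h1 : W.a₁ = 0) (h3 : W.a₃ = 0) (h2 : W.a₂ ∈ A) (h4 : W.a₄ ∈ A)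
    (h6 : W.a₆ ∈ A) {x y : K} (h : W.Nonsingular x y) {n : ℕ}
    (hn : A.valuation (n : K) = 1) (h0 : n • Point.some x y h = 0) : x ∈ A := by
  by_contra hx
  exact nsmul_some_ne_zero A h1 h3 h2 h4 h6 h hx hn h0

/-- Integrality of the `y`-coordinate follows from that of the `x`-coordinate. -/
theorem y_mem_of_x_mem (h1 : W.a₁ = 0) (h3 : W.a₃ = 0) (h2 : W.a₂ ∈ A) (h4 : W.a₄ ∈ A)
    (h6 : W.a₆ ∈ A) {x y : K} (h : W.Equation x y) (hx : x ∈ A) : y ∈ A := by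
  have hE := short_equation h1 h3 h
  rw [← A.valuation_le_one_iff] at hx h2 h4 h6 ⊢
  by_contra hcon
  push Not at hcon
  have h1' : (1 : A.ValueGroup) < A.valuation y ^ 2 := one_lt_pow' hcon two_ne_zero
  have h2' : A.valuation y ^ 2 ≤ 1 := by
    rw [← map_pow, hE]
    refine Valuation.map_add_le _ (Valuation.map_add_le _ (Valuation.map_add_le _ ?_ ?_) ?_) h6
    · rw [map_pow]; exact pow_le_one' hx 3
    · rw [map_mul, map_pow]; exact g_mul_le h2 (pow_le_one' hx 2)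
    · rw [map_mul]; exact g_mul_le h4 hx
  exact absurd h2' (not_le.mpr h1')

end Subring

end Fermat.Agent.S05.H12
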