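import Mathlib

/-!
# S05, W4: inertia fixes the `p`-torsion points (coordinate form)

Setting: `K` a field with a valuation `v` (multiplicative notation: `v x ≤ 1` means integral,
`v x = 1` unit, `v x < 1` in the maximal ideal), `W` a Weierstrass curve over `K` in short form
`y² = x³ + a₂ x² + a₄ x` (`a₁ = a₃ = a₆ = 0`), `2` a unit.

* `fix_core`: the slope argument.
* `units_of_torsion`: unit criterion for the coordinates of torsion points of odd order.
* `fix_of_unit`, `fix_of_node`: the two cases, for pairs of points.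
* `fix_of_unit_sigma`, `fix_of_node_sigma`: the same for a ring endomorphism `σ` with
  `v (σ a - a) < 1` for all integral `a`.
-/

set_option autoImplicit false
set_option linter.unusedSectionVars false

namespace Fermat.Agent.S05.H21

open WeierstrassCurve WeierstrassCurve.Affine

variable {K : Type*} [Field K] [DecidableEq K]
  {Γ₀ : Type*} [LinearOrderedCommGroupWithZero Γ₀]

lemma val_add_eq_one (v : Valuation K Γ₀) {a b : K} (ha : v a = 1) (hb : v b < 1) :
    v (a + b) = 1 := by
  rw [Valuation.map_add_eq_of_lt_left v (by rw [ha]; exact hb), ha]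

lemma val_add_lt_one (v : Valuation K Γ₀) {a b : K} (ha : v a < 1) (hb : v b < 1) :
    v (a + b) < 1 :=
  lt_of_le_of_lt (v.map_add _ _) (max_lt ha hb)

lemma val_add_le_one (v : Valuation K Γ₀) {a b : K} (ha : v a ≤ 1) (hb : v b ≤ 1) :
    v (a + b) ≤ 1 :=
  le_trans (v.map_add _ _) (max_le ha hb)

lemma val_mul_le_one (v : Valuation K Γ₀) {a b : K} (ha : v a ≤ 1) (hb : v b ≤ 1) :
    v (a * b) ≤ 1 := by
  rw [map_mul]
  exact mul_le_one' ha hb

lemma val_mul_lt_one_left (v : Valuation K Γ₀) {a b : K} (ha : v a < 1) (hb : v b ≤ 1) :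
    v (a * b) < 1 := by
  rw [map_mul]
  exact mul_lt_one_of_lt_of_le ha hb

lemma val_mul_lt_one_right (v : Valuation K Γ₀) {a b : K} (ha : v a ≤ 1) (hb : v b < 1) :
    v (a * b) < 1 := by
  rw [map_mul, mul_comm]
  exact mul_lt_one_of_lt_of_le hb ha

lemma val_lt_one_of_sq (v : Valuation K Γ₀) {a : K} (ha : v (a ^ 2) < 1) : v a < 1 := by
  by_contra hcon
  push Not at hcon
  rw [map_pow] at ha
  exact absurd ha (not_lt.mpr (one_le_pow₀ hcon))

lemma val_le_one_of_sq (v : Valuation K Γ₀) {a : K} (ha : v (a ^ 2) ≤ 1) : v a ≤ 1 := by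
  by_contra hcon
  push Not at hcon
  rw [map_pow] at ha
  exact absurd ha (not_le.mpr (one_lt_pow₀ hcon (by norm_num)))

lemma val_four (v : Valuation K Γ₀) (hv2 : v 2 = 1) : v 4 = 1 := by
  have : (4 : K) = 2 * 2 := by norm_num
  rw [this, map_mul, hv2, one_mul]


/-- The short Weierstrass equation. -/
lemma equation_short (W : WeierstrassCurve K) (h1 : W.a₁ = 0) (h3 : W.a₃ = 0) (h6 : W.a₆ = 0)
    {x y : K} (h : W.toAffine.Equation x y) : y ^ 2 = x ^ 3 + W.a₂ * x ^ 2 + W.a₄ * x := by
  have := (Affine.equation_iff x y).mp h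
  rw [h1, h3, h6] at this
  linear_combination this

/-- Doubling formula on the short form: `x(2P) · 4 y² = (x² - a₄)²`. -/
theorem double_X (W : WeierstrassCurve K) (h1 : W.a₁ = 0) (h3 : W.a₃ = 0) (h6 : W.a₆ = 0)
    (h2 : (2 : K) ≠ 0) {x y : K} (h : W.toAffine.Nonsingular x y) (hy : y ≠ 0) :
    ∃ (X Y : K) (hXY : W.toAffine.Nonsingular X Y),
      Point.some x y h + Point.some x y h = Point.some X Y hXY ∧
        X * (4 * y ^ 2) = (x ^ 2 - W.a₄) ^ 2 := by
  have hnegY : W.toAffine.negY x y = -y := by simp [Affine.negY, h1, h3]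
  have hyne : y ≠ W.toAffine.negY x y := by
    rw [hnegY]
    intro hcon
    have : 2 * y = 0 := by linear_combination hcon
    rcases mul_eq_zero.mp this with h0 | h0
    · exact h2 h0
    · exact hy h0
  refine ⟨_, _, _, Point.add_self_of_Y_ne hyne, ?_⟩
  rw [Affine.slope_of_Y_ne rfl hyne, hnegY]
  simp only [Affine.addX, h1, zero_mul, add_zero, sub_zero]
  have heq := equation_short W h1 h3 h6 h.1
  have h2y : y - -y ≠ 0 := by
    intro hcon
    apply hyne
    rw [hnegY]
    linear_combination hcon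
  set L : K := (3 * x ^ 2 + 2 * W.a₂ * x + W.a₄) / (y - -y) with hL
  have hL' : L * (2 * y) = 3 * x ^ 2 + 2 * W.a₂ * x + W.a₄ := by
    have : (2 * y : K) = y - -y := by ring
    rw [hL, this, div_mul_cancel₀ _ h2y]
  show (L ^ 2 - W.a₂ - x - x) * (4 * y ^ 2) = (x ^ 2 - W.a₄) ^ 2
  linear_combination (L * (2 * y) + (3 * x ^ 2 + 2 * W.a₂ * x + W.a₄)) * hL' -
    (4 * W.a₂ + 8 * x) * heq

/-- A point of odd order has `y ≠ 0`. -/
lemma y_ne_zero_of_odd_torsion (W : WeierstrassCurve K) (h1 : W.a₁ = 0) (h3 : W.a₃ = 0)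
    {p : ℕ} (hp : Odd p) {x y : K} (h : W.toAffine.Nonsingular x y)
    (hpP : p • Point.some x y h = 0) : y ≠ 0 := by
  intro hy
  have hnegY : W.toAffine.negY x y = -y := by simp [Affine.negY, h1, h3]
  have h2P : (2 : ℕ) • Point.some x y h = 0 := by
    rw [two_nsmul]
    apply Point.add_self_of_Y_eq
    rw [hnegY, hy, neg_zero]
  obtain ⟨k, rfl⟩ := hp
  have : Point.some x y h = 0 := by
    have h3 : (2 * k + 1) • Point.some x y h =
        k • ((2 : ℕ) • Point.some x y h) + Point.some x y h := by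
      rw [add_nsmul, one_nsmul, mul_comm, mul_nsmul']
    rw [h3, h2P, nsmul_zero, zero_add] at hpP
    exact hpP
  exact Point.some_ne_zero h this

/-- **Unit criterion.** For a nonzero point `(x, y)` of odd order `p`: if `a₂² - 4 a₄` is a unit
and either `a₄` or `x` is a unit, then `x` and `y` are units. -/
theorem units_of_torsion (W : WeierstrassCurve K) (h1 : W.a₁ = 0) (h3 : W.a₃ = 0)
    (h6 : W.a₆ = 0) (v : Valuation K Γ₀) (hv2 : v 2 = 1) (ha2 : v W.a₂ ≤ 1) (ha4 : v W.a₄ ≤ 1)
    (hdisc : v (W.a₂ ^ 2 - 4 * W.a₄) = 1) {p : ℕ} (hp : Odd p)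
    (hE1 : ∀ (x y : K) (h : W.toAffine.Nonsingular x y),
      p • (Point.some x y h) = 0 → v x ≤ 1)
    {x y : K} (h : W.toAffine.Nonsingular x y) (hpP : p • Point.some x y h = 0)
    (hcase : v W.a₄ = 1 ∨ v x = 1) : v x = 1 ∧ v y = 1 := by
  have hv4 := val_four v hv2
  have h20 : (2 : K) ≠ 0 := by
    intro h0
    rw [h0, map_zero] at hv2
    exact zero_ne_one hv2
  have hvx : v x ≤ 1 := hE1 _ _ h hpP
  have hy0 : y ≠ 0 := y_ne_zero_of_odd_torsion W h1 h3 hp h hpP
  have heq := equation_short W h1 h3 h6 h.1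
  have hvy : v y ≤ 1 := by
    apply val_le_one_of_sq
    rw [heq]
    refine val_add_le_one v (val_add_le_one v ?_ ?_) (val_mul_le_one v ha4 hvx)
    · rw [map_pow]; exact pow_le_one₀ zero_le hvx
    · refine val_mul_le_one v ha2 ?_
      rw [map_pow]; exact pow_le_one₀ zero_le hvx
  have hvy1 : v y = 1 := by
    by_contra hcon
    have hylt : v y < 1 := lt_of_le_of_ne hvy hcon
    obtain ⟨X, Y, hXY, h2P, hX⟩ := double_X W h1 h3 h6 h20 h hy0
    have hpX : p • Point.some X Y hXY = 0 := by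
      rw [← h2P, ← two_nsmul, ← mul_nsmul, mul_comm, mul_nsmul, hpP, nsmul_zero]
    have hvX : v X ≤ 1 := hE1 _ _ hXY hpX
    have hy2 : v (y ^ 2) < 1 := by
      rw [map_pow]; exact pow_lt_one₀ zero_le hylt (by norm_num)
    have h1' : v (x ^ 2 - W.a₄) < 1 := by
      apply val_lt_one_of_sq
      rw [← hX]
      exact val_mul_lt_one_right v hvX (val_mul_lt_one_right v hv4.le hy2)
    have hx1 : v x = 1 := by
      rcases hcase with hc | hc
      · have hx2 : v (x ^ 2) = 1 := by
          have : x ^ 2 = W.a₄ + (x ^ 2 - W.a₄) := by ring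
          rw [this]
          exact val_add_eq_one v hc h1'
        by_contra hne
        have hxlt : v x < 1 := lt_of_le_of_ne hvx hne
        have : v (x ^ 2) < 1 := by
          rw [map_pow]; exact pow_lt_one₀ zero_le hxlt (by norm_num)
        rw [hx2] at this
        exact lt_irrefl _ this
      · exact hc
    have h2' : v (2 * x + W.a₂) < 1 := by
      have h3' : v (x ^ 2 * (2 * x + W.a₂)) < 1 := by
        have : x ^ 2 * (2 * x + W.a₂) = y ^ 2 + x * (x ^ 2 - W.a₄) := by
          linear_combination -heq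
        rw [this]
        exact val_add_lt_one v hy2 (val_mul_lt_one_right v hvx h1')
      rw [map_mul, map_pow, hx1, one_pow, one_mul] at h3'
      exact h3'
    have : v (W.a₂ ^ 2 - 4 * W.a₄) < 1 := by
      have h4 : W.a₂ ^ 2 - 4 * W.a₄ = (2 * x + W.a₂) * (W.a₂ - 2 * x) + 4 * (x ^ 2 - W.a₄) := by
        ring
      rw [h4]
      refine val_add_lt_one v (val_mul_lt_one_left v h2' ?_) (val_mul_lt_one_right v hv4.le h1')
      rw [sub_eq_add_neg]
      refine val_add_le_one v ha2 ?_
      rw [Valuation.map_neg, map_mul, hv2, one_mul]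
      exact hvx
    rw [hdisc] at this
    exact lt_irrefl _ this
  refine ⟨?_, hvy1⟩
  rcases hcase with hc | hc
  · by_contra hne
    have hxlt : v x < 1 := lt_of_le_of_ne hvx hne
    have : v (y ^ 2) < 1 := by
      have h5 : y ^ 2 = x * (x ^ 2 + W.a₂ * x + W.a₄) := by linear_combination heq
      rw [h5]
      refine val_mul_lt_one_left v hxlt (val_add_le_one v (val_add_le_one v ?_ ?_) ha4)
      · rw [map_pow]; exact pow_le_one₀ zero_le hvx
      · exact val_mul_le_one v ha2 hvx
    rw [map_pow, hvy1, one_pow] at this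
    exact lt_irrefl _ this
  · exact hc

lemma val_eq_one_of_sub (v : Valuation K Γ₀) {a b : K} (ha : v a = 1) (hb : v (b - a) < 1) :
    v b = 1 := by
  have : b = a + (b - a) := by ring
  rw [this]
  exact val_add_eq_one v ha hb

/-- **Core lemma.** Two `p`-torsion points `(x, y)`, `(x', y')` with `x = c u`, `x' = c u'`,
`y = x t`, `y' = x' t'`, where `u`, `t` are units, `u' ≡ u` and `t' ≡ t`, are equal, provided
that nonzero `p`-torsion points have integral `x`-coordinate. -/
theorem fix_core (W : WeierstrassCurve K) (h1 : W.a₁ = 0) (h3 : W.a₃ = 0)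
    (v : Valuation K Γ₀) (hv2 : v 2 = 1) (ha2 : v W.a₂ ≤ 1) (p : ℕ)
    (hE1 : ∀ (x y : K) (h : W.toAffine.Nonsingular x y),
      p • (Point.some x y h) = 0 → v x ≤ 1)
    {x y x' y' : K} (h : W.toAffine.Nonsingular x y) (h' : W.toAffine.Nonsingular x' y')
    (hp : p • Point.some x y h = 0) (hp' : p • Point.some x' y' h' = 0)
    {c u u' t t' : K} (hc : v c ≤ 1) (hx : x = c * u) (hx' : x' = c * u')
    (hu : v u = 1) (huu : v (u' - u) < 1)
    (hy : y = x * t) (hy' : y' = x' * t') (ht : v t = 1) (htt : v (t' - t) < 1) :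
    x' = x ∧ y' = y := by
  have hu' : v u' = 1 := val_eq_one_of_sub v hu huu
  have ht' : v t' = 1 := val_eq_one_of_sub v ht htt
  have hnegY : ∀ a b : K, W.toAffine.negY a b = -b := by
    intro a b
    simp [Affine.negY, h1, h3]
  by_cases hxx : x' = x
  · refine ⟨hxx, ?_⟩
    by_cases hx0 : x = 0
    · rw [hy', hy, hxx, hx0, zero_mul, zero_mul]
    rcases Affine.Y_eq_of_X_eq h'.1 h.1 hxx with hyy | hyy
    · exact hyy
    · exfalso
      rw [hnegY] at hyy
      have h2 : t' = -t := by
        rw [hy', hy, hxx] at hyy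
        have : x * (t' + t) = 0 := by linear_combination hyy
        rcases mul_eq_zero.mp this with h0 | h0
        · exact absurd h0 hx0
        · linear_combination h0
      have h3 : v (t' - t) = 1 := by
        rw [h2]
        have : -t - t = -(2 * t) := by ring
        rw [this, Valuation.map_neg, map_mul, hv2, ht, one_mul]
      rw [h3] at htt
      exact lt_irrefl _ htt
  · exfalso
    have hc0 : c ≠ 0 := by
      rintro rfl
      apply hxx
      rw [hx, hx', zero_mul, zero_mul]
    have huu0 : u' - u ≠ 0 := by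
      intro h0
      apply hxx
      rw [hx, hx', sub_eq_zero.mp h0]
    -- the difference `Q = P' - P`
    have hQ : Point.some x' y' h' - Point.some x y h =
        Point.some _ _ (Affine.nonsingular_add h' ((Affine.nonsingular_neg x y).mpr h)
          fun hxy => hxx hxy.left) := by
      rw [sub_eq_add_neg, Point.neg_some, Point.add_of_X_ne hxx]
    have hpQ : p • (Point.some x' y' h' - Point.some x y h) = 0 := by
      rw [nsmul_sub, hp, hp', sub_zero]
    rw [hQ] at hpQ
    have hX := hE1 _ _ _ hpQ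
    rw [Affine.slope_of_X_ne hxx, hnegY] at hX
    simp only [Affine.addX, h1, zero_mul, add_zero] at hX
    -- the slope
    set L : K := (y' - -y) / (x' - x) with hL
    have hLeq : L = (u' * t' + u * t) / (u' - u) := by
      rw [hL, hy', hy, hx', hx]
      field_simp
      ring
    have hnum : v (u' * t' + u * t) = 1 := by
      have : u' * t' + u * t = 2 * u * t + (u' * (t' - t) + (u' - u) * t) := by ring
      rw [this]
      apply val_add_eq_one
      · rw [map_mul, map_mul, hv2, hu, ht, one_mul, one_mul]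
      · apply lt_of_le_of_lt (v.map_add _ _)
        apply max_lt
        · rw [map_mul, hu', one_mul]; exact htt
        · rw [map_mul, ht, mul_one]; exact huu
    have hvL : 1 < v L := by
      rw [hLeq, map_div₀, hnum]
      have hpos : 0 < v (u' - u) := by
        rw [Valuation.pos_iff]; exact huu0
      rw [one_div]
      exact (one_lt_inv₀ hpos).mpr huu
    have hvx : v x ≤ 1 := by rw [hx, map_mul, hu, mul_one]; exact hc
    have hvx' : v x' ≤ 1 := by rw [hx', map_mul, hu', mul_one]; exact hc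
    have hL2 : v (L ^ 2) ≤ 1 := by
      have : L ^ 2 = (L ^ 2 - W.a₂ - x' - x) + W.a₂ + x' + x := by ring
      rw [this]
      refine le_trans (v.map_add _ _) (max_le (le_trans (v.map_add _ _) (max_le
        (le_trans (v.map_add _ _) (max_le hX ha2)) hvx')) hvx)
    rw [map_pow] at hL2
    have : v L ≤ 1 := by
      by_contra hcon
      push Not at hcon
      have := one_lt_pow₀ hcon (n := 2) (by norm_num)
      exact absurd hL2 (not_le.mpr this)
    exact absurd hvL (not_lt.mpr this)


/-- In the node case (`0 < v(x) < v(a₄)` additively, `a₂` a unit), `t = y / x` is a unit. -/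
theorem t_unit_of_node (W : WeierstrassCurve K) (h1 : W.a₁ = 0) (h3 : W.a₃ = 0)
    (h6 : W.a₆ = 0) (v : Valuation K Γ₀) (ha2 : v W.a₂ = 1)
    {x y : K} (h : W.toAffine.Equation x y) (hx : v x < 1) (hx4 : v W.a₄ < v x) :
    v (y / x) = 1 := by
  have hx0 : x ≠ 0 := by
    intro h0
    rw [h0, map_zero] at hx4
    exact not_lt_zero hx4
  have heq := equation_short W h1 h3 h6 h
  have h2 : (y / x) ^ 2 = W.a₂ + (x + W.a₄ / x) := by
    field_simp
    linear_combination heq
  have h4 : v (W.a₄ / x) < 1 := by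
    rw [map_div₀]
    have hpos : 0 < v x := by rw [Valuation.pos_iff]; exact hx0
    exact (div_lt_one₀ hpos).mpr hx4
  have h5 : v ((y / x) ^ 2) = 1 := by
    rw [h2]
    exact val_add_eq_one v ha2 (val_add_lt_one v hx h4)
  rw [map_pow] at h5
  by_contra hne
  rcases lt_or_gt_of_ne hne with hlt | hgt
  · have := pow_lt_one₀ zero_le hlt (n := 2) (by norm_num)
    rw [h5] at this
    exact lt_irrefl _ this
  · have := one_lt_pow₀ hgt (n := 2) (by norm_num)
    rw [h5] at this
    exact lt_irrefl _ this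

/-- **Case of unit coordinates** (good reduction, or points not reducing to the node). -/
theorem fix_of_unit (W : WeierstrassCurve K) (h1 : W.a₁ = 0) (h3 : W.a₃ = 0)
    (h6 : W.a₆ = 0) (v : Valuation K Γ₀) (hv2 : v 2 = 1) (ha2 : v W.a₂ ≤ 1) (ha4 : v W.a₄ ≤ 1)
    (hdisc : v (W.a₂ ^ 2 - 4 * W.a₄) = 1) {p : ℕ} (hp : Odd p)
    (hE1 : ∀ (x y : K) (h : W.toAffine.Nonsingular x y),
      p • (Point.some x y h) = 0 → v x ≤ 1)
    {x y x' y' : K} (h : W.toAffine.Nonsingular x y) (h' : W.toAffine.Nonsingular x' y')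
    (hpP : p • Point.some x y h = 0) (hpP' : p • Point.some x' y' h' = 0)
    (hxx : v (x' - x) < 1) (hyy : v (y' - y) < 1)
    (hcase : v W.a₄ = 1 ∨ v x = 1) : x' = x ∧ y' = y := by
  obtain ⟨hx1, hy1⟩ := units_of_torsion W h1 h3 h6 v hv2 ha2 ha4 hdisc hp hE1 h hpP hcase
  have hx'1 : v x' = 1 := val_eq_one_of_sub v hx1 hxx
  have hy'1 : v y' = 1 := val_eq_one_of_sub v hy1 hyy
  have hx0 : x ≠ 0 := by
    intro h0; rw [h0, map_zero] at hx1; exact zero_ne_one hx1
  have hx'0 : x' ≠ 0 := by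
    intro h0; rw [h0, map_zero] at hx'1; exact zero_ne_one hx'1
  refine fix_core W h1 h3 v hv2 ha2 p hE1 h h' hpP hpP' (c := 1) (u := x) (u' := x')
    (t := y / x) (t' := y' / x') (by rw [map_one]) (one_mul x).symm (one_mul x').symm hx1 hxx
    (by field_simp) (by field_simp) (by rw [map_div₀, hx1, hy1, div_one]) ?_
  have : y' / x' - y / x = ((y' - y) * x - y * (x' - x)) / (x * x') := by
    field_simp
    ring
  rw [this, map_div₀, map_mul, hx1, hx'1, one_mul, div_one, sub_eq_add_neg]
  refine val_add_lt_one v (val_mul_lt_one_left v hyy hx1.le) ?_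
  rw [Valuation.map_neg]
  exact val_mul_lt_one_right v hy1.le hxx

/-- **Node case**: points reducing to the node `(0, 0)`, with `x = c u`, `x' = c u'`. -/
theorem fix_of_node (W : WeierstrassCurve K) (h1 : W.a₁ = 0) (h3 : W.a₃ = 0)
    (h6 : W.a₆ = 0) (v : Valuation K Γ₀) (hv2 : v 2 = 1) (ha2 : v W.a₂ = 1) (p : ℕ)
    (hE1 : ∀ (x y : K) (h : W.toAffine.Nonsingular x y),
      p • (Point.some x y h) = 0 → v x ≤ 1)
    {x y x' y' : K} (h : W.toAffine.Nonsingular x y) (h' : W.toAffine.Nonsingular x' y')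
    (hpP : p • Point.some x y h = 0) (hpP' : p • Point.some x' y' h' = 0)
    {c u u' : K} (hx : x = c * u) (hx' : x' = c * u') (hu : v u = 1) (huu : v (u' - u) < 1)
    (hxlt : v x < 1) (hx4 : v W.a₄ < v x) (htt : v (y' / x' - y / x) < 1) :
    x' = x ∧ y' = y := by
  have hu' : v u' = 1 := val_eq_one_of_sub v hu huu
  have hx0 : x ≠ 0 := by
    intro h0
    rw [h0, map_zero] at hx4
    exact not_lt_zero hx4
  have hc0 : c ≠ 0 := by
    rintro rfl
    exact hx0 (by rw [hx, zero_mul])
  have hu'0 : u' ≠ 0 := by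
    intro h0; rw [h0, map_zero] at hu'; exact zero_ne_one hu'
  have hx'0 : x' ≠ 0 := by
    rw [hx']; exact mul_ne_zero hc0 hu'0
  have hc : v c ≤ 1 := by
    have : v x = v c := by rw [hx, map_mul, hu, mul_one]
    rw [← this]; exact hxlt.le
  have ht := t_unit_of_node W h1 h3 h6 v ha2 h.1 hxlt hx4
  exact fix_core W h1 h3 v hv2 ha2.le p hE1 h h' hpP hpP' (t := y / x) (t' := y' / x') hc hx hx'
    hu huu (by field_simp) (by field_simp) ht htt

section Sigma

variable (σ : K →+* K)

/-- **Case of unit coordinates**, for an endomorphism `σ` acting trivially on the residue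
field. -/
theorem fix_of_unit_sigma (W : WeierstrassCurve K) (h1 : W.a₁ = 0) (h3 : W.a₃ = 0)
    (h6 : W.a₆ = 0) (v : Valuation K Γ₀) (hv2 : v 2 = 1) (ha2 : v W.a₂ ≤ 1) (ha4 : v W.a₄ ≤ 1)
    (hdisc : v (W.a₂ ^ 2 - 4 * W.a₄) = 1) {p : ℕ} (hp : Odd p)
    (hE1 : ∀ (x y : K) (h : W.toAffine.Nonsingular x y),
      p • (Point.some x y h) = 0 → v x ≤ 1)
    (hσ : ∀ a : K, v a ≤ 1 → v (σ a - a) < 1)
    {x y : K} (h : W.toAffine.Nonsingular x y) (h' : W.toAffine.Nonsingular (σ x) (σ y))
    (hpP : p • Point.some x y h = 0) (hpP' : p • Point.some (σ x) (σ y) h' = 0)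
    (hcase : v W.a₄ = 1 ∨ v x = 1) : σ x = x ∧ σ y = y := by
  obtain ⟨hx1, hy1⟩ := units_of_torsion W h1 h3 h6 v hv2 ha2 ha4 hdisc hp hE1 h hpP hcase
  exact fix_of_unit W h1 h3 h6 v hv2 ha2 ha4 hdisc hp hE1 h h' hpP hpP' (hσ x hx1.le)
    (hσ y hy1.le) hcase

/-- **Node case**, for an endomorphism `σ` acting trivially on the residue field: if
`v x = v c` with `σ c = c`, then `σ` fixes the point. -/
theorem fix_of_node_sigma (W : WeierstrassCurve K) (h1 : W.a₁ = 0) (h3 : W.a₃ = 0)
    (h6 : W.a₆ = 0) (v : Valuation K Γ₀) (hv2 : v 2 = 1) (ha2 : v W.a₂ = 1) (p : ℕ)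
    (hE1 : ∀ (x y : K) (h : W.toAffine.Nonsingular x y),
      p • (Point.some x y h) = 0 → v x ≤ 1)
    (hσ : ∀ a : K, v a ≤ 1 → v (σ a - a) < 1)
    {x y : K} (h : W.toAffine.Nonsingular x y) (h' : W.toAffine.Nonsingular (σ x) (σ y))
    (hpP : p • Point.some x y h = 0) (hpP' : p • Point.some (σ x) (σ y) h' = 0)
    {c : K} (hσc : σ c = c) (hxc : v x = v c)
    (hxlt : v x < 1) (hx4 : v W.a₄ < v x) : σ x = x ∧ σ y = y := by
  have hx0 : x ≠ 0 := by
    intro h0
    rw [h0, map_zero] at hx4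
    exact not_lt_zero hx4
  have hc0 : c ≠ 0 := by
    rintro rfl
    rw [map_zero] at hxc
    exact hx0 ((map_eq_zero v).mp hxc)
  have hu : v (x / c) = 1 := by
    rw [map_div₀, hxc, div_self]
    exact (map_ne_zero v).mpr hc0
  have ht := t_unit_of_node W h1 h3 h6 v ha2 h.1 hxlt hx4
  refine fix_of_node W h1 h3 h6 v hv2 ha2 p hE1 h h' hpP hpP' (c := c) (u := x / c)
    (u' := σ (x / c)) (by field_simp) ?_ hu (hσ _ hu.le) hxlt hx4 ?_
  · rw [map_div₀, hσc]; field_simp
  · rw [← map_div₀]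
    exact hσ _ ht.le

end Sigma

end Fermat.Agent.S05.H21
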