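import Fermat.Agent.S05.H19_Vieta

/-!
# S05, work package W3 (helper20): the node data and the component map

`K` is a field with a valuation subring `A` (residue characteristic `≠ 2`), and `W` is a short
Weierstrass curve `y² = x³ + α x² + β x` with `α` a unit of `A`, `β` a nonzero nonunit of `A`
and `ρ² = α`.  Its reduction has a node at `(0, 0)` with tangent directions `y = ± ρ x`.

Affine points are sorted into three classes by `v = A.valuation` (multiplicative notation):
* good   `1 ≤ v x`
* middle `v β < v x < 1`, with a sign: `v (y / x - ρ) < 1` or `v (y / x + ρ) < 1`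
* far    `v x ≤ v β`
-/

open WeierstrassCurve WeierstrassCurve.Affine

namespace Fermat.Agent.S05.W3

variable {K : Type*} [Field K]

/-- The standing hypotheses of W3. -/
structure NodeData (A : ValuationSubring K) (W : Affine K) (ρ : K) : Prop where
  short : Vieta.IsShort W
  two : A.valuation (2 : K) = 1
  al : A.valuation W.a₂ = 1
  rho : ρ ^ 2 = W.a₂
  be : A.valuation W.a₄ < 1
  be0 : W.a₄ ≠ 0

namespace NodeData

variable {A : ValuationSubring K} {W : Affine K} {ρ : K}

lemma neg (hD : NodeData A W ρ) : NodeData A W (-ρ) :=
  { hD with rho := by rw [neg_sq]; exact hD.rho }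

lemma val_rho (hD : NodeData A W ρ) : A.valuation ρ = 1 := by
  have h : A.valuation ρ ^ 2 = 1 := by rw [← map_pow, hD.rho, hD.al]
  exact (pow_eq_one_iff_of_nonneg zero_le two_ne_zero).mp h

lemma rho_ne_zero (hD : NodeData A W ρ) : ρ ≠ 0 := by
  intro h
  have := hD.val_rho
  rw [h, map_zero] at this
  exact zero_ne_one this

lemma val_be_ne_zero (hD : NodeData A W ρ) : A.valuation W.a₄ ≠ 0 :=
  (map_ne_zero _).mpr hD.be0

end NodeData

end Fermat.Agent.S05.W3
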