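import Mathlib
import Fermat.Prelude.Def_FLTPrelim_FreyPackage
import Fermat.Prelude.Def_FLTPrelim_GaloisRep
import Fermat.Prelude.Def_FLTPrelim_Ramification
import Fermat.Agent.S05.H7_Inertia
import Fermat.Agent.S05.H13_Inertia
import Fermat.Agent.S05.H22_VarChange
import Fermat.Agent.S05.W3_Defs

/-!
# S05, final assembly (helper28)

The Frey curve `Y² + XY = X³ + ((B - 1 - A)/4) X² - (AB/16) X` (`A = a^p`, `B = b^p`,
`C = A + B = c^p`) is brought, by the rational change of variables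
`freyChange ρ = (u, r, s, t) = (1/2, ρ/4, -1/2, -ρ/8)`, into the short form
`y² = x³ + (B - A + 3ρ) x² + (-AB + 2ρB - 2ρA + 3ρ²) x + ρ (ρ - A) (ρ + B)`.

* `ρ = 0`: `y² = x³ + (B - A) x² - AB x`, with `α² - 4β = C²`, `β = -(ab)^p`;
* `ρ = A`: `y² = x³ + (2A + B) x² + AC x`, with `α² - 4β = B²`, `β = (ac)^p`.

For an odd prime `q ≠ p` we use `ρ = 0` if `q ∤ c` and `ρ = A` if `q ∣ c`; in both cases
`α² - 4β` is a `q`-unit, so that the model has good reduction (`q ∤ β`) or multiplicative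
reduction with node at `(0, 0)` (`q ∣ β`, and then `α` is a `q`-unit).
-/

set_option autoImplicit false

open WeierstrassCurve WeierstrassCurve.Affine WeierstrassCurve.Affine.Point

namespace Fermat.Agent.S05.H28

/-! ## The change of variables -/

/-- The rational change of variables bringing the Frey curve into short form, with the
`2`-torsion point of abscissa `ρ / 4` moved to the origin. -/
noncomputable def freyChange (ρ : ℚ) : VariableChange ℚ :=
  ⟨Units.mk0 (1 / 2) (by norm_num), ρ / 4, -1 / 2, -ρ / 8⟩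

lemma freyChange_u_inv (ρ : ℚ) : (((freyChange ρ).u⁻¹ : ℚˣ) : ℚ) = 2 := by
  simp [freyChange]

lemma freyChange_a₁ (P : FreyPackage) (ρ : ℚ) : (freyChange ρ • P.freyCurve).a₁ = 0 := by
  rw [variableChange_a₁, freyChange_u_inv]
  simp only [freyChange, FreyPackage.freyCurve]
  ring

lemma freyChange_a₃ (P : FreyPackage) (ρ : ℚ) : (freyChange ρ • P.freyCurve).a₃ = 0 := by
  rw [variableChange_a₃, freyChange_u_inv]
  simp only [freyChange, FreyPackage.freyCurve]
  ring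

lemma freyChange_a₂ (P : FreyPackage) (ρ : ℚ) :
    (freyChange ρ • P.freyCurve).a₂ = (P.b : ℚ) ^ P.p - (P.a : ℚ) ^ P.p + 3 * ρ := by
  rw [variableChange_a₂, freyChange_u_inv]
  simp only [freyChange, FreyPackage.freyCurve]
  ring

lemma freyChange_a₄ (P : FreyPackage) (ρ : ℚ) :
    (freyChange ρ • P.freyCurve).a₄ =
      -((P.a : ℚ) ^ P.p * (P.b : ℚ) ^ P.p) + 2 * ρ * (P.b : ℚ) ^ P.p
        - 2 * ρ * (P.a : ℚ) ^ P.p + 3 * ρ ^ 2 := by
  rw [variableChange_a₄, freyChange_u_inv]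
  simp only [freyChange, FreyPackage.freyCurve]
  ring

lemma freyChange_a₆ (P : FreyPackage) (ρ : ℚ) :
    (freyChange ρ • P.freyCurve).a₆ =
      ρ * (ρ - (P.a : ℚ) ^ P.p) * (ρ + (P.b : ℚ) ^ P.p) := by
  rw [variableChange_a₆, freyChange_u_inv]
  simp only [freyChange, FreyPackage.freyCurve]
  ring

/-! ## The two inputs still to be supplied (W2 and W3), as statements -/

/-- Shape of the output of W2: on a short curve with integral coefficients, a point killed by
an integer `p` which is a unit of `A` has integral abscissa. -/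
def KernelStatement : Prop :=
  ∀ (A : ValuationSubring (AlgebraicClosure ℚ)) (W : Affine (AlgebraicClosure ℚ)),
    W.a₁ = 0 → W.a₃ = 0 → W.a₆ = 0 → W.a₂ ∈ A → W.a₄ ∈ A →
    ∀ p : ℕ, A.valuation (p : AlgebraicClosure ℚ) = 1 →
    ∀ (x y : AlgebraicClosure ℚ) (h : W.Nonsingular x y),
      p • Point.some x y h = 0 → x ∈ A

/-- Shape of the output of W3: `p`-torsion points near the node. -/
def NodeStatement : Prop :=
  ∀ (A : ValuationSubring (AlgebraicClosure ℚ)) (W : Affine (AlgebraicClosure ℚ))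
    (ρ : AlgebraicClosure ℚ), W3.NodeData A W ρ → ∀ p : ℕ, Odd p →
    ∀ (x y : AlgebraicClosure ℚ) (h : W.Nonsingular x y),
      p • Point.some x y h = 0 → A.valuation x < 1 → x ≠ 0 →
      A.valuation W.a₄ < A.valuation x ∧
        ∃ k : ℤ, A.valuation x ^ p = A.valuation W.a₄ ^ (2 * k)

/-! ## Inertia acts trivially on the `p`-torsion of a short model -/

section Model

lemma h28_pow_left_inj {Γ : Type*} [LinearOrderedCommGroupWithZero Γ] {a b : Γ}
    {n : ℕ} (hn : n ≠ 0) (h : a ^ n = b ^ n) : a = b :=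
  (pow_left_inj₀ zero_le zero_le hn).mp h

lemma h28_map_intCast (σ : AlgebraicClosure ℚ ≃ₐ[ℚ] AlgebraicClosure ℚ) (n : ℤ) :
    σ (n : AlgebraicClosure ℚ) = n := map_intCast σ n

theorem unramified_of_model (hK : KernelStatement) (hN : NodeStatement)
    {q p : ℕ} (hq : q.Prime) (hq2 : q ≠ 2) (hp : Odd p) (hqp : ¬ q ∣ p)
    (W₁ : WeierstrassCurve ℚ) (al be t : ℤ)
    (h₁ : W₁.a₁ = 0) (h₃ : W₁.a₃ = 0) (h₆ : W₁.a₆ = 0)
    (h₂ : W₁.a₂ = al) (h₄ : W₁.a₄ = be)
    (hbe : be = t ^ p ∨ be = -t ^ p) (ht : t ≠ 0)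
    (hdisc : ¬ (q : ℤ) ∣ al ^ 2 - 4 * be) :
    GaloisRepUnramifiedAt (K := AlgebraicClosure ℚ) ℚ W₁ p q := by
  intro A hA σ hσ x
  apply Subtype.ext
  show σ • (x : (W₁⁄(AlgebraicClosure ℚ)).Point) = x
  have hx : p • (x : (W₁⁄(AlgebraicClosure ℚ)).Point) = 0 := by
    have := (Submodule.mem_torsionBy_iff _ _).mp x.2
    rwa [natCast_zsmul] at this
  -- coefficients of the base change
  have e₁ : (W₁⁄(AlgebraicClosure ℚ)).a₁ = 0 := by
    simp [WeierstrassCurve.baseChange, h₁]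
  have e₃ : (W₁⁄(AlgebraicClosure ℚ)).a₃ = 0 := by
    simp [WeierstrassCurve.baseChange, h₃]
  have e₆ : (W₁⁄(AlgebraicClosure ℚ)).a₆ = 0 := by
    simp [WeierstrassCurve.baseChange, h₆]
  have e₂ : (W₁⁄(AlgebraicClosure ℚ)).a₂ = ((al : ℤ) : AlgebraicClosure ℚ) := by
    simp [WeierstrassCurve.baseChange, h₂]
  have e₄ : (W₁⁄(AlgebraicClosure ℚ)).a₄ = ((be : ℤ) : AlgebraicClosure ℚ) := by
    simp [WeierstrassCurve.baseChange, h₄]
  -- valuations of integers
  have hqZ : Prime (q : ℤ) := Nat.prime_iff_prime_int.mp hq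
  have h2 : A.valuation (2 : AlgebraicClosure ℚ) = 1 := by
    have h := H7.valuation_intCast_eq_one (L := AlgebraicClosure ℚ) (A := A) hq hA (n := 2) (by
      intro hdvd
      have h' : q ∣ 2 := by exact_mod_cast hdvd
      exact hq2 ((Nat.prime_dvd_prime_iff_eq hq Nat.prime_two).mp h'))
    simpa using h
  have hpu : A.valuation (p : AlgebraicClosure ℚ) = 1 := by
    have h := H7.valuation_intCast_eq_one (L := AlgebraicClosure ℚ) (A := A) hq hA (n := (p : ℤ))
      (by intro hdvd; exact hqp (by exact_mod_cast hdvd))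
    simpa using h
  have hal : (W₁⁄(AlgebraicClosure ℚ)).a₂ ∈ A := by rw [e₂]; exact H7.intCast_mem' al
  have hbeA : (W₁⁄(AlgebraicClosure ℚ)).a₄ ∈ A := by rw [e₄]; exact H7.intCast_mem' be
  have hσ' : ∀ a ∈ A, σ a - a ∈ A.nonunits := fun a ha => H7.apply_sub_mem_nonunits hσ ha
  have hG1 := hK A (W₁⁄(AlgebraicClosure ℚ)) e₁ e₃ e₆ hal hbeA p hpu
  have hdiscv : A.valuation ((W₁⁄(AlgebraicClosure ℚ)).a₂ ^ 2
      - 4 * (W₁⁄(AlgebraicClosure ℚ)).a₄) = 1 := by
    have h := H7.valuation_intCast_eq_one (L := AlgebraicClosure ℚ) (A := A) hq hA hdisc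
    rw [e₂, e₄]
    simpa using h
  by_cases hqbe : (q : ℤ) ∣ be
  · -- multiplicative reduction, node at the origin
    have hqal : ¬ (q : ℤ) ∣ al := by
      intro h
      apply hdisc
      exact dvd_sub (dvd_pow h two_ne_zero) (dvd_mul_of_dvd_right hqbe 4)
    have hal1 : A.valuation (W₁⁄(AlgebraicClosure ℚ)).a₂ = 1 := by
      rw [e₂]; exact H7.valuation_intCast_eq_one hq hA hqal
    have hbe1 : A.valuation (W₁⁄(AlgebraicClosure ℚ)).a₄ < 1 := by
      rw [e₄]; exact (H7.valuation_intCast_lt_one_iff hq hA be).mpr hqbe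
    have hbe0 : be ≠ 0 := by
      rcases hbe with h | h
      · rw [h]; exact pow_ne_zero _ ht
      · rw [h]; exact neg_ne_zero.mpr (pow_ne_zero _ ht)
    have hvbe : A.valuation (W₁⁄(AlgebraicClosure ℚ)).a₄
        = A.valuation ((t : ℤ) : AlgebraicClosure ℚ) ^ p := by
      rw [e₄]
      rcases hbe with h | h
      · rw [h]; push_cast; rw [map_pow]
      · rw [h]; push_cast; rw [Valuation.map_neg, map_pow]
    obtain ⟨ρ, hρ⟩ : ∃ ρ : AlgebraicClosure ℚ, ρ ^ 2 = (W₁⁄(AlgebraicClosure ℚ)).a₂ :=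
      IsAlgClosed.exists_pow_nat_eq _ (by norm_num)
    have hD : W3.NodeData A (W₁⁄(AlgebraicClosure ℚ)) ρ :=
      { short := ⟨e₁, e₃, e₆⟩
        two := h2
        al := hal1
        rho := hρ
        be := hbe1
        be0 := by rw [e₄]; exact_mod_cast hbe0 }
    have hp0 : p ≠ 0 := by rintro rfl; simp at hp
    refine H13.smul_eq_self_of_mult A σ e₁ e₃ e₆ h2 hσ' hp hG1 hal1 hbe1 ?_ _ hx
    intro x' y' h' hP' hx' hx0
    obtain ⟨hlt, k, hk⟩ := hN A (W₁⁄(AlgebraicClosure ℚ)) ρ hD p hp x' y' h' hP' hx' hx0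
    refine ⟨hlt, ((t : ℤ) : AlgebraicClosure ℚ) ^ (2 * k), ?_, ?_⟩
    · rw [map_zpow₀, h28_map_intCast]
    · rw [map_zpow₀]
      apply h28_pow_left_inj hp0
      rw [hk, hvbe]
      generalize A.valuation ((t : ℤ) : AlgebraicClosure ℚ) = g
      rw [← zpow_natCast (g ^ (2 * k)) p, ← zpow_natCast g p, ← zpow_mul, ← zpow_mul, mul_comm]
  · -- good reduction
    have hbe1 : A.valuation (W₁⁄(AlgebraicClosure ℚ)).a₄ = 1 := by
      rw [e₄]; exact H7.valuation_intCast_eq_one hq hA hqbe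
    exact H13.smul_eq_self_of_good A σ e₁ e₃ e₆ hal h2 hσ' hp hG1 hbe1 hdiscv _ hx

end Model

/-! ## The Frey curve -/

section Frey

/-- **Final assembly**: the mod `p` representation of the Frey curve is unramified at every
odd prime `q ≠ p`, given the outputs of W2 and W3. -/
theorem unramified_frey (hK : KernelStatement) (hN : NodeStatement) (P : FreyPackage) {q : ℕ}
    (hq : q.Prime) (hq2 : q ≠ 2) (hqp : q ≠ P.p) : P.GaloisRepUnramifiedAt q := by
  have hqZ : Prime (q : ℤ) := Nat.prime_iff_prime_int.mp hq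
  have hqp' : ¬ q ∣ P.p := fun h => hqp ((Nat.prime_dvd_prime_iff_eq hq P.pp).mp h)
  have hFLT : (P.a : ℚ) ^ P.p + (P.b : ℚ) ^ P.p = (P.c : ℚ) ^ P.p := by
    exact_mod_cast P.hFLT
  unfold FreyPackage.GaloisRepUnramifiedAt
  by_cases hc : (q : ℤ) ∣ P.c
  · -- `q ∣ c`: translate the `2`-torsion point with abscissa `A / 4` to the origin
    have hb : ¬ (q : ℤ) ∣ P.b := by
      intro hb
      have h1 : (q : ℤ) ∣ gcd P.b P.c := dvd_gcd hb hc
      rw [P.hgcdbc] at h1
      exact hqZ.not_dvd_one h1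
    refine H22.galoisRepUnramifiedAt_of_vc (freyChange ((P.a : ℚ) ^ P.p)) rfl P.p q ?_
    refine unramified_of_model hK hN hq hq2 P.hp_odd hqp' _
      (2 * P.a ^ P.p + P.b ^ P.p) (P.a ^ P.p * P.c ^ P.p) (P.a * P.c)
      (freyChange_a₁ P _) (freyChange_a₃ P _) ?_ ?_ ?_ (Or.inl (mul_pow _ _ _).symm)
      (mul_ne_zero P.ha0 P.hc0) ?_
    · rw [freyChange_a₆]; ring
    · rw [freyChange_a₂]; push_cast; ring
    · rw [freyChange_a₄]; push_cast; rw [← hFLT]; ring
    · have e : (2 * P.a ^ P.p + P.b ^ P.p) ^ 2 - 4 * (P.a ^ P.p * P.c ^ P.p)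
          = (P.b ^ P.p) ^ 2 := by
        rw [← P.hFLT]; ring
      rw [e]
      intro h
      exact hb (hqZ.dvd_of_dvd_pow (hqZ.dvd_of_dvd_pow h))
  · -- `q ∤ c`: the `2`-torsion point `(0, 0)` stays at the origin
    refine H22.galoisRepUnramifiedAt_of_vc (freyChange 0) rfl P.p q ?_
    refine unramified_of_model hK hN hq hq2 P.hp_odd hqp' _
      (P.b ^ P.p - P.a ^ P.p) (-(P.a ^ P.p * P.b ^ P.p)) (P.a * P.b)
      (freyChange_a₁ P _) (freyChange_a₃ P _) ?_ ?_ ?_
      (Or.inr (by rw [mul_pow]))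
      (mul_ne_zero P.ha0 P.hb0) ?_
    · rw [freyChange_a₆]; ring
    · rw [freyChange_a₂]; push_cast; ring
    · rw [freyChange_a₄]; push_cast; ring
    · have e : (P.b ^ P.p - P.a ^ P.p) ^ 2 - 4 * (-(P.a ^ P.p * P.b ^ P.p))
          = (P.c ^ P.p) ^ 2 := by
        rw [← P.hFLT]; ring
      rw [e]
      intro h
      exact hc (hqZ.dvd_of_dvd_pow (hqZ.dvd_of_dvd_pow h))

end Frey

end Fermat.Agent.S05.H28
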