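import Mathlib

set_option autoImplicit false

namespace Fermat.Agent.S05

variable {Γ₀ : Type*} [LinearOrderedCommGroupWithZero Γ₀]

/-- `x` and `y` agree up to inversion and multiplication by an integer power of `E ^ 2`. -/
def H8Rel (E x y : Γ₀) : Prop := ∃ k : ℤ, x = y * (E ^ 2) ^ k ∨ x * y = (E ^ 2) ^ k

/-- The unordered pair `{tp, tm}` is `{d * c, d / c}` up to `H8Rel`. -/
def H8Pair (E tp tm d c : Γ₀) : Prop :=
  (H8Rel E tp (d * c) ∧ H8Rel E tm (d / c)) ∨ (H8Rel E tp (d / c) ∧ H8Rel E tm (d * c))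

end Fermat.Agent.S05
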