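import Mathlib
import Fermat.Agent.S05.H8_Rel

/-!
# S05 (helper8): the relation `H8Rel` and the combinatorial induction
-/

set_option autoImplicit false

namespace Fermat.Agent.S05

variable {Γ₀ : Type*} [LinearOrderedCommGroupWithZero Γ₀]

theorem H8Rel.refl (E x : Γ₀) : H8Rel E x x := ⟨0, Or.inl (by simp)⟩

theorem H8Rel.of_eq {E x y : Γ₀} (h : x = y) : H8Rel E x y := h ▸ H8Rel.refl E x

theorem H8Rel.symm {E x y : Γ₀} (hE : E ≠ 0) (h : H8Rel E x y) : H8Rel E y x := by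
  obtain ⟨k, h | h⟩ := h
  · refine ⟨-k, Or.inl ?_⟩
    rw [h, mul_assoc, ← zpow_add₀ (pow_ne_zero 2 hE), add_neg_cancel, zpow_zero, mul_one]
  · exact ⟨k, Or.inr (by rw [mul_comm]; exact h)⟩

theorem H8Rel.trans {E x y z : Γ₀} (hE : E ≠ 0) (hy : y ≠ 0) (h1 : H8Rel E x y)
    (h2 : H8Rel E y z) : H8Rel E x z := by
  have hN : (E ^ 2 : Γ₀) ≠ 0 := pow_ne_zero 2 hE
  obtain ⟨a, h1 | h1⟩ := h1 <;> obtain ⟨b, h2 | h2⟩ := h2
  · refine ⟨b + a, Or.inl ?_⟩
    rw [h1, h2, mul_assoc, ← zpow_add₀ hN]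
  · refine ⟨b + a, Or.inr ?_⟩
    rw [h1, zpow_add₀ hN, ← h2]
    ac_rfl
  · refine ⟨a - b, Or.inr ?_⟩
    rw [zpow_sub₀ hN, ← h1, h2]
    have hb : (E ^ 2 : Γ₀) ^ b ≠ 0 := zpow_ne_zero b hN
    rw [eq_div_iff hb]
    ac_rfl
  · refine ⟨a - b, Or.inl ?_⟩
    rw [zpow_sub₀ hN, ← h1, ← h2]
    have hz : z ≠ 0 := by
      intro hz
      rw [hz, mul_zero] at h2
      exact zpow_ne_zero b hN h2.symm
    field_simp

theorem H8Rel.mul_zpow {E x y : Γ₀} (k : ℤ) (h : x = y * (E ^ 2) ^ k) :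
    H8Rel E x y := ⟨k, Or.inl h⟩

theorem H8Rel.of_mul_eq {E x y : Γ₀} (k : ℤ) (h : x * y = (E ^ 2) ^ k) :
    H8Rel E x y := ⟨k, Or.inr h⟩

/-- Uniqueness of representatives in `[E, 1]`. -/
theorem H8Rel.eq_of_mem {E x y : Γ₀} (hE0 : E ≠ 0) (hE1 : E < 1) (hx : E ≤ x) (hx1 : x ≤ 1)
    (hy : E ≤ y) (hy1 : y ≤ 1) (h : H8Rel E x y) : x = y := by
  have hEpos : 0 < E := zero_lt_iff.mpr hE0
  have hN0 : (E ^ 2 : Γ₀) ≠ 0 := pow_ne_zero 2 hE0
  have hNpos : 0 < (E ^ 2 : Γ₀) := zero_lt_iff.mpr hN0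
  have hNE : (E ^ 2 : Γ₀) < E := by
    rw [pow_two]
    calc E * E < 1 * E := mul_lt_mul_of_pos_right hE1 hEpos
      _ = E := one_mul E
  have hN1 : (E ^ 2 : Γ₀) < 1 := lt_trans hNE hE1
  have hxpos : 0 < x := lt_of_lt_of_le hEpos hx
  have hypos : 0 < y := lt_of_lt_of_le hEpos hy
  -- auxiliary: `a = b * N ^ k` with `k ≥ 1` is impossible for `a, b ∈ [E, 1]`
  have aux : ∀ (a b : Γ₀) (k : ℤ), E ≤ a → b ≤ 1 → 1 ≤ k → a = b * (E ^ 2) ^ k → False := by
    intro a b k ha hb hk hab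
    have h1 : (E ^ 2 : Γ₀) ^ k ≤ (E ^ 2) ^ (1 : ℤ) :=
      zpow_le_zpow_right_of_le_one₀ hNpos hN1.le hk
    rw [zpow_one] at h1
    have h2 : a ≤ E ^ 2 := by
      rw [hab]
      calc b * (E ^ 2) ^ k ≤ 1 * (E ^ 2) ^ k := by gcongr
        _ = (E ^ 2) ^ k := one_mul _
        _ ≤ E ^ 2 := h1
    exact absurd (lt_of_le_of_lt (le_trans ha h2) hNE) (lt_irrefl _)
  obtain ⟨k, h | h⟩ := h
  · rcases lt_trichotomy k 0 with hk | hk | hk
    · exfalso
      have h' : y = x * (E ^ 2) ^ (-k) := by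
        rw [h, mul_assoc, ← zpow_add₀ hN0, add_neg_cancel, zpow_zero, mul_one]
      exact aux y x (-k) hy hx1 (by omega) h'
    · rw [h, hk, zpow_zero, mul_one]
    · exfalso
      exact aux x y k hx hy1 (by omega) h
  · rcases lt_trichotomy k 0 with hk | hk | hk
    · exfalso
      -- N ^ k > 1 ≥ x * y
      have h1 : (1 : Γ₀) < (E ^ 2) ^ k := by
        have := zpow_lt_zpow_right_of_lt_one₀ hNpos hN1 hk
        rwa [zpow_zero] at this
      have h2 : x * y ≤ 1 := mul_le_one' hx1 hy1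
      rw [h] at h2
      exact absurd h1 (not_lt.2 h2)
    · -- x * y = 1
      rw [hk, zpow_zero] at h
      have hx' : x = 1 := by
        by_contra hne
        have hlt : x < 1 := lt_of_le_of_ne hx1 hne
        have : x * y < 1 := mul_lt_one_of_lt_of_le hlt hy1
        rw [h] at this
        exact lt_irrefl _ this
      have hy' : y = 1 := by
        rw [hx', one_mul] at h
        exact h
      rw [hx', hy']
    · rcases eq_or_lt_of_le (show (1 : ℤ) ≤ k by omega) with hk1 | hk1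
      · -- x * y = E ^ 2
        rw [← hk1, zpow_one, pow_two] at h
        have hx' : x = E := by
          by_contra hne
          have hlt : E < x := lt_of_le_of_ne hx (Ne.symm hne)
          have : E * E < x * y :=
            calc E * E < x * E := mul_lt_mul_of_pos_right hlt hEpos
              _ ≤ x * y := by gcongr
          rw [h] at this
          exact lt_irrefl _ this
        have hy' : y = E := by
          rw [hx'] at h
          exact mul_left_cancel₀ hE0 h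
        rw [hx', hy']
      · exfalso
        have h1 : (E ^ 2 : Γ₀) ^ k ≤ (E ^ 2) ^ (2 : ℤ) :=
          zpow_le_zpow_right_of_le_one₀ hNpos hN1.le (by omega)
        have h2 : (E ^ 2 : Γ₀) ^ (2 : ℤ) < E ^ 2 := by
          have := zpow_lt_zpow_right_of_lt_one₀ hNpos hN1 (show (1 : ℤ) < 2 by norm_num)
          rwa [zpow_one] at this
        have h3 : E ^ 2 ≤ x * y := by
          rw [pow_two]
          exact mul_le_mul' hx hy
        rw [h] at h3
        exact absurd (lt_of_le_of_lt (le_trans h3 h1) h2) (lt_irrefl _)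


/-- One step of the induction. -/
theorem h8_comb_step {E c dn dp dm : Γ₀} (hE0 : E ≠ 0) (hE1 : E < 1) (hc0 : c ≠ 0) (n : ℕ)
    (hn : 1 ≤ n)
    (hdpE : E ≤ dp) (hdp1 : dp ≤ 1) (hdmE : E ≤ dm) (hdm1 : dm ≤ 1)
    (hpair : H8Pair E dp dm dn c)
    (ihn : H8Rel E dn (c ^ n)) (ihm : H8Rel E dm (c ^ (n - 1))) :
    H8Rel E dp (c ^ (n + 1)) := by
  have hN : (E ^ 2 : Γ₀) ≠ 0 := pow_ne_zero 2 hE0
  have hcn : ∀ m : ℕ, c ^ m ≠ 0 := fun m => pow_ne_zero m hc0
  have hdn0 : dn ≠ 0 := by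
    obtain ⟨k, h | h⟩ := ihn
    · rw [h]
      exact mul_ne_zero (hcn n) (zpow_ne_zero k hN)
    · intro h0
      rw [h0, zero_mul] at h
      exact zpow_ne_zero k hN h.symm
  have hsucc : c ^ (n + 1) = c ^ (n - 1) * c ^ 2 := by
    rw [← pow_add]
    congr 1
    omega
  have hn' : c ^ n = c ^ (n - 1) * c := by
    rw [← pow_succ c (n - 1)]
    congr 1
    omega
  -- the two products
  have key : (H8Rel E (dn * c) (c ^ (n + 1)) ∧ H8Rel E (dn / c) (c ^ (n - 1))) ∨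
      (H8Rel E (dn * c) (c ^ (n - 1)) ∧ H8Rel E (dn / c) (c ^ (n + 1))) := by
    obtain ⟨k, h | h⟩ := ihn
    · left
      constructor
      · refine ⟨k, Or.inl ?_⟩
        rw [h, pow_succ c n]
        ac_rfl
      · refine ⟨k, Or.inl ?_⟩
        rw [h, hn', div_eq_iff hc0]
        ac_rfl
    · right
      constructor
      · refine ⟨k, Or.inr ?_⟩
        rw [← h, hn']
        ac_rfl
      · refine ⟨k, Or.inr ?_⟩
        rw [← h, pow_succ c n, div_mul_eq_mul_div, div_eq_iff hc0]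
        ac_rfl
  have hdnc : dn * c ≠ 0 := mul_ne_zero hdn0 hc0
  have hdnc' : dn / c ≠ 0 := div_ne_zero hdn0 hc0
  -- conclude
  have fin : H8Rel E dp (c ^ (n + 1)) ∨
      (H8Rel E dp (c ^ (n - 1)) ∧ H8Rel E dm (c ^ (n + 1))) := by
    rcases hpair with ⟨hp1, hm1⟩ | ⟨hp1, hm1⟩
    · rcases key with ⟨k1, k2⟩ | ⟨k1, k2⟩
      · left
        exact hp1.trans hE0 hdnc k1
      · right
        exact ⟨hp1.trans hE0 hdnc k1, hm1.trans hE0 hdnc' k2⟩
    · rcases key with ⟨k1, k2⟩ | ⟨k1, k2⟩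
      · right
        exact ⟨hp1.trans hE0 hdnc' k2, hm1.trans hE0 hdnc k1⟩
      · left
        exact hp1.trans hE0 hdnc' k2
  rcases fin with h | ⟨h1, h2⟩
  · exact h
  · have heq : dp = dm :=
      H8Rel.eq_of_mem hE0 hE1 hdpE hdp1 hdmE hdm1 (h1.trans hE0 (hcn _) (ihm.symm hE0))
    rw [heq]
    exact h2

/-- The combinatorial induction. -/
theorem h8_comb {E : Γ₀} (hE0 : E ≠ 0) (hE1 : E < 1) {p : ℕ} (hp5 : 5 ≤ p) (hodd : Odd p)
    (δ : ℕ → Γ₀) (hδE : ∀ j, 1 ≤ j → j ≤ p - 1 → E ≤ δ j) (hδ1 : ∀ j, 1 ≤ j → j ≤ p - 1 → δ j ≤ 1)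
    (hdbl : H8Rel E (δ 2) (δ 1 ^ 2))
    (hpair : ∀ j, 2 ≤ j → j ≤ p - 2 → H8Pair E (δ (j + 1)) (δ (j - 1)) (δ j) (δ 1))
    (hend1 : δ (p - 1) = δ 1) (hend2 : δ (p - 2) = δ 2) :
    ∃ k : ℤ, δ 1 ^ p = (E ^ 2) ^ k := by
  have hEpos : 0 < E := zero_lt_iff.mpr hE0
  have hN : (E ^ 2 : Γ₀) ≠ 0 := pow_ne_zero 2 hE0
  set c := δ 1 with hc
  have hcE : E ≤ c := hδE 1 le_rfl (by omega)
  have hc1 : c ≤ 1 := hδ1 1 le_rfl (by omega)
  have hc0 : c ≠ 0 := ne_of_gt (lt_of_lt_of_le hEpos hcE)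
  have hcn : ∀ m : ℕ, c ^ m ≠ 0 := fun m => pow_ne_zero m hc0
  have main : ∀ j, 1 ≤ j → j ≤ p - 1 → H8Rel E (δ j) (c ^ j) := by
    intro j
    induction j using Nat.strong_induction_on with
    | _ j ih =>
      intro hj1 hjp
      rcases Nat.lt_or_ge j 2 with hlt | hge
      · have : j = 1 := by omega
        subst this
        rw [pow_one]
        exact H8Rel.refl E _
      rcases Nat.lt_or_ge j 3 with hlt | hge3
      · have : j = 2 := by omega
        subst this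
        exact hdbl
      · obtain ⟨n, rfl⟩ : ∃ n, j = n + 1 := ⟨j - 1, by omega⟩
        exact h8_comb_step hE0 hE1 hc0 n (by omega)
          (hδE _ (by omega) hjp) (hδ1 _ (by omega) hjp)
          (hδE _ (by omega) (by omega)) (hδ1 _ (by omega) (by omega))
          (hpair n (by omega) (by omega))
          (ih n (by omega) (by omega) (by omega))
          (ih (n - 1) (by omega) (by omega) (by omega))
  -- the two end conditions
  have e1 : H8Rel E c (c ^ (p - 1)) := by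
    have := main (p - 1) (by omega) le_rfl
    rwa [hend1] at this
  have e2 : H8Rel E (c ^ 2) (c ^ (p - 2)) := by
    have h2 := main (p - 2) (by omega) (by omega)
    rw [hend2] at h2
    have hδ2 : δ 2 ≠ 0 := ne_of_gt (lt_of_lt_of_le hEpos (hδE 2 (by omega) (by omega)))
    exact (hdbl.symm hE0).trans hE0 hδ2 h2
  have hp1 : c * c ^ (p - 1) = c ^ p := by
    rw [← pow_succ' c (p - 1)]
    congr 1
    omega
  have hp2 : c ^ 2 * c ^ (p - 2) = c ^ p := by
    rw [← pow_add]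
    congr 1
    omega
  obtain ⟨a, e1 | e1⟩ := e1
  swap
  · exact ⟨a, by rw [← hp1, e1]⟩
  obtain ⟨b, e2 | e2⟩ := e2
  swap
  · exact ⟨b, by rw [← hp2, e2]⟩
  -- now `c = c ^ (p - 1) * N ^ a` and `c ^ 2 = c ^ (p - 2) * N ^ b`
  -- hence `c ^ (p - 2) * N ^ a = 1` and `c ^ (p - 4) * N ^ b = 1`
  have f1 : c ^ (p - 2) * (E ^ 2) ^ a = 1 := by
    have h : c * 1 = c * (c ^ (p - 2) * (E ^ 2) ^ a) := by
      rw [mul_one, ← mul_assoc, ← pow_succ' c (p - 2)]
      have : p - 2 + 1 = p - 1 := by omega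
      rw [this]
      exact e1
    exact (mul_left_cancel₀ hc0 h).symm
  have f2 : c ^ (p - 4) * (E ^ 2) ^ b = 1 := by
    have h : c ^ 2 * 1 = c ^ 2 * (c ^ (p - 4) * (E ^ 2) ^ b) := by
      rw [mul_one, ← mul_assoc, ← pow_add]
      have : 2 + (p - 4) = p - 2 := by omega
      rw [this]
      exact e2
    exact (mul_left_cancel₀ (hcn 2) h).symm
  -- c ^ 2 = N ^ (b - a)
  have f3 : c ^ 2 = (E ^ 2) ^ (b - a) := by
    have h1 : c ^ (p - 2) = c ^ (p - 4) * c ^ 2 := by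
      rw [← pow_add]
      congr 1
      omega
    rw [h1] at f1
    have h2 : c ^ (p - 4) * (c ^ 2 * (E ^ 2) ^ a) = c ^ (p - 4) * (E ^ 2) ^ b := by
      rw [f2, ← mul_assoc, f1]
    have h3 := mul_left_cancel₀ (hcn (p - 4)) h2
    rw [zpow_sub₀ hN, ← h3]
    field_simp
  have f4 : c = E ^ (b - a) := by
    have : c ^ 2 = (E ^ (b - a)) ^ 2 := by
      rw [f3, ← zpow_natCast (E ^ (b - a)) 2, ← zpow_natCast E 2, ← zpow_mul, ← zpow_mul, mul_comm]
    exact (pow_left_inj (two_ne_zero)).mp this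
  -- `b - a ∈ {0, 1}`
  have hm0 : 0 ≤ b - a := by
    by_contra hneg
    rw [not_le] at hneg
    have := zpow_lt_zpow_right_of_lt_one₀ hEpos hE1 hneg
    rw [zpow_zero, ← f4] at this
    exact absurd hc1 (not_le.2 this)
  have hm1 : b - a ≤ 1 := by
    by_contra hbig
    rw [not_le] at hbig
    have := zpow_lt_zpow_right_of_lt_one₀ hEpos hE1 hbig
    rw [zpow_one, ← f4] at this
    exact absurd hcE (not_le.2 this)
  rcases eq_or_lt_of_le hm0 with h0 | h0
  · -- c = 1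
    rw [← h0, zpow_zero] at f4
    exact ⟨0, by rw [f4, one_pow, zpow_zero]⟩
  · -- c = E, contradiction with parity
    exfalso
    have hba : b - a = 1 := by omega
    rw [hba, zpow_one] at f4
    rw [f4] at f1
    have g1 : E ^ ((p - 2 : ℕ) + 2 * a : ℤ) = E ^ (0 : ℤ) := by
      rw [zpow_add₀ hE0, zpow_natCast, zpow_mul, zpow_zero]
      have : E ^ (2 : ℤ) = E ^ 2 := by
        rw [← zpow_natCast]; rfl
      rw [this]
      exact f1
    have g2 := zpow_right_injective₀ hEpos (ne_of_lt hE1) g1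
    obtain ⟨m, hm⟩ := hodd
    have : ((p - 2 : ℕ) : ℤ) = (p : ℤ) - 2 := by
      rw [Nat.cast_sub (by omega)]; simp
    rw [this] at g2
    omega

end Fermat.Agent.S05
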