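import Mathlib

set_option autoImplicit false
set_option linter.unusedSectionVars false

open WeierstrassCurve WeierstrassCurve.Affine WeierstrassCurve.Affine.Point

namespace Fermat.Agent.S05

variable {F : Type*} [Field F] [DecidableEq F]

/-- Data expressing that the 2-division cubic of `W` is `X (X + r) (X + s)` in the coordinate
`X = 4 x - e`. -/
structure H8Shape (W : Affine F) (e r s : F) : Prop where
  two_ne : (2 : F) ≠ 0
  hb2 : W.b₂ = r + s - 3 * e
  hb4 : 8 * W.b₄ = 3 * e ^ 2 - 2 * e * (r + s) + r * s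
  hb6 : 16 * W.b₆ = -e ^ 3 + e ^ 2 * (r + s) - e * r * s

/-- The shifted `X`-coordinate `4 x - e` of an affine point (junk value at `0`). -/
def h8X (W : Affine F) (e : F) : W.Point → F
  | .zero => 0
  | .some x _ _ => 4 * x - e

/-- The `Y`-coordinate `4 (2 y + a₁ x + a₃)` of an affine point (value `0` at `0`). -/
def h8Y (W : Affine F) : W.Point → F
  | .zero => 0
  | .some x y _ => 4 * (2 * y + W.a₁ * x + W.a₃)

variable {W : Affine F} {e r s : F}

theorem h8X_some (e : F) {x y : F} (h : W.Nonsingular x y) :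
    h8X W e (Point.some x y h) = 4 * x - e := rfl

theorem h8Y_some {x y : F} (h : W.Nonsingular x y) :
    h8Y W (Point.some x y h) = 4 * (2 * y + W.a₁ * x + W.a₃) := rfl

theorem h8X_neg (e : F) (P : W.Point) : h8X W e (-P) = h8X W e P := by
  cases P with
  | zero => rfl
  | some x y h => rfl

theorem h8Y_neg (P : W.Point) : h8Y W (-P) = - h8Y W P := by
  cases P with
  | zero => simp [h8Y, ← Point.zero_def]
  | some x y h =>
    simp only [Point.neg_some, h8Y_some, negY]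
    ring

theorem h8Y_sq (hS : H8Shape W e r s) {P : W.Point} (hP : P ≠ 0) :
    h8Y W P ^ 2 = h8X W e P * (h8X W e P + r) * (h8X W e P + s) := by
  cases P with
  | zero => exact absurd rfl hP
  | some x y h =>
    have heq := (equation_iff x y).1 h.1
    simp only [h8Y_some, h8X_some]
    have h2 := hS.hb2
    have h4 := hS.hb4
    have h6 := hS.hb6
    simp only [b₂, b₄, b₆] at h2 h4 h6
    linear_combination 64 * heq + 16 * x ^ 2 * h2 + 4 * x * h4 + h6


theorem h8_ne_zero_of_some {x y : F} (h : W.Nonsingular x y) : (Point.some x y h) ≠ 0 :=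
  Point.some_ne_zero h

/-- Addition formula in the `(X, Y)` coordinates. -/
theorem h8_add (hS : H8Shape W e r s) {P Q : W.Point} (hP : P ≠ 0) (hQ : Q ≠ 0)
    (hX : h8X W e P ≠ h8X W e Q) :
    P + Q ≠ 0 ∧ (h8X W e P - h8X W e Q) ^ 2 * h8X W e (P + Q) =
      (h8Y W P - h8Y W Q) ^ 2 - (h8X W e P + h8X W e Q + r + s) * (h8X W e P - h8X W e Q) ^ 2 := by
  cases P with
  | zero => exact absurd rfl hP
  | some x₁ y₁ h₁ =>
  cases Q with
  | zero => exact absurd rfl hQ
  | some x₂ y₂ h₂ =>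
    have hx : x₁ ≠ x₂ := by
      intro h
      apply hX
      simp only [h8X_some, h]
    rw [Point.add_of_X_ne hx]
    refine ⟨Point.some_ne_zero _, ?_⟩
    simp only [h8X_some, h8Y_some, addX]
    have hd : x₁ - x₂ ≠ 0 := sub_ne_zero.2 hx
    have hℓ : W.slope x₁ x₂ y₁ y₂ * (x₁ - x₂) = y₁ - y₂ := by
      rw [slope_of_X_ne hx]
      field_simp
    generalize W.slope x₁ x₂ y₁ y₂ = ℓ at hℓ
    have h2 := hS.hb2
    simp only [b₂] at h2
    linear_combination (-16 * (x₁ - x₂) ^ 2) * h2 +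
      32 * (2 * ℓ * (x₁ - x₂) + 2 * (y₁ - y₂) + 2 * W.a₁ * (x₁ - x₂)) * hℓ

/-- Subtraction formula in the `(X, Y)` coordinates. -/
theorem h8_sub (hS : H8Shape W e r s) {P Q : W.Point} (hP : P ≠ 0) (hQ : Q ≠ 0)
    (hX : h8X W e P ≠ h8X W e Q) :
    P - Q ≠ 0 ∧ (h8X W e P - h8X W e Q) ^ 2 * h8X W e (P - Q) =
      (h8Y W P + h8Y W Q) ^ 2 - (h8X W e P + h8X W e Q + r + s) * (h8X W e P - h8X W e Q) ^ 2 := by
  have hQ' : -Q ≠ 0 := neg_ne_zero.2 hQ
  have hX' : h8X W e P ≠ h8X W e (-Q) := by rwa [h8X_neg]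
  have := h8_add hS hP hQ' hX'
  rw [h8X_neg, h8Y_neg, ← sub_eq_add_neg, sub_neg_eq_add] at this
  exact this

/-- `2 P = 0` iff `Y(P) = 0` for an affine point. -/
theorem h8_two_nsmul_eq_zero_iff (hS : H8Shape W e r s) {P : W.Point} (hP : P ≠ 0) :
    P + P = 0 ↔ h8Y W P = 0 := by
  cases P with
  | zero => exact absurd rfl hP
  | some x y h =>
    have h4 : (4 : F) ≠ 0 := by
      have : (4 : F) = 2 * 2 := by norm_num
      rw [this]
      exact mul_ne_zero hS.two_ne hS.two_ne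
    rw [h8Y_some]
    constructor
    · intro h0
      by_contra hne
      have hy : y ≠ W.negY x y := by
        intro hy
        apply hne
        rw [negY] at hy
        have : 2 * y + W.a₁ * x + W.a₃ = 0 := by linear_combination hy
        rw [this, mul_zero]
      rw [Point.add_self_of_Y_ne hy] at h0
      exact Point.some_ne_zero _ h0
    · intro h0
      have h1 : 2 * y + W.a₁ * x + W.a₃ = 0 := by
        rcases mul_eq_zero.1 h0 with h | h
        · exact absurd h h4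
        · exact h
      have hy : y = W.negY x y := by
        rw [negY]
        linear_combination h1
      exact Point.add_self_of_Y_eq hy

/-- Duplication formula in the `(X, Y)` coordinates. -/
theorem h8_double (hS : H8Shape W e r s) {P : W.Point} (hP : P ≠ 0) (hY : h8Y W P ≠ 0) :
    P + P ≠ 0 ∧ 4 * h8Y W P ^ 2 * h8X W e (P + P) = (h8X W e P ^ 2 - r * s) ^ 2 := by
  have hsq := h8Y_sq hS hP
  cases P with
  | zero => exact absurd rfl hP
  | some x y h =>
    have hη : 2 * y + W.a₁ * x + W.a₃ ≠ 0 := by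
      intro h0
      apply hY
      rw [h8Y_some, h0, mul_zero]
    have hy : y ≠ W.negY x y := by
      intro hy
      apply hη
      rw [negY] at hy
      linear_combination hy
    rw [Point.add_self_of_Y_ne hy]
    refine ⟨Point.some_ne_zero _, ?_⟩
    simp only [h8X_some, h8Y_some, addX] at hsq ⊢
    have hℓ : W.slope x x y y * (2 * y + W.a₁ * x + W.a₃) =
        3 * x ^ 2 + 2 * W.a₂ * x + W.a₄ - W.a₁ * y := by
      rw [slope_of_Y_ne rfl hy, negY]
      have : y - (-y - W.a₁ * x - W.a₃) = 2 * y + W.a₁ * x + W.a₃ := by ring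
      rw [this, div_mul_cancel₀ _ hη]
    generalize W.slope x x y y = ℓ at hℓ
    have h2 := hS.hb2
    have h4 := hS.hb4
    simp only [b₂, b₄] at h2 h4
    -- abbreviations
    have hdbl : (2 * y + W.a₁ * x + W.a₃) ^ 2 * (4 * (ℓ ^ 2 + W.a₁ * ℓ - W.a₂ - x - x)) =
        (6 * x ^ 2 + (W.a₁ ^ 2 + 4 * W.a₂) * x + (2 * W.a₄ + W.a₁ * W.a₃)) ^ 2 -
          ((W.a₁ ^ 2 + 4 * W.a₂) + 8 * x) * (2 * y + W.a₁ * x + W.a₃) ^ 2 := by
      linear_combination (4 * ((2 * y + W.a₁ * x + W.a₃) * ℓ +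
        (3 * x ^ 2 + 2 * W.a₂ * x + W.a₄ - W.a₁ * y)) + 4 * W.a₁ * (2 * y + W.a₁ * x + W.a₃)) * hℓ
    have e1 : 8 * (6 * x ^ 2 + (W.a₁ ^ 2 + 4 * W.a₂) * x + (2 * W.a₄ + W.a₁ * W.a₃)) =
        3 * (4 * x - e) ^ 2 + 2 * (r + s) * (4 * x - e) + r * s := by
      linear_combination 8 * x * h2 + h4
    have e2 : (W.a₁ ^ 2 + 4 * W.a₂) + 8 * x + e = 2 * (4 * x - e) + r + s := by
      linear_combination h2
    linear_combination 64 * hdbl +
      (8 * (6 * x ^ 2 + (W.a₁ ^ 2 + 4 * W.a₂) * x + (2 * W.a₄ + W.a₁ * W.a₃)) +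
        (3 * (4 * x - e) ^ 2 + 2 * (r + s) * (4 * x - e) + r * s)) * e1 -
      4 * ((W.a₁ ^ 2 + 4 * W.a₂) + 8 * x + e) * hsq -
      4 * ((4 * x - e) * (4 * x - e + r) * (4 * x - e + s)) * e2


/-- The `x`-only sum and product identities. -/
theorem h8_addsub (hS : H8Shape W e r s) {P Q : W.Point} (hP : P ≠ 0) (hQ : Q ≠ 0)
    (hX : h8X W e P ≠ h8X W e Q) :
    (h8X W e P - h8X W e Q) ^ 2 * (h8X W e (P + Q) + h8X W e (P - Q)) =
      2 * (h8X W e P * h8X W e Q + r * s) * (h8X W e P + h8X W e Q) +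
        4 * (r + s) * (h8X W e P * h8X W e Q) ∧
    (h8X W e P - h8X W e Q) ^ 2 * (h8X W e (P + Q) * h8X W e (P - Q)) =
      (h8X W e P * h8X W e Q - r * s) ^ 2 := by
  obtain ⟨-, hadd⟩ := h8_add hS hP hQ hX
  obtain ⟨-, hsub⟩ := h8_sub hS hP hQ hX
  have hsq1 := h8Y_sq hS hP
  have hsq2 := h8Y_sq hS hQ
  have hd : h8X W e P - h8X W e Q ≠ 0 := sub_ne_zero.2 hX
  generalize h8X W e P = X₁ at *
  generalize h8X W e Q = X₂ at *
  generalize h8X W e (P + Q) = Xp at *
  generalize h8X W e (P - Q) = Xm at *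
  generalize h8Y W P = Y₁ at *
  generalize h8Y W Q = Y₂ at *
  constructor
  · linear_combination hadd + hsub + 2 * hsq1 + 2 * hsq2
  · have hD : (X₁ - X₂) ^ 2 ≠ 0 := pow_ne_zero 2 hd
    apply mul_left_cancel₀ hD
    linear_combination ((X₁ - X₂) ^ 2 * Xm) * hadd +
      ((Y₁ - Y₂) ^ 2 - (X₁ + X₂ + r + s) * (X₁ - X₂) ^ 2) * hsub +
      (Y₁ ^ 2 + X₁ * (X₁ + r) * (X₁ + s) - 2 * Y₂ ^ 2 -
        2 * (X₁ + X₂ + r + s) * (X₁ - X₂) ^ 2) * hsq1 +
      (Y₂ ^ 2 + X₂ * (X₂ + r) * (X₂ + s) - 2 * (X₁ * (X₁ + r) * (X₁ + s)) -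
        2 * (X₁ + X₂ + r + s) * (X₁ - X₂) ^ 2) * hsq2

theorem h8X_eq_iff (hS : H8Shape W e r s) {P Q : W.Point} (hP : P ≠ 0) (hQ : Q ≠ 0) :
    h8X W e P = h8X W e Q ↔ P = Q ∨ P = -Q := by
  cases P with
  | zero => exact absurd rfl hP
  | some x₁ y₁ h₁ =>
  cases Q with
  | zero => exact absurd rfl hQ
  | some x₂ y₂ h₂ =>
    have h4 : (4 : F) ≠ 0 := by
      have : (4 : F) = 2 * 2 := by norm_num
      rw [this]
      exact mul_ne_zero hS.two_ne hS.two_ne
    rw [← Point.X_eq_iff, h8X_some, h8X_some]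
    constructor
    · intro h
      have : 4 * x₁ = 4 * x₂ := by linear_combination h
      exact mul_left_cancel₀ h4 this
    · intro h
      rw [h]

end Fermat.Agent.S05
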