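import Mathlib
import Fermat.Prelude.Def_FLTPrelim_Ramification

set_option autoImplicit false

namespace Fermat.Agent.S05

open ValuationSubring

variable {K L : Type*} [Field K] [Field L] [Algebra K L]

/-- An element of the decomposition group preserves the valuation ring. -/
theorem h8_mem_of_mem_decomp (A : ValuationSubring L) (σ : L ≃ₐ[K] L)
    (hσ : σ ∈ A.decompositionSubgroup K) {x : L} (hx : x ∈ A) : σ x ∈ A := by
  have h := (A.subMulAction K).smul_mem' ⟨σ, hσ⟩ (x := x) hx
  exact h

theorem h8_mem_iff_of_mem_decomp (A : ValuationSubring L) (σ : L ≃ₐ[K] L)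
    (hσ : σ ∈ A.decompositionSubgroup K) (x : L) : σ x ∈ A ↔ x ∈ A := by
  constructor
  · intro h
    have h' := h8_mem_of_mem_decomp A σ⁻¹ (inv_mem hσ) h
    simpa using h'
  · exact h8_mem_of_mem_decomp A σ hσ

theorem h8_valuation_apply_of_mem_decomp (A : ValuationSubring L) (σ : L ≃ₐ[K] L)
    (hσ : σ ∈ A.decompositionSubgroup K) (x y : L) :
    A.valuation (σ x) ≤ A.valuation (σ y) ↔ A.valuation x ≤ A.valuation y := by
  by_cases hy : y = 0
  · subst hy
    simp
  · have hy' : σ y ≠ 0 := by simpa using hy
    have e1 : A.valuation x ≤ A.valuation y ↔ x / y ∈ A := by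
      rw [← A.valuation_le_one_iff, map_div₀, div_le_one₀ (by
        rw [pos_iff_ne_zero]; exact (Valuation.ne_zero_iff _).2 hy)]
    have e2 : A.valuation (σ x) ≤ A.valuation (σ y) ↔ σ x / σ y ∈ A := by
      rw [← A.valuation_le_one_iff, map_div₀, div_le_one₀ (by
        rw [pos_iff_ne_zero]; exact (Valuation.ne_zero_iff _).2 hy')]
    rw [e1, e2, ← map_div₀]
    exact h8_mem_iff_of_mem_decomp A σ hσ _

/-- Elements of the inertia group (as a subgroup of the full Galois group). -/
theorem h8_inertia_spec (A : ValuationSubring L) (σ : L ≃ₐ[K] L)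
    (hσ : σ ∈ A.inertiaSubgroupIn K) :
    σ ∈ A.decompositionSubgroup K ∧ ∀ x : L, x ∈ A → A.valuation (σ x - x) < 1 := by
  obtain ⟨τ, hτ, rfl⟩ := hσ
  refine ⟨τ.2, fun x hx => ?_⟩
  have hker : MulSemiringAction.toRingAut (A.decompositionSubgroup K)
      (IsLocalRing.ResidueField A) τ = 1 := hτ
  have h1 : τ • (IsLocalRing.residue A ⟨x, hx⟩) = IsLocalRing.residue A ⟨x, hx⟩ := by
    have := congrArg (fun f : RingAut (IsLocalRing.ResidueField A) =>
      f (IsLocalRing.residue A ⟨x, hx⟩)) hker
    simpa using this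
  rw [← IsLocalRing.ResidueField.residue_smul] at h1
  have h2 : IsLocalRing.residue A (τ • (⟨x, hx⟩ : A) - ⟨x, hx⟩) = 0 := by
    rw [map_sub, h1, sub_self]
  rw [IsLocalRing.residue_eq_zero_iff] at h2
  have h3 := (A.valuation_lt_one_iff _).1 h2
  exact h3

end Fermat.Agent.S05

namespace Fermat.Agent.S05

variable {L : Type*} [Field L]

theorem h8_valuation_intCast_le_one (A : ValuationSubring L) (n : ℤ) :
    A.valuation (n : L) ≤ 1 :=
  (A.valuation_le_one_iff _).2 (intCast_mem A n)

theorem h8_valuation_natCast_lt_one (A : ValuationSubring L) {q : ℕ}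
    (hq : A.LiesOverPrime q) : A.valuation (q : L) < 1 := by
  have h1 : A.valuation (q : L) ≤ 1 := by
    have := h8_valuation_intCast_le_one A (q : ℤ)
    simpa using this
  rcases lt_or_eq_of_le h1 with h | h
  · exact h
  · exfalso
    have hq' : (q : L) ∈ A.nonunits := hq
    rw [ValuationSubring.mem_nonunits_iff_exists_mem_maximalIdeal] at hq'
    obtain ⟨ha, hm⟩ := hq'
    have := (A.valuation_lt_one_iff _).1 hm
    simp only at this
    exact absurd h (ne_of_lt this)

theorem h8_valuation_intCast_eq_one (A : ValuationSubring L) {q : ℕ} (hqp : q.Prime)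
    (hq : A.LiesOverPrime q) {n : ℤ} (hn : ¬ (q : ℤ) ∣ n) :
    A.valuation (n : L) = 1 := by
  have hcop : IsCoprime n (q : ℤ) := by
    have hp : Prime (q : ℤ) := Nat.prime_iff_prime_int.1 hqp
    exact ((Prime.coprime_iff_not_dvd hp).2 hn).symm
  obtain ⟨u, w, huw⟩ := hcop
  have h1 : (u : L) * (n : L) = 1 - (w : L) * (q : L) := by
    have := congrArg (fun z : ℤ => (z : L)) huw
    push_cast at this
    linear_combination this
  have h2 : A.valuation ((w : L) * (q : L)) < 1 := by
    rw [map_mul]
    calc A.valuation (w : L) * A.valuation (q : L)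
        ≤ 1 * A.valuation (q : L) := by
          gcongr
          exact h8_valuation_intCast_le_one A w
      _ = A.valuation (q : L) := one_mul _
      _ < 1 := h8_valuation_natCast_lt_one A hq
  have h3 : A.valuation ((u : L) * (n : L)) = 1 := by
    rw [h1]
    have := Valuation.map_one_sub_of_lt (v := A.valuation) h2
    exact this
  rw [map_mul] at h3
  have hu := h8_valuation_intCast_le_one A u
  have hn' := h8_valuation_intCast_le_one A n
  rcases lt_or_eq_of_le hn' with h | h
  · exfalso
    have : A.valuation (u : L) * A.valuation (n : L) < 1 := by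
      calc A.valuation (u : L) * A.valuation (n : L)
          ≤ 1 * A.valuation (n : L) := by gcongr
        _ = A.valuation (n : L) := one_mul _
        _ < 1 := h
    exact absurd h3 (ne_of_lt this)
  · exact h

end Fermat.Agent.S05
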