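import Mathlib

set_option autoImplicit false

namespace Fermat.Agent.S05

variable {K : Type*} [Field K] {Γ₀ : Type*} [LinearOrderedCommGroupWithZero Γ₀]
  (v : Valuation K Γ₀)

theorem h8_quad_le {T₁ T₂ : K} {h : Γ₀} (hS : v (T₁ + T₂) ≤ h) (hP : v (T₁ * T₂) ≤ h ^ 2) :
    v T₁ ≤ h ∧ v T₂ ≤ h := by
  rw [map_mul] at hP
  by_contra hcon
  rw [not_and_or, not_le, not_le] at hcon
  rcases lt_trichotomy (v T₁) (v T₂) with h12 | h12 | h12
  · -- v T₂ is the max, so v T₂ > h
    have hT2 : h < v T₂ := by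
      rcases hcon with hc | hc
      · exact lt_trans hc h12
      · exact hc
    have := Valuation.map_add_eq_of_lt_right v h12
    rw [this] at hS
    exact absurd hS (not_le.2 hT2)
  · have hT1 : h < v T₁ := by
      rcases hcon with hc | hc
      · exact hc
      · rw [h12]; exact hc
    have hT2 : h < v T₂ := h12 ▸ hT1
    have : h ^ 2 < v T₁ * v T₂ := by
      rw [pow_two]
      exact mul_lt_mul'' hT1 hT2 zero_le' zero_le'
    exact absurd hP (not_le.2 this)
  · have hT1 : h < v T₁ := by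
      rcases hcon with hc | hc
      · exact hc
      · exact lt_trans hc h12
    have := Valuation.map_add_eq_of_lt_left v h12
    rw [this] at hS
    exact absurd hS (not_le.2 hT1)

theorem h8_quad_eq {T₁ T₂ : K} {h : Γ₀} (hS : v (T₁ + T₂) ≤ h) (hP : v (T₁ * T₂) = h ^ 2) :
    v T₁ = h ∧ v T₂ = h := by
  obtain ⟨h1, h2⟩ := h8_quad_le v hS (le_of_eq hP)
  rw [map_mul, pow_two] at hP
  constructor
  · by_contra hne
    have hlt : v T₁ < h := lt_of_le_of_ne h1 hne
    have hpos : 0 < h := lt_of_le_of_lt zero_le' hlt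
    have : v T₁ * v T₂ < h * h :=
      calc v T₁ * v T₂ ≤ v T₁ * h := by gcongr
        _ < h * h := by
          exact mul_lt_mul_of_pos_right hlt hpos
    exact absurd hP (ne_of_lt this)
  · by_contra hne
    have hlt : v T₂ < h := lt_of_le_of_ne h2 hne
    have hpos : 0 < h := lt_of_le_of_lt zero_le' hlt
    have : v T₁ * v T₂ < h * h :=
      calc v T₁ * v T₂ ≤ h * v T₂ := by gcongr
        _ < h * h := by
          exact mul_lt_mul_of_pos_left hlt hpos
    exact absurd hP (ne_of_lt this)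

theorem h8_quad_split_le {T₁ T₂ : K} {h h' : Γ₀} (hS : v (T₁ + T₂) = h)
    (hP : v (T₁ * T₂) ≤ h * h') (hh : h' < h) :
    (v T₁ = h ∧ v T₂ ≤ h') ∨ (v T₁ ≤ h' ∧ v T₂ = h) := by
  have hpos : 0 < h := lt_of_le_of_lt zero_le' hh
  rw [map_mul] at hP
  -- both are ≤ h
  have hle : v T₁ ≤ h ∧ v T₂ ≤ h := by
    apply h8_quad_le v (le_of_eq hS)
    rw [map_mul, pow_two]
    exact le_trans hP (by gcongr)
  -- one of them equals h
  have hmax : v T₁ = h ∨ v T₂ = h := by
    by_contra hcon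
    rw [not_or] at hcon
    have h1 : v T₁ < h := lt_of_le_of_ne hle.1 hcon.1
    have h2 : v T₂ < h := lt_of_le_of_ne hle.2 hcon.2
    have := Valuation.map_add_lt v h1 h2
    rw [hS] at this
    exact lt_irrefl _ this
  rcases hmax with h1 | h2
  · left
    refine ⟨h1, ?_⟩
    rw [h1] at hP
    exact le_of_mul_le_mul_left hP hpos
  · right
    refine ⟨?_, h2⟩
    rw [h2, mul_comm] at hP
    exact le_of_mul_le_mul_left hP hpos

theorem h8_quad_split {T₁ T₂ : K} {h h' : Γ₀} (hS : v (T₁ + T₂) = h)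
    (hP : v (T₁ * T₂) = h * h') (hh : h' < h) :
    (v T₁ = h ∧ v T₂ = h') ∨ (v T₁ = h' ∧ v T₂ = h) := by
  have hpos : 0 < h := lt_of_le_of_lt zero_le' hh
  rcases h8_quad_split_le v hS (le_of_eq hP) hh with ⟨h1, -⟩ | ⟨-, h2⟩
  · left
    refine ⟨h1, ?_⟩
    rw [map_mul, h1] at hP
    exact mul_left_cancel₀ (ne_of_gt hpos) hP
  · right
    refine ⟨?_, h2⟩
    rw [map_mul, h2, mul_comm] at hP
    exact mul_left_cancel₀ (ne_of_gt hpos) hP

end Fermat.Agent.S05
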