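import Mathlib
import Fermat.Agent.S05.H19_Vieta

/-!
# S05 (helper8): coordinate functions and torsion bookkeeping on a short Weierstrass curve
-/

set_option autoImplicit false
set_option linter.unusedSectionVars false

open WeierstrassCurve WeierstrassCurve.Affine

namespace Fermat.Agent.S05

variable {K : Type*} [Field K] [DecidableEq K]

/-- The `x`-coordinate of an affine point (junk value `0` at the origin). -/
def h8xc (W : Affine K) : W.Point → K
  | .zero => 0
  | .some x _ _ => x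

/-- The `y`-coordinate of an affine point (junk value `0` at the origin). -/
def h8yc (W : Affine K) : W.Point → K
  | .zero => 0
  | .some _ y _ => y

variable {W : Affine K}

theorem h8xc_some {x y : K} (h : W.Nonsingular x y) : h8xc W (Point.some x y h) = x := rfl

theorem h8yc_some {x y : K} (h : W.Nonsingular x y) : h8yc W (Point.some x y h) = y := rfl

theorem h8_exists_some {P : W.Point} (hP : P ≠ 0) :
    ∃ h : W.Nonsingular (h8xc W P) (h8yc W P), P = Point.some (h8xc W P) (h8yc W P) h := by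
  cases P with
  | zero => exact absurd rfl hP
  | some x y h => exact ⟨h, rfl⟩

theorem h8xc_neg (P : W.Point) : h8xc W (-P) = h8xc W P := by
  cases P with
  | zero => rfl
  | some x y h => rfl

theorem h8yc_neg (hW : Vieta.IsShort W) (P : W.Point) : h8yc W (-P) = - h8yc W P := by
  cases P with
  | zero => simp [h8yc, ← Point.zero_def]
  | some x y h => rw [hW.neg_some, h8yc_some, h8yc_some]

theorem h8_curve (hW : Vieta.IsShort W) {P : W.Point} (hP : P ≠ 0) :
    h8yc W P ^ 2 = h8xc W P ^ 3 + W.a₂ * h8xc W P ^ 2 + W.a₄ * h8xc W P := by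
  obtain ⟨h, -⟩ := h8_exists_some hP
  exact (hW.equation_iff _ _).1 h.1

theorem h8_add_self_ne_zero (hW : Vieta.IsShort W) (h2 : (2 : K) ≠ 0) {P : W.Point}
    (hP : P ≠ 0) (hy : h8yc W P ≠ 0) :
    P + P ≠ 0 ∧ h8xc W (P + P) * (4 * h8yc W P ^ 2) = (h8xc W P ^ 2 - W.a₄) ^ 2 := by
  cases P with
  | zero => exact absurd rfl hP
  | some x y h =>
    obtain ⟨x', y', h', hsum, hform, -⟩ := Vieta.add_self_of_y_ne_zero hW h2 h hy
    rw [hsum]
    exact ⟨Point.some_ne_zero h', hform⟩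

theorem h8_add_self_eq_zero (hW : Vieta.IsShort W) {P : W.Point}
    (hy : h8yc W P = 0) : P + P = 0 := by
  cases P with
  | zero => rfl
  | some x y h => exact Vieta.add_self_of_y_eq_zero hW h hy

theorem h8xc_eq_iff {P Q : W.Point} (hP : P ≠ 0) (hQ : Q ≠ 0) :
    h8xc W P = h8xc W Q ↔ P = Q ∨ P = -Q := by
  cases P with
  | zero => exact absurd rfl hP
  | some x₁ y₁ h₁ =>
  cases Q with
  | zero => exact absurd rfl hQ
  | some x₂ y₂ h₂ =>
    rw [h8xc_some, h8xc_some]
    exact Point.X_eq_iff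

theorem h8_addsub_short (hW : Vieta.IsShort W) {P Q : W.Point} (hP : P ≠ 0) (hQ : Q ≠ 0)
    (hx : h8xc W P ≠ h8xc W Q) :
    P + Q ≠ 0 ∧ P - Q ≠ 0 ∧
    (h8xc W P - h8xc W Q) ^ 2 * (h8xc W (P + Q) + h8xc W (P - Q)) =
      2 * (h8xc W P * h8xc W Q + W.a₄) * (h8xc W P + h8xc W Q) +
        4 * W.a₂ * (h8xc W P * h8xc W Q) ∧
    (h8xc W P - h8xc W Q) ^ 2 * (h8xc W (P + Q) * h8xc W (P - Q)) =
      (h8xc W P * h8xc W Q - W.a₄) ^ 2 := by
  cases P with
  | zero => exact absurd rfl hP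
  | some x₁ y₁ h₁ =>
  cases Q with
  | zero => exact absurd rfl hQ
  | some x₂ y₂ h₂ =>
    rw [h8xc_some, h8xc_some] at hx ⊢
    obtain ⟨Xp, Yp, Xm, Ym, hp, hm, hsum, hdiff, -, -, hS, hPr⟩ :=
      Vieta.xonly_add_sub hW h₁ h₂ hx
    rw [hsum, hdiff]
    exact ⟨Point.some_ne_zero hp, Point.some_ne_zero hm, hS, hPr⟩

/-! ### Torsion bookkeeping -/

section Torsion

variable {p : ℕ} (pp : p.Prime) {P : W.Point} (hP : P ≠ 0) (hpP : p • P = 0)
include pp hP hpP

theorem h8_addOrderOf : addOrderOf P = p := by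
  have hdvd : addOrderOf P ∣ p := addOrderOf_dvd_of_nsmul_eq_zero hpP
  rcases (Nat.dvd_prime pp).1 hdvd with h | h
  · exact absurd (AddMonoid.addOrderOf_eq_one_iff.1 h) hP
  · exact h

theorem h8_nsmul_eq_zero_iff (j : ℕ) : j • P = 0 ↔ p ∣ j := by
  rw [← h8_addOrderOf pp hP hpP]
  exact addOrderOf_dvd_iff_nsmul_eq_zero.symm

theorem h8_nsmul_ne_zero {j : ℕ} (hj0 : 0 < j) (hjp : j < p) : j • P ≠ 0 := by
  rw [Ne, h8_nsmul_eq_zero_iff pp hP hpP]
  exact Nat.not_dvd_of_pos_of_lt hj0 hjp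

theorem h8_nsmul_torsion (j : ℕ) : p • (j • P) = 0 := by
  rw [smul_comm, hpP, smul_zero]

theorem h8_nsmul_ne_self {j : ℕ} (hj2 : 2 ≤ j) (hjp : j ≤ p - 2) : j • P ≠ P := by
  intro h
  have h1 : (j - 1) • P = 0 := by
    have : j • P = (j - 1) • P + P := by
      rw [← succ_nsmul]
      congr 1
      omega
    rw [this] at h
    exact add_eq_right.1 h
  have := (h8_nsmul_eq_zero_iff pp hP hpP (j - 1)).1 h1
  have hpos : 0 < j - 1 := by omega
  have hlt : j - 1 < p := by omega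
  exact Nat.not_dvd_of_pos_of_lt hpos hlt this

theorem h8_nsmul_ne_neg {j : ℕ} (hp2 : 2 ≤ p) (hjp : j ≤ p - 2) : j • P ≠ -P := by
  intro h
  have h1 : (j + 1) • P = 0 := by
    rw [succ_nsmul, h, neg_add_cancel]
  have := (h8_nsmul_eq_zero_iff pp hP hpP (j + 1)).1 h1
  have hpos : 0 < j + 1 := by omega
  have hlt : j + 1 < p := by omega
  exact Nat.not_dvd_of_pos_of_lt hpos hlt this

theorem h8_pred_nsmul : (p - 1) • P = -P := by
  have hp1 : 1 ≤ p := pp.one_lt.le
  have : (p - 1) • P + P = 0 := by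
    rw [← succ_nsmul]
    have : p - 1 + 1 = p := by omega
    rw [this, hpP]
  exact eq_neg_of_add_eq_zero_left this

theorem h8_pred_pred_nsmul : (p - 2) • P = -(2 • P) := by
  have hp2 : 2 ≤ p := pp.two_le
  have : (p - 2) • P + 2 • P = 0 := by
    rw [← add_nsmul]
    have : p - 2 + 2 = p := by omega
    rw [this, hpP]
  exact eq_neg_of_add_eq_zero_left this

theorem h8yc_ne_zero (hW : Vieta.IsShort W) (hp2 : p ≠ 2) : h8yc W P ≠ 0 := by
  intro hy
  have h2P : 2 • P = 0 := by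
    rw [two_nsmul]
    exact h8_add_self_eq_zero hW hy
  have := (h8_nsmul_eq_zero_iff pp hP hpP 2).1 h2P
  have hle := Nat.le_of_dvd (by norm_num) this
  have := pp.two_le
  omega

theorem h8xc_ne_zero (hW : Vieta.IsShort W) (hp2 : p ≠ 2) : h8xc W P ≠ 0 := by
  intro hx
  have hc := h8_curve hW hP
  rw [hx] at hc
  have : h8yc W P ^ 2 = 0 := by rw [hc]; ring
  exact h8yc_ne_zero pp hP hpP hW hp2 (pow_eq_zero_iff (two_ne_zero) |>.1 this)

end Torsion

end Fermat.Agent.S05
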