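import Mathlib
import Fermat.Agent.S05.H8_Points
import Fermat.Agent.S05.H8_Pair

/-!
# S05 (helper8): `p`-torsion points near the node (`x`-only proof of W3)

For the short curve `y² = x³ + a₂ x² + a₄ x` with `v a₂ = 1`, `v a₄ < 1`, `a₄ ≠ 0`, and a prime
`p ≥ 5` such that no nonzero `p`-torsion point lies in the kernel of reduction, every nonzero
`p`-torsion point `(x, y)` satisfies `max (v x) (v a₄) ^ p ∈ (v a₄ ^ 2) ^ ℤ`.  If moreover
`v a₄ = v c₀ ^ p`, then `v a₄ < v x` and `v x = v (c₀ ^ (2 k))` for some integer `k`.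
-/

set_option autoImplicit false
set_option linter.unusedSectionVars false

open WeierstrassCurve WeierstrassCurve.Affine

namespace Fermat.Agent.S05

variable {K : Type*} [Field K] [DecidableEq K]
  {Γ₀ : Type*} [LinearOrderedCommGroupWithZero Γ₀]

theorem h8_node_point {W : Affine K} (hW : Vieta.IsShort W) (v : Valuation K Γ₀)
    (hv2 : v 2 = 1) (hal : v W.a₂ = 1) (hbe1 : v W.a₄ < 1) (hbe0 : W.a₄ ≠ 0)
    {p : ℕ} (pp : p.Prime) (hp5 : 5 ≤ p)
    (hE1 : ∀ Q : W.Point, Q ≠ 0 → p • Q = 0 → v (h8xc W Q) ≤ 1)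
    {P : W.Point} (hP : P ≠ 0) (hpP : p • P = 0) :
    ∃ k : ℤ, max (v (h8xc W P)) (v W.a₄) ^ p = (v W.a₄ ^ 2) ^ k := by
  have h2K : (2 : K) ≠ 0 := by
    intro h
    rw [h, map_zero] at hv2
    exact zero_ne_one hv2
  have hp2 : p ≠ 2 := by omega
  have hodd : Odd p := pp.odd_of_ne_two hp2
  set E := v W.a₄ with hE
  have hE0 : E ≠ 0 := (map_ne_zero v).mpr hbe0
  have hne0 : ∀ j, 1 ≤ j → j ≤ p - 1 → j • P ≠ 0 := fun j h1 h2 =>
    h8_nsmul_ne_zero pp hP hpP (by omega) (by omega)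
  have hint : ∀ j, 1 ≤ j → j ≤ p - 1 → v (h8xc W (j • P)) ≤ 1 := fun j h1 h2 =>
    hE1 _ (hne0 j h1 h2) (h8_nsmul_torsion pp hP hpP j)
  have key := h8_comb hE0 hbe1 hp5 hodd (fun j => max (v (h8xc W (j • P))) E)
    (fun j _ _ => le_max_right _ _)
    (fun j h1 h2 => max_le (hint j h1 h2) (le_of_lt hbe1))
    ?_ ?_ ?_ ?_
  · simpa only [one_nsmul] using key
  · -- doubling
    show H8Rel E (max (v (h8xc W (2 • P))) E) (max (v (h8xc W (1 • P))) E ^ 2)
    rw [one_nsmul, two_nsmul]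
    have hy : h8yc W P ≠ 0 := h8yc_ne_zero pp hP hpP hW hp2
    obtain ⟨-, hD⟩ := h8_add_self_ne_zero hW h2K hP hy
    have hT : v (h8xc W (P + P)) ≤ 1 := by
      have := hint 2 (by omega) (by omega)
      rwa [two_nsmul] at this
    have hx : v (h8xc W P) ≤ 1 := by
      have := hint 1 le_rfl (by omega)
      rwa [one_nsmul] at this
    exact h8_dbl_depth v hal rfl hE0 hbe1 hv2 hx hT (h8_curve hW hP) hD
  · -- pair property
    intro j hj2 hjp
    show H8Pair E (max (v (h8xc W ((j + 1) • P))) E) (max (v (h8xc W ((j - 1) • P))) E)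
      (max (v (h8xc W (j • P))) E) (max (v (h8xc W (1 • P))) E)
    rw [one_nsmul]
    have hR0 : j • P ≠ 0 := hne0 j (by omega) (by omega)
    have hne : h8xc W (j • P) ≠ h8xc W P := by
      intro h
      rcases (h8xc_eq_iff hR0 hP).1 h with h | h
      · exact h8_nsmul_ne_self pp hP hpP hj2 hjp h
      · exact h8_nsmul_ne_neg pp hP hpP (by omega) hjp h
    obtain ⟨-, -, hS, hPr⟩ := h8_addsub_short hW hR0 hP hne
    have hplus : j • P + P = (j + 1) • P := (succ_nsmul P j).symm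
    have hminus : j • P - P = (j - 1) • P := by
      have : j • P = (j - 1) • P + P := by
        rw [← succ_nsmul]
        congr 1
        omega
      rw [this, add_sub_cancel_right]
    rw [hplus, hminus] at hS hPr
    have hx : v (h8xc W P) ≤ 1 := by
      have := hint 1 le_rfl (by omega)
      rwa [one_nsmul] at this
    exact h8_pair v hal rfl hE0 hbe1 hv2 (hint j (by omega) (by omega)) hx
      (hint (j + 1) (by omega) (by omega)) (hint (j - 1) (by omega) (by omega)) hS hPr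
  · -- (p - 1) P = - P
    show max (v (h8xc W ((p - 1) • P))) E = max (v (h8xc W (1 • P))) E
    rw [h8_pred_nsmul pp hP hpP, h8xc_neg, one_nsmul]
  · -- (p - 2) P = - 2 P
    show max (v (h8xc W ((p - 2) • P))) E = max (v (h8xc W (2 • P))) E
    rw [h8_pred_pred_nsmul pp hP hpP, h8xc_neg]

/-- **W3 (x-only hedge)**: a nonzero `p`-torsion point on the multiplicative model has
`v a₄ < v x` and `v x` is the valuation of an even power of `c₀`, where `v a₄ = v c₀ ^ p`. -/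
theorem h8_node (W : WeierstrassCurve K) (h1 : W.a₁ = 0) (h3 : W.a₃ = 0) (h6 : W.a₆ = 0)
    (v : Valuation K Γ₀) (hv2 : v 2 = 1) (ha2 : v W.a₂ = 1) (ha4 : v W.a₄ < 1)
    (ha40 : W.a₄ ≠ 0) {p : ℕ} (pp : p.Prime) (hp5 : 5 ≤ p)
    (hE1 : ∀ (x y : K) (h : W.toAffine.Nonsingular x y),
      p • (Point.some x y h) = 0 → v x ≤ 1)
    {c₀ : K} (hc₀ : v W.a₄ = v c₀ ^ p)
    {x y : K} (h : W.toAffine.Nonsingular x y) (hpP : p • Point.some x y h = 0) :
    v W.a₄ < v x ∧ ∃ k : ℤ, v x = v (c₀ ^ (2 * k)) := by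
  have hW : Vieta.IsShort W.toAffine := ⟨h1, h3, h6⟩
  have hE1' : ∀ Q : W.toAffine.Point, Q ≠ 0 → p • Q = 0 → v (h8xc W.toAffine Q) ≤ 1 := by
    intro Q hQ hpQ
    obtain ⟨hq, hQe⟩ := h8_exists_some hQ
    rw [hQe] at hpQ
    exact hE1 _ _ hq hpQ
  obtain ⟨k, hk⟩ := h8_node_point hW v hv2 ha2 ha4 ha40 pp hp5 hE1'
    (Point.some_ne_zero h) hpP
  rw [h8xc_some] at hk
  have hp0 : p ≠ 0 := by omega
  have hp2 : p ≠ 2 := by omega
  have hodd : Odd p := pp.odd_of_ne_two hp2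
  set E := v W.a₄ with hE
  set γ := v c₀ with hγ
  have hE0 : E ≠ 0 := (map_ne_zero v).mpr ha40
  have hγ0 : γ ≠ 0 := by
    intro h0
    rw [hc₀, h0, zero_pow hp0] at hE0
    exact hE0 rfl
  have hγpos : 0 < γ := zero_lt_iff.mpr hγ0
  have hγ1 : γ < 1 := by
    by_contra hcon
    rw [not_lt] at hcon
    have : 1 ≤ γ ^ p := one_le_pow₀ hcon
    rw [← hc₀] at this
    exact absurd ha4 (not_lt.2 this)
  -- c = γ ^ (2 k)
  have hc : max (v x) E = γ ^ (2 * k) := by
    have : max (v x) E ^ p = (γ ^ (2 * k)) ^ p := by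
      rw [hk, hc₀, ← zpow_natCast (γ ^ (2 * k)) p, ← zpow_mul, ← zpow_natCast (γ ^ p) 2,
        ← zpow_natCast γ p, ← zpow_mul, ← zpow_mul]
      congr 1
      push_cast
      ring
    exact (pow_left_inj hp0).mp this
  have hcE : max (v x) E ≠ E := by
    intro heq
    rw [hc, hc₀, ← zpow_natCast γ p] at heq
    have := zpow_right_injective₀ hγpos (ne_of_lt hγ1) heq
    obtain ⟨m, hm⟩ := hodd
    omega
  have hlt : E < v x := by
    by_contra hcon
    rw [not_lt] at hcon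
    exact hcE (max_eq_right hcon)
  refine ⟨hlt, k, ?_⟩
  rw [map_zpow₀, ← hc, max_eq_left (le_of_lt hlt)]

end Fermat.Agent.S05
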