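import Fermat.Agent.S05.W3_Defs

/-!
# S05, W3 (helper20): the component map

For the node data `hD : NodeData A W ρ` the component map `comp` sends a point to an element of
`Γˣ ⧸ ⟨v β ^ 2⟩`, where `Γ` is the value group of `A`.
-/

open WeierstrassCurve WeierstrassCurve.Affine

namespace Fermat.Agent.S05.W3

variable {K : Type*} [Field K]

section basics

variable {A : ValuationSubring K} {W : Affine K} {ρ : K}

/-- For an affine point with `x ≠ 0`: `(y / x)² = x + α + β / x`. -/
lemma h20_t_sq (hD : NodeData A W ρ) {x y : K} (h : W.Nonsingular x y) (hx : x ≠ 0) :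
    (y / x) ^ 2 = x + W.a₂ + W.a₄ / x := by
  have E := (hD.short.equation_iff x y).mp h.1
  field_simp
  linear_combination E

lemma h20_ne_zero_of_val_lt {x : K} {g : A.ValueGroup} (h : g < A.valuation x) : x ≠ 0 := by
  rintro rfl
  rw [map_zero] at h
  exact not_lt_zero h

/-- For a middle point, `(y / x)² - α` is a nonunit. -/
lemma h20_val_t_sq_sub (hD : NodeData A W ρ) {x y : K} (h : W.Nonsingular x y)
    (hM : A.valuation W.a₄ < A.valuation x) (hM' : A.valuation x < 1) :
    A.valuation ((y / x) ^ 2 - W.a₂) < 1 := by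
  have hx : x ≠ 0 := h20_ne_zero_of_val_lt hM
  have hvx : A.valuation x ≠ 0 := (map_ne_zero _).mpr hx
  rw [h20_t_sq hD h hx]
  have e : x + W.a₂ + W.a₄ / x - W.a₂ = x + W.a₄ / x := by ring
  rw [e]
  refine lt_of_le_of_lt (Valuation.map_add _ _ _) (max_lt hM' ?_)
  rw [map_div₀]
  exact (div_lt_one₀ (zero_lt_iff.mpr hvx)).mpr hM

/-- For a middle point, `y / x` is a unit. -/
lemma h20_val_t (hD : NodeData A W ρ) {x y : K} (h : W.Nonsingular x y)
    (hM : A.valuation W.a₄ < A.valuation x) (hM' : A.valuation x < 1) :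
    A.valuation (y / x) = 1 := by
  have h1 := h20_val_t_sq_sub hD h hM hM'
  have h2 : A.valuation ((y / x) ^ 2) = 1 := by
    have e : (y / x) ^ 2 = W.a₂ + ((y / x) ^ 2 - W.a₂) := by ring
    rw [e, Valuation.map_add_eq_of_lt_left _ (by rw [hD.al]; exact h1), hD.al]
  rw [map_pow] at h2
  exact (pow_eq_one_iff_of_nonneg zero_le two_ne_zero).mp h2

/-- `2 ρ` is a unit. -/
lemma h20_val_two_rho (hD : NodeData A W ρ) : A.valuation (2 * ρ) = 1 := by
  rw [map_mul, hD.two, hD.val_rho, one_mul]

/-- A middle point has a sign. -/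
lemma h20_sign_or (hD : NodeData A W ρ) {x y : K} (h : W.Nonsingular x y)
    (hM : A.valuation W.a₄ < A.valuation x) (hM' : A.valuation x < 1) :
    A.valuation (y / x - ρ) < 1 ∨ A.valuation (y / x + ρ) < 1 := by
  have h1 := h20_val_t_sq_sub hD h hM hM'
  have e : (y / x) ^ 2 - W.a₂ = (y / x - ρ) * (y / x + ρ) := by rw [← hD.rho]; ring
  rw [e, map_mul] at h1
  by_contra hcon
  push Not at hcon
  exact absurd h1 (not_lt.mpr (one_le_mul_of_one_le_of_one_le hcon.1 hcon.2))

/-- A point does not have both signs. -/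
lemma h20_sign_not_both (hD : NodeData A W ρ) {t : K}
    (h1 : A.valuation (t - ρ) < 1) (h2 : A.valuation (t + ρ) < 1) : False := by
  have e : 2 * ρ = (t + ρ) - (t - ρ) := by ring
  have h3 := h20_val_two_rho hD
  rw [e] at h3
  have h4 := Valuation.map_sub A.valuation (t + ρ) (t - ρ)
  rw [h3] at h4
  exact absurd h4 (not_le.mpr (max_lt h2 h1))

end basics

section translation

variable {A : ValuationSubring K} {W : Affine K} {ρ : K}

/-- The point `T = (0, 0)` is nonsingular. -/
lemma h20_nonsingular_T (hD : NodeData A W ρ) : W.Nonsingular 0 0 := by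
  rw [hD.short.nonsingular_iff]
  refine ⟨by ring, Or.inl ?_⟩
  simpa using hD.be0

variable [DecidableEq K]

/-- The point `T = (0, 0)`. -/
def pointT (hD : NodeData A W ρ) : W.Point := Point.some 0 0 (h20_nonsingular_T hD)

lemma h20_T_add_T (hD : NodeData A W ρ) : pointT hD + pointT hD = 0 :=
  Vieta.add_self_of_y_eq_zero hD.short _ rfl

/-- (L5) translation by the 2-torsion point `T = (0, 0)`. -/
theorem leaf_T (hD : NodeData A W ρ) {x y : K} (h : W.Nonsingular x y) (hx : x ≠ 0) :
    ∃ (h' : W.Nonsingular (W.a₄ / x) (-(W.a₄ * y / x ^ 2))),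
      Point.some x y h + pointT hD = Point.some _ _ h' := by
  have hxy : ¬(x = 0 ∧ y = -0) := fun h0 => hx h0.1
  obtain ⟨L, N, x₃, h₃, hsum, -, e₁, e₂, v₁, -, -⟩ :=
    Vieta.line_of_add_some hD.short h (h20_nonsingular_T hD) hxy
  have hN : N = 0 := by simpa using e₂.symm
  subst hN
  have hL : L = y / x := by
    field_simp
    linear_combination -e₁
  have E := (hD.short.equation_iff x y).mp h.1
  have hx₃ : x₃ = W.a₄ / x := by
    have : x₃ = L ^ 2 - W.a₂ - x := by linear_combination v₁
    rw [this, hL]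
    field_simp
    linear_combination E
  have hy₃ : -(L * x₃ + 0) = -(W.a₄ * y / x ^ 2) := by
    rw [hx₃, hL]
    field_simp
    ring
  have h' : W.Nonsingular (W.a₄ / x) (-(W.a₄ * y / x ^ 2)) := by
    rw [← hx₃, ← hy₃]; exact h₃
  refine ⟨h', ?_⟩
  rw [pointT, hsum]
  congr 1

end translation

end Fermat.Agent.S05.W3
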