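import Fermat.Agent.S05.W3_Defs

/-!
# S05, work package W3, leaf L1 (helper16): good + good = good

On a short Weierstrass curve `y² = x³ + α x² + β x` with a node at `(0, 0)` modulo the
valuation (`α` a unit, `β` a nonzero nonunit), the sum of two affine points with
`1 ≤ v x` (points not reducing to the node) again satisfies `1 ≤ v x`, as soon as the sum is
an affine point.
-/

open WeierstrassCurve WeierstrassCurve.Affine

namespace Fermat.Agent.S05.W3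

variable {K : Type*} [Field K]
variable {A : ValuationSubring K}

/-- The key identity (F2) in denominator-free form: for the third point `x₃` of the line
`y = L x + N` through `(x₁, y₁)` and `(x₂, y₂)`,
`x₃ (x₂ y₁ + x₁ y₂)² = x₁ x₂ (x₁ x₂ - β)²`. -/
theorem h16_key_identity {al be x₁ y₁ x₂ y₂ x₃ L N : K}
    (e₁ : y₁ = L * x₁ + N) (e₂ : y₂ = L * x₂ + N)
    (V₁ : x₁ + x₂ + x₃ = L ^ 2 - al)
    (V₂ : x₁ * x₂ + x₁ * x₃ + x₂ * x₃ = be - 2 * L * N)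
    (V₃ : x₁ * x₂ * x₃ = N ^ 2) :
    x₃ * (x₂ * y₁ + x₁ * y₂) ^ 2 = x₁ * x₂ * (x₁ * x₂ - be) ^ 2 := by
  have hL2 : L ^ 2 = x₁ + x₂ + x₃ + al := by linear_combination -V₁
  have hLN : 2 * L * N = be - x₁ * x₂ - (x₁ + x₂) * x₃ := by linear_combination V₂
  have hN2 : N ^ 2 = x₁ * x₂ * x₃ := V₃.symm
  -- the `x`-only relation
  have hR : (be - x₁ * x₂ - (x₁ + x₂) * x₃) ^ 2
      = 4 * (x₁ * x₂ * x₃) * (x₁ + x₂ + x₃ + al) := by
    rw [← hLN, ← hN2, ← hL2]; ring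
  rw [e₁, e₂]
  have expand : x₃ * (x₂ * (L * x₁ + N) + x₁ * (L * x₂ + N)) ^ 2
      = x₃ * (4 * (x₁ * x₂) ^ 2 * L ^ 2 + 2 * (x₁ * x₂) * (x₁ + x₂) * (2 * L * N)
          + (x₁ + x₂) ^ 2 * N ^ 2) := by ring
  rw [expand, hL2, hLN, hN2]
  linear_combination (-(x₁ * x₂)) * hR

/-- On a short curve, `v y ^ 2 ≤ v x ^ 3` for a point with `1 ≤ v x`, when `v α ≤ 1` and
`v β ≤ 1`. -/
theorem h16_val_y_sq_le {al be x y : K} (hal : A.valuation al ≤ 1) (hbe : A.valuation be ≤ 1)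
    (heq : y ^ 2 = x ^ 3 + al * x ^ 2 + be * x) (hx : 1 ≤ A.valuation x) :
    A.valuation y ^ 2 ≤ A.valuation x ^ 3 := by
  rw [← map_pow, heq]
  have h1 : A.valuation (x ^ 3) = A.valuation x ^ 3 := map_pow _ _ _
  have hx2 : A.valuation x ^ 2 ≤ A.valuation x ^ 3 := pow_le_pow_right₀ hx (by norm_num)
  have hx1 : A.valuation x ≤ A.valuation x ^ 3 := by
    simpa using pow_le_pow_right₀ hx (show 1 ≤ 3 by norm_num)
  have h2 : A.valuation (al * x ^ 2) ≤ A.valuation x ^ 3 := by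
    rw [map_mul, map_pow]
    calc A.valuation al * A.valuation x ^ 2 ≤ 1 * A.valuation x ^ 2 :=
          mul_le_mul_left hal _
      _ = A.valuation x ^ 2 := one_mul _
      _ ≤ A.valuation x ^ 3 := hx2
  have h3 : A.valuation (be * x) ≤ A.valuation x ^ 3 := by
    rw [map_mul]
    calc A.valuation be * A.valuation x ≤ 1 * A.valuation x := mul_le_mul_left hbe _
      _ = A.valuation x := one_mul _
      _ ≤ A.valuation x ^ 3 := hx1
  exact (A.valuation.map_add_le (A.valuation.map_add_le h1.le h2) h3)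

/-- **Leaf L1**: good + good = good. -/
theorem leaf_GG [DecidableEq K] {W : Affine K} {ρ : K} (hD : NodeData A W ρ) {x₁ y₁ x₂ y₂ x₃ y₃ : K}
    {h₁ : W.Nonsingular x₁ y₁} {h₂ : W.Nonsingular x₂ y₂} {h₃ : W.Nonsingular x₃ y₃}
    (hsum : Point.some x₁ y₁ h₁ + Point.some x₂ y₂ h₂ = Point.some x₃ y₃ h₃)
    (hG₁ : 1 ≤ A.valuation x₁) (hG₂ : 1 ≤ A.valuation x₂) :
    1 ≤ A.valuation x₃ := by
  have hW := hD.short
  -- `P₁ ≠ -P₂`
  have hxy : ¬(x₁ = x₂ ∧ y₁ = -y₂) := by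
    rintro ⟨hx, hy⟩
    have hneg : W.negY x₂ y₂ = -y₂ := hW.negY x₂ y₂
    have h0 : Point.some x₁ y₁ h₁ + Point.some x₂ y₂ h₂ = 0 :=
      Point.add_of_Y_eq hx (by rw [hneg]; exact hy)
    rw [h0] at hsum
    exact Point.some_ne_zero h₃ hsum.symm
  obtain ⟨L, N, x₃', h₃', hs, -, e₁, e₂, V₁, V₂, V₃⟩ := Vieta.line_of_add_some hW h₁ h₂ hxy
  rw [hsum] at hs
  have hx₃ : x₃ = x₃' := by
    have := hs
    simp only [Point.some.injEq] at this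
    exact this.1
  subst hx₃
  have key := h16_key_identity e₁ e₂ V₁ V₂ V₃
  -- valuations
  set v := A.valuation with hv
  have hal : v W.a₂ ≤ 1 := hD.al.le
  have hbe : v W.a₄ ≤ 1 := hD.be.le
  have hy₁ : v y₁ ^ 2 ≤ v x₁ ^ 3 :=
    h16_val_y_sq_le hal hbe ((hW.equation_iff x₁ y₁).mp h₁.1) hG₁
  have hy₂ : v y₂ ^ 2 ≤ v x₂ ^ 3 :=
    h16_val_y_sq_le hal hbe ((hW.equation_iff x₂ y₂).mp h₂.1) hG₂
  have hX : 1 ≤ v (x₁ * x₂) := by
    rw [map_mul]; exact one_le_mul_of_one_le_of_one_le hG₁ hG₂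
  -- `v (x₁ x₂ - β) = v (x₁ x₂)`
  have hXbe : v (x₁ * x₂ - W.a₄) = v (x₁ * x₂) := by
    rw [sub_eq_add_neg]
    refine Valuation.map_add_eq_of_lt_left v ?_
    rw [Valuation.map_neg]
    exact lt_of_lt_of_le hD.be hX
  -- `v (x₂ y₁ + x₁ y₂) ^ 2 ≤ v (x₁ x₂) ^ 3`
  have hY₁ : v (x₂ * y₁) ^ 2 ≤ v (x₁ * x₂) ^ 3 := by
    rw [map_mul, map_mul, mul_pow, mul_pow]
    calc v x₂ ^ 2 * v y₁ ^ 2 ≤ v x₂ ^ 3 * v x₁ ^ 3 :=
          mul_le_mul' (pow_le_pow_right₀ hG₂ (by norm_num)) hy₁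
      _ = v x₁ ^ 3 * v x₂ ^ 3 := mul_comm _ _
  have hY₂ : v (x₁ * y₂) ^ 2 ≤ v (x₁ * x₂) ^ 3 := by
    rw [map_mul, map_mul, mul_pow, mul_pow]
    exact mul_le_mul' (pow_le_pow_right₀ hG₁ (by norm_num)) hy₂
  have hY : v (x₂ * y₁ + x₁ * y₂) ^ 2 ≤ v (x₁ * x₂) ^ 3 := by
    rcases le_total (v (x₂ * y₁)) (v (x₁ * y₂)) with h | h
    · exact le_trans (pow_le_pow_left' (le_trans (v.map_add _ _) (max_le h le_rfl)) 2) hY₂
    · exact le_trans (pow_le_pow_left' (le_trans (v.map_add _ _) (max_le le_rfl h)) 2) hY₁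
  -- take valuations in the key identity
  have hkey : v x₃ * v (x₂ * y₁ + x₁ * y₂) ^ 2 = v (x₁ * x₂) ^ 3 := by
    have := congrArg v key
    rw [map_mul, map_pow, map_mul (f := v) (x₁ * x₂), map_pow, hXbe] at this
    rw [this, ← pow_succ']
  by_contra hlt
  rw [not_le] at hlt
  have hX0 : v (x₁ * x₂) ^ 3 ≠ 0 := by
    refine pow_ne_zero _ ?_
    exact (lt_of_lt_of_le zero_lt_one hX).ne'
  have hY0 : v (x₂ * y₁ + x₁ * y₂) ^ 2 ≠ 0 := by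
    intro h0
    rw [h0, mul_zero] at hkey
    exact hX0 hkey.symm
  have : v x₃ * v (x₂ * y₁ + x₁ * y₂) ^ 2 < v (x₁ * x₂) ^ 3 := by
    calc v x₃ * v (x₂ * y₁ + x₁ * y₂) ^ 2 < 1 * v (x₂ * y₁ + x₁ * y₂) ^ 2 :=
          mul_lt_mul_of_pos_right hlt (zero_lt_iff.mpr hY0)
      _ = v (x₂ * y₁ + x₁ * y₂) ^ 2 := one_mul _
      _ ≤ v (x₁ * x₂) ^ 3 := hY
  exact this.ne hkey

end Fermat.Agent.S05.W3
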