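import Fermat.Agent.S05.W3_Defs

/-!
# S05, W3 leaf L2 (helper21): good + middle = middle

On `y² = x³ + α x² + β x` with node data (`v α = 1`, `ρ² = α`, `v β < 1`): if `P₁` is a good point
(`1 ≤ v x₁`) and `P₂` is a middle point (`v β < v x₂ < 1`) of sign `+` (`v (y₂ / x₂ - ρ) < 1`), then
`P₃ = P₁ + P₂` is a middle point with `v x₃ = v x₂` and the same sign.
-/

set_option autoImplicit false
set_option linter.unusedSectionVars false

open WeierstrassCurve WeierstrassCurve.Affine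

namespace Fermat.Agent.S05.W3

section Core

variable {K : Type*} [Field K] {Γ₀ : Type*} [LinearOrderedCommGroupWithZero Γ₀]

/-- The valuation core of leaf L2, in terms of `t_i = y_i / x_i`. -/
lemma h21_GM_core (v : Valuation K Γ₀) {al be ρ x₁ x₂ x₃ t₁ t₂ t₃ L N : K}
    (hal : v al = 1) (hρ : ρ ^ 2 = al) (hbe : v be < 1)
    (E₁ : t₁ ^ 2 * x₁ = x₁ ^ 2 + al * x₁ + be)
    (E₂ : t₂ ^ 2 * x₂ = x₂ ^ 2 + al * x₂ + be)
    (e₁ : x₁ * t₁ = L * x₁ + N) (e₂ : x₂ * t₂ = L * x₂ + N)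
    (V3 : x₁ * x₂ * x₃ = N ^ 2)
    (e₃ : t₃ = -(L * x₃ + N) / x₃)
    (hG₁ : 1 ≤ v x₁) (hM₂ : v be < v x₂) (hM₂' : v x₂ < 1) (hs₂ : v (t₂ - ρ) < 1) :
    v x₃ = v x₂ ∧ v (t₃ - ρ) < 1 := by
  -- basic nonvanishing
  have hx₁pos : 0 < v x₁ := lt_of_lt_of_le zero_lt_one hG₁
  have hx₁ : x₁ ≠ 0 := (Valuation.ne_zero_iff v).mp hx₁pos.ne'
  have hx₂pos : 0 < v x₂ := lt_of_le_of_lt zero_le hM₂
  have hx₂ : x₂ ≠ 0 := (Valuation.ne_zero_iff v).mp hx₂pos.ne'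
  have hlt : v x₂ < v x₁ := lt_of_lt_of_le hM₂' hG₁
  have hX : v (x₁ - x₂) = v x₁ := Valuation.map_sub_eq_of_lt_left v hlt
  have hvρ : v ρ = 1 := by
    have h : v ρ ^ 2 = 1 := by rw [← map_pow, hρ, hal]
    exact (pow_eq_one_iff_of_nonneg zero_le two_ne_zero).mp h
  have ht₂ : v t₂ = 1 := by
    have : t₂ = ρ + (t₂ - ρ) := by ring
    rw [this, Valuation.map_add_eq_of_lt_left v (by rw [hvρ]; exact hs₂), hvρ]
  -- D = t₂ - t₁, S = t₁ + t₂
  have hDS : (t₂ - t₁) * (t₁ + t₂) * (x₁ * x₂) = (x₁ - x₂) * (be - x₁ * x₂) := by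
    linear_combination x₁ * E₂ - x₂ * E₁
  have hbx : v (be - x₁ * x₂) = v x₁ * v x₂ := by
    have h1 : v be < v (x₁ * x₂) := by
      rw [map_mul]
      calc v be < v x₂ := hM₂
        _ = 1 * v x₂ := (one_mul _).symm
        _ ≤ v x₁ * v x₂ := mul_le_mul_left hG₁ _
    rw [Valuation.map_sub_eq_of_lt_right v h1, map_mul]
  have hDSv : v (t₂ - t₁) * v (t₁ + t₂) = v x₁ := by
    have h := congrArg v hDS
    rw [map_mul, map_mul, map_mul, map_mul, hX, hbx] at h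
    have hne : v x₁ * v x₂ ≠ 0 := mul_ne_zero hx₁pos.ne' hx₂pos.ne'
    exact mul_right_cancel₀ hne h
  have h2t : v (2 * t₂) ≤ 1 := by
    have : (2 : K) * t₂ = t₂ + t₂ := by ring
    rw [this]
    exact le_trans (v.map_add _ _) (by rw [ht₂, max_self])
  have hDeqS : v (t₂ - t₁) = v (t₁ + t₂) := by
    by_contra hne
    have hsum : v ((t₂ - t₁) + (t₁ + t₂)) = max (v (t₂ - t₁)) (v (t₁ + t₂)) :=
      Valuation.map_add_of_distinct_val v hne
    have h2 : (t₂ - t₁) + (t₁ + t₂) = 2 * t₂ := by ring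
    rw [h2] at hsum
    have hmax : max (v (t₂ - t₁)) (v (t₁ + t₂)) ≤ 1 := hsum ▸ h2t
    have hD1 : v (t₂ - t₁) ≤ 1 := le_trans (le_max_left _ _) hmax
    have hS1 : v (t₁ + t₂) ≤ 1 := le_trans (le_max_right _ _) hmax
    have hprod : 1 ≤ v (t₂ - t₁) * v (t₁ + t₂) := by rw [hDSv]; exact hG₁
    have hD1' : v (t₂ - t₁) = 1 := by
      apply le_antisymm hD1
      by_contra hcon
      push Not at hcon
      have : v (t₂ - t₁) * v (t₁ + t₂) < 1 := mul_lt_one_of_lt_of_le hcon hS1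
      exact absurd hprod (not_le.mpr this)
    have hS1' : v (t₁ + t₂) = 1 := by
      apply le_antisymm hS1
      by_contra hcon
      push Not at hcon
      have : v (t₂ - t₁) * v (t₁ + t₂) < 1 := by
        rw [mul_comm]; exact mul_lt_one_of_lt_of_le hcon hD1
      exact absurd hprod (not_le.mpr this)
    exact hne (hD1'.trans hS1'.symm)
  have hD2 : v (t₂ - t₁) * v (t₂ - t₁) = v x₁ := by
    rw [← hDSv, ← hDeqS]
  have hD1 : 1 ≤ v (t₂ - t₁) := by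
    by_contra hcon
    push Not at hcon
    have : v (t₂ - t₁) * v (t₂ - t₁) < 1 := mul_lt_one_of_lt_of_le hcon hcon.le
    rw [hD2] at this
    exact absurd hG₁ (not_le.mpr this)
  have hDpos : 0 < v (t₂ - t₁) := lt_of_lt_of_le zero_lt_one hD1
  have hD : t₂ - t₁ ≠ 0 := (Valuation.ne_zero_iff v).mp hDpos.ne'
  -- N (x₁ - x₂) = x₁ x₂ (t₂ - t₁)
  have hN : N * (x₁ - x₂) = x₁ * x₂ * (t₂ - t₁) := by
    linear_combination x₂ * e₁ - x₁ * e₂
  have hNv : v N = v x₂ * v (t₂ - t₁) := by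
    have h := congrArg v hN
    rw [map_mul, map_mul, map_mul, hX] at h
    have : v N * v x₁ = (v x₂ * v (t₂ - t₁)) * v x₁ := by
      rw [h]; simp only [mul_comm, mul_left_comm]
    exact mul_right_cancel₀ hx₁pos.ne' this
  have hx₃v : v x₃ = v x₂ := by
    have h := congrArg v V3
    rw [map_mul, map_mul, map_pow, hNv] at h
    have : v x₃ * (v x₁ * v x₂) = v x₂ * (v x₁ * v x₂) := by
      calc v x₃ * (v x₁ * v x₂) = v x₁ * v x₂ * v x₃ := by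
            simp only [mul_comm, mul_left_comm]
        _ = (v x₂ * v (t₂ - t₁)) ^ 2 := h
        _ = v x₂ * v x₂ * (v (t₂ - t₁) * v (t₂ - t₁)) := by
            rw [sq]; simp only [mul_comm, mul_left_comm]
        _ = v x₂ * (v x₁ * v x₂) := by
            rw [hD2]; simp only [mul_comm, mul_left_comm]
    exact mul_right_cancel₀ (mul_ne_zero hx₁pos.ne' hx₂pos.ne') this
  refine ⟨hx₃v, ?_⟩
  -- the sign
  have hx₃ : x₃ ≠ 0 := (Valuation.ne_zero_iff v).mp (by rw [hx₃v]; exact hx₂pos.ne')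
  replace e₃ : t₃ * x₃ = -(L * x₃ + N) := by rw [e₃, div_mul_cancel₀ _ hx₃]
  have hNpos : 0 < v N := by rw [hNv]; exact mul_pos hx₂pos hDpos
  have hN0 : N ≠ 0 := (Valuation.ne_zero_iff v).mp hNpos.ne'
  have e₃' : t₃ * N = -(L * N) - x₁ * x₂ := by
    have h : N * (t₃ * N) = N * (-(L * N) - x₁ * x₂) := by
      linear_combination (x₁ * x₂) * e₃ - (t₃ + L) * V3
    exact mul_left_cancel₀ hN0 h
  have hLX : L * (x₁ - x₂) = x₁ * t₁ - x₂ * t₂ := by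
    linear_combination e₂ - e₁
  have hkey : (t₃ - t₂) * ((x₁ - x₂) * (t₂ - t₁)) =
      x₁ * (al - t₂ ^ 2) + be + 2 * (x₁ * x₂) - x₂ ^ 2 + 2 * (x₂ * t₂ ^ 2)
        - 2 * (x₂ * (t₁ * t₂)) := by
    have h : (x₁ * x₂) * ((t₃ - t₂) * ((x₁ - x₂) * (t₂ - t₁))) =
        (x₁ * x₂) * (x₁ * (al - t₂ ^ 2) + be + 2 * (x₁ * x₂) - x₂ ^ 2 + 2 * (x₂ * t₂ ^ 2)
          - 2 * (x₂ * (t₁ * t₂))) := by
      linear_combination (x₁ * x₂) * E₁ + (x₁ - x₂) ^ 2 * e₃'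
        - ((x₁ - x₂) * N) * hLX
        - (x₁ * t₁ - x₂ * t₂ + t₂ * (x₁ - x₂) + (t₃ - t₂) * (x₁ - x₂)) * hN
    exact mul_left_cancel₀ (mul_ne_zero hx₁ hx₂) h
  set M : Γ₀ := v x₁ * v (t₂ - t₁) with hM
  have hM1 : v x₁ ≤ M := by
    calc v x₁ = v x₁ * 1 := (mul_one _).symm
      _ ≤ v x₁ * v (t₂ - t₁) := mul_le_mul_right hD1 _
  have hM1' : 1 ≤ M := le_trans hG₁ hM1
  have hMD : v (t₂ - t₁) ≤ M := by
    calc v (t₂ - t₁) = 1 * v (t₂ - t₁) := (one_mul _).symm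
      _ ≤ v x₁ * v (t₂ - t₁) := mul_le_mul_left hG₁ _
  have hv2 : v (2 : K) ≤ 1 := by
    have : (2 : K) = 1 + 1 := by norm_num
    rw [this]
    exact le_trans (v.map_add _ _) (by rw [map_one, max_self])
  have hvt₁ : v t₁ ≤ v (t₂ - t₁) := by
    have h : v (t₂ - (t₂ - t₁)) ≤ max (v t₂) (v (t₂ - t₁)) := Valuation.map_sub v _ _
    have e : t₂ - (t₂ - t₁) = t₁ := by ring
    rw [e, ht₂] at h
    exact le_trans h (max_le hD1 le_rfl)
  -- the six terms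
  have T1 : v (x₁ * (al - t₂ ^ 2)) < M := by
    have h1 : v (al - t₂ ^ 2) < 1 := by
      have : al - t₂ ^ 2 = -((t₂ - ρ) * (t₂ + ρ)) := by rw [← hρ]; ring
      rw [this, Valuation.map_neg, map_mul]
      have h2 : v (t₂ + ρ) ≤ 1 :=
        le_trans (v.map_add _ _) (by rw [ht₂, hvρ, max_self])
      exact mul_lt_one_of_lt_of_le hs₂ h2
    rw [map_mul]
    calc v x₁ * v (al - t₂ ^ 2) < v x₁ * 1 := mul_lt_mul_of_pos_left h1 hx₁pos
      _ = v x₁ := mul_one _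
      _ ≤ M := hM1
  have T2 : v be < M := lt_of_lt_of_le hbe hM1'
  have T3 : v (2 * (x₁ * x₂)) < M := by
    rw [map_mul, map_mul]
    calc v 2 * (v x₁ * v x₂) ≤ 1 * (v x₁ * v x₂) := mul_le_mul_left hv2 _
      _ = v x₁ * v x₂ := one_mul _
      _ < v x₁ * 1 := mul_lt_mul_of_pos_left hM₂' hx₁pos
      _ = v x₁ := mul_one _
      _ ≤ M := hM1
  have T4 : v (x₂ ^ 2) < M := by
    rw [map_pow]
    calc v x₂ ^ 2 = v x₂ * v x₂ := sq _
      _ < 1 := mul_lt_one_of_lt_of_le hM₂' hM₂'.le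
      _ ≤ M := hM1'
  have T5 : v (2 * (x₂ * t₂ ^ 2)) < M := by
    rw [map_mul, map_mul, map_pow, ht₂, one_pow, mul_one]
    calc v 2 * v x₂ ≤ 1 * v x₂ := mul_le_mul_left hv2 _
      _ = v x₂ := one_mul _
      _ < 1 := hM₂'
      _ ≤ M := hM1'
  have T6 : v (2 * (x₂ * (t₁ * t₂))) < M := by
    rw [map_mul, map_mul, map_mul, ht₂, mul_one]
    calc v 2 * (v x₂ * v t₁) ≤ 1 * (v x₂ * v t₁) := mul_le_mul_left hv2 _
      _ = v x₂ * v t₁ := one_mul _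
      _ ≤ v x₂ * v (t₂ - t₁) := mul_le_mul_right hvt₁ _
      _ < 1 * v (t₂ - t₁) := mul_lt_mul_of_pos_right hM₂' hDpos
      _ = v (t₂ - t₁) := one_mul _
      _ ≤ M := hMD
  have hNum : v ((t₃ - t₂) * ((x₁ - x₂) * (t₂ - t₁))) < M := by
    rw [hkey]
    refine Valuation.map_sub_lt v ?_ T6
    refine Valuation.map_add_lt v ?_ T5
    refine Valuation.map_sub_lt v ?_ T4
    refine Valuation.map_add_lt v ?_ T3
    exact Valuation.map_add_lt v T1 T2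
  have h32 : v (t₃ - t₂) < 1 := by
    rw [map_mul, map_mul, hX, ← hM] at hNum
    by_contra hcon
    push Not at hcon
    have : M ≤ v (t₃ - t₂) * M := by
      calc M = 1 * M := (one_mul _).symm
        _ ≤ v (t₃ - t₂) * M := mul_le_mul_left hcon _
    exact absurd hNum (not_lt.mpr this)
  have : t₃ - ρ = (t₃ - t₂) + (t₂ - ρ) := by ring
  rw [this]
  exact Valuation.map_add_lt v h32 hs₂

end Core

variable {K : Type*} [Field K] [DecidableEq K] {A : ValuationSubring K} {W : Affine K} {ρ : K}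

/-- **Leaf L2**: good + middle = middle, with the same `v x` and the same sign. -/
theorem leaf_GM (hD : NodeData A W ρ) {x₁ y₁ x₂ y₂ x₃ y₃ : K}
    {h₁ : W.Nonsingular x₁ y₁} {h₂ : W.Nonsingular x₂ y₂} {h₃ : W.Nonsingular x₃ y₃}
    (hsum : Point.some x₁ y₁ h₁ + Point.some x₂ y₂ h₂ = Point.some x₃ y₃ h₃)
    (hG₁ : 1 ≤ A.valuation x₁) (hM₂ : A.valuation W.a₄ < A.valuation x₂)
    (hM₂' : A.valuation x₂ < 1) (hs₂ : A.valuation (y₂ / x₂ - ρ) < 1) :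
    A.valuation x₃ = A.valuation x₂ ∧ A.valuation (y₃ / x₃ - ρ) < 1 := by
  have hx₁pos : 0 < A.valuation x₁ := lt_of_lt_of_le zero_lt_one hG₁
  have hx₁ : x₁ ≠ 0 := (Valuation.ne_zero_iff _).mp hx₁pos.ne'
  have hx₂pos : 0 < A.valuation x₂ := lt_of_le_of_lt zero_le hM₂
  have hx₂ : x₂ ≠ 0 := (Valuation.ne_zero_iff _).mp hx₂pos.ne'
  have hne : x₁ ≠ x₂ := by
    intro h
    rw [h] at hG₁
    exact absurd hM₂' (not_lt.mpr hG₁)
  obtain ⟨L, N, x, hns, hs, -, e₁, e₂, -, -, V3⟩ :=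
    Vieta.line_of_add_some hD.short h₁ h₂ (fun h => hne h.1)
  rw [hs, Point.some.injEq] at hsum
  obtain ⟨rfl, rfl⟩ := hsum
  have E₁ := (hD.short.equation_iff x₁ y₁).mp h₁.1
  have E₂ := (hD.short.equation_iff x₂ y₂).mp h₂.1
  have hcore := h21_GM_core A.valuation (al := W.a₂) (be := W.a₄) (ρ := ρ) (x₁ := x₁) (x₂ := x₂)
    (x₃ := x) (t₁ := y₁ / x₁) (t₂ := y₂ / x₂) (t₃ := -(L * x + N) / x) (L := L) (N := N)
    hD.al hD.rho hD.be ?_ ?_ ?_ ?_ V3 rfl hG₁ hM₂ hM₂' hs₂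
  · exact hcore
  · field_simp
    linear_combination E₁
  · field_simp
    linear_combination E₂
  · rw [mul_div_cancel₀ _ hx₁]; exact e₁
  · rw [mul_div_cancel₀ _ hx₂]; exact e₂

end Fermat.Agent.S05.W3
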