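import Fermat.Agent.S05.W3_Defs

/-!
# S05, work package W3, leaf L4 (helper13): middle + middle, same sign

`P₁ + P₂ = P₃` on `y² = x³ + α x² + β x` with `P₁`, `P₂` in the middle class and of the same
sign (`y_i / x_i ≡ ρ`), including the doubling case `P₁ = P₂`.  With `t_i = y_i / x_i` and the
line `y = L x + N` through `P₁`, `P₂`, the Vieta relations give
`N (t₁ + t₂) = β - x₁ x₂` and `x₁ x₂ x₃ = N²`, and `t₁ + t₂ ≡ 2 ρ` is a unit.
-/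

open WeierstrassCurve WeierstrassCurve.Affine

namespace Fermat.Agent.S05.W3

variable {K : Type*} [Field K] [DecidableEq K] {A : ValuationSubring K} {W : Affine K} {ρ : K}

/-- The line through `P₁`, `P₂` and `-P₃` for a sum `P₁ + P₂ = P₃` of affine points, with the
Vieta relations. -/
theorem h13_line (hW : Vieta.IsShort W) {x₁ y₁ x₂ y₂ x₃ y₃ : K} {h₁ : W.Nonsingular x₁ y₁}
    {h₂ : W.Nonsingular x₂ y₂} {h₃ : W.Nonsingular x₃ y₃}
    (hsum : Point.some x₁ y₁ h₁ + Point.some x₂ y₂ h₂ = Point.some x₃ y₃ h₃) :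
    ∃ L N : K, y₁ = L * x₁ + N ∧ y₂ = L * x₂ + N ∧ y₃ = -(L * x₃ + N) ∧
      x₁ + x₂ + x₃ = L ^ 2 - W.a₂ ∧
      x₁ * x₂ + x₁ * x₃ + x₂ * x₃ = W.a₄ - 2 * L * N ∧
      x₁ * x₂ * x₃ = N ^ 2 := by
  have hxy : ¬(x₁ = x₂ ∧ y₁ = -y₂) := by
    rintro ⟨hx, hy⟩
    rw [Point.add_of_Y_eq hx (by rw [hW.negY]; exact hy)] at hsum
    exact Point.some_ne_zero _ hsum.symm
  obtain ⟨L, N, x, hns, hsum', -, e₁, e₂, v₁, v₂, v₃⟩ := Vieta.line_of_add_some hW h₁ h₂ hxy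
  rw [hsum', Point.some.injEq] at hsum
  obtain ⟨rfl, hy⟩ := hsum
  exact ⟨L, N, e₁, e₂, hy.symm, v₁, v₂, v₃⟩

/-- Common part of the three same-sign leaves. -/
theorem h13_same_core (hD : NodeData A W ρ) {x₁ y₁ x₂ y₂ x₃ y₃ : K}
    {h₁ : W.Nonsingular x₁ y₁} {h₂ : W.Nonsingular x₂ y₂} {h₃ : W.Nonsingular x₃ y₃}
    (hsum : Point.some x₁ y₁ h₁ + Point.some x₂ y₂ h₂ = Point.some x₃ y₃ h₃)
    (hx₁ : x₁ ≠ 0) (hx₂ : x₂ ≠ 0)
    (hs₁ : A.valuation (y₁ / x₁ - ρ) < 1) (hs₂ : A.valuation (y₂ / x₂ - ρ) < 1) :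
    ∃ N : K, A.valuation N = A.valuation (W.a₄ - x₁ * x₂) ∧ x₁ * x₂ * x₃ = N ^ 2 ∧
      (x₃ ≠ 0 → y₃ / x₃ - ρ = (y₂ / x₂ - ρ) + N / x₁ - W.a₄ / N) ∧
      (x₃ ≠ 0 → y₃ / x₃ + ρ = -(y₁ / x₁ - ρ) + N / x₁ - x₁ * x₂ / N) := by
  obtain ⟨L, N, e₁, e₂, e₃, v₁, v₂, v₃⟩ := h13_line hD.short hsum
  have hT : N * (y₁ / x₁ + y₂ / x₂) = W.a₄ - x₁ * x₂ := by
    rw [e₁, e₂]
    field_simp
    linear_combination -(x₁ + x₂) * v₃ + x₁ * x₂ * v₂
  have h2ρ : A.valuation (2 * ρ) = 1 := by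
    rw [map_mul, hD.two, hD.val_rho, one_mul]
  have hu : A.valuation (y₁ / x₁ + y₂ / x₂) = 1 := by
    have : y₁ / x₁ + y₂ / x₂ = 2 * ρ + ((y₁ / x₁ - ρ) + (y₂ / x₂ - ρ)) := by ring
    rw [this, Valuation.map_add_eq_of_lt_left, h2ρ]
    rw [h2ρ]
    exact Valuation.map_add_lt _ hs₁ hs₂
  refine ⟨N, ?_, v₃, ?_, ?_⟩
  · rw [← hT, map_mul, hu, mul_one]
  · intro hx₃
    have hN : N ≠ 0 := by
      intro h
      rw [h] at v₃
      have : x₁ * x₂ * x₃ ≠ 0 := mul_ne_zero (mul_ne_zero hx₁ hx₂) hx₃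
      exact this (by rw [v₃]; ring)
    rw [e₃, e₂]
    field_simp
    linear_combination (x₁ * x₂ + x₁ * x₃ + x₂ * x₃) * v₃ - (x₁ * x₂ * x₃) * v₂
  · intro hx₃
    have hN : N ≠ 0 := by
      intro h
      rw [h] at v₃
      have : x₁ * x₂ * x₃ ≠ 0 := mul_ne_zero (mul_ne_zero hx₁ hx₂) hx₃
      exact this (by rw [v₃]; ring)
    rw [e₃, e₁]
    field_simp
    linear_combination x₁ * v₃

variable (hD : NodeData A W ρ) {x₁ y₁ x₂ y₂ x₃ y₃ : K}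
  {h₁ : W.Nonsingular x₁ y₁} {h₂ : W.Nonsingular x₂ y₂} {h₃ : W.Nonsingular x₃ y₃}
  (hsum : Point.some x₁ y₁ h₁ + Point.some x₂ y₂ h₂ = Point.some x₃ y₃ h₃)
include hD hsum

/-- **Leaf L4a**: middle + middle, same sign, `v β < v x₁ * v x₂`: the sum is in the middle
class with `v x₃ = v x₁ * v x₂` and the same sign. -/
theorem leaf_MM_same_lt
    (hM₁ : A.valuation W.a₄ < A.valuation x₁) (hM₁' : A.valuation x₁ < 1)
    (hM₂ : A.valuation W.a₄ < A.valuation x₂) (hM₂' : A.valuation x₂ < 1)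
    (hs₁ : A.valuation (y₁ / x₁ - ρ) < 1) (hs₂ : A.valuation (y₂ / x₂ - ρ) < 1)
    (hv : A.valuation W.a₄ < A.valuation x₁ * A.valuation x₂) :
    A.valuation x₃ = A.valuation x₁ * A.valuation x₂ ∧ A.valuation (y₃ / x₃ - ρ) < 1 := by
  have hx₁ : x₁ ≠ 0 := (map_ne_zero A.valuation).mp (ne_of_gt (lt_of_le_of_lt zero_le hM₁))
  have hx₂ : x₂ ≠ 0 := (map_ne_zero A.valuation).mp (ne_of_gt (lt_of_le_of_lt zero_le hM₂))
  have hv₁ : A.valuation x₁ ≠ 0 := (map_ne_zero A.valuation).mpr hx₁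
  have hv₂ : A.valuation x₂ ≠ 0 := (map_ne_zero A.valuation).mpr hx₂
  have hv₁₂ : A.valuation x₁ * A.valuation x₂ ≠ 0 := mul_ne_zero hv₁ hv₂
  obtain ⟨N, hN, hN2, hm, -⟩ := h13_same_core hD hsum hx₁ hx₂ hs₁ hs₂
  have hvN : A.valuation N = A.valuation x₁ * A.valuation x₂ := by
    rw [hN, Valuation.map_sub_eq_of_lt_right _ (by rw [map_mul]; exact hv), map_mul]
  have hx₃v : A.valuation x₃ = A.valuation x₁ * A.valuation x₂ := by
    have h := congrArg A.valuation hN2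
    rw [map_mul, map_mul, map_pow, hvN, sq] at h
    exact mul_left_cancel₀ hv₁₂ h
  refine ⟨hx₃v, ?_⟩
  have hx₃ : x₃ ≠ 0 := (map_ne_zero A.valuation).mp (hx₃v ▸ hv₁₂)
  rw [hm hx₃]
  refine Valuation.map_sub_lt _ (Valuation.map_add_lt _ hs₂ ?_) ?_
  · rw [map_div₀, hvN, mul_div_cancel_left₀ _ hv₁]
    exact hM₂'
  · rw [map_div₀, hvN]
    exact (div_lt_one₀ (lt_of_le_of_ne zero_le hv₁₂.symm)).mpr hv

/-- **Leaf L4b**: middle + middle, same sign, `v x₁ * v x₂ = v β`: the sum is far. -/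
theorem leaf_MM_same_eq
    (hM₁ : A.valuation W.a₄ < A.valuation x₁) (hM₁' : A.valuation x₁ < 1)
    (hM₂ : A.valuation W.a₄ < A.valuation x₂) (hM₂' : A.valuation x₂ < 1)
    (hs₁ : A.valuation (y₁ / x₁ - ρ) < 1) (hs₂ : A.valuation (y₂ / x₂ - ρ) < 1)
    (hv : A.valuation x₁ * A.valuation x₂ = A.valuation W.a₄) :
    A.valuation x₃ ≤ A.valuation W.a₄ := by
  have hx₁ : x₁ ≠ 0 := (map_ne_zero A.valuation).mp (ne_of_gt (lt_of_le_of_lt zero_le hM₁))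
  have hx₂ : x₂ ≠ 0 := (map_ne_zero A.valuation).mp (ne_of_gt (lt_of_le_of_lt zero_le hM₂))
  have hvb : A.valuation W.a₄ ≠ 0 := hD.val_be_ne_zero
  obtain ⟨N, hN, hN2, -, -⟩ := h13_same_core hD hsum hx₁ hx₂ hs₁ hs₂
  have hvN : A.valuation N ≤ A.valuation W.a₄ := by
    rw [hN]
    exact Valuation.map_sub_le _ le_rfl (by rw [map_mul, hv])
  have h := congrArg A.valuation hN2
  rw [map_mul, map_mul, map_pow, hv] at h
  have h2 : A.valuation W.a₄ * A.valuation x₃ ≤ A.valuation W.a₄ * A.valuation W.a₄ := by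
    rw [h, sq]
    exact mul_le_mul' hvN hvN
  exact le_of_mul_le_mul_left h2 (lt_of_le_of_ne zero_le hvb.symm)

/-- **Leaf L4c**: middle + middle, same sign, `v x₁ * v x₂ < v β`: the sum is in the middle
class with `v x₃ * (v x₁ * v x₂) = v β ^ 2` and the opposite sign. -/
theorem leaf_MM_same_gt
    (hM₁ : A.valuation W.a₄ < A.valuation x₁) (hM₁' : A.valuation x₁ < 1)
    (hM₂ : A.valuation W.a₄ < A.valuation x₂) (hM₂' : A.valuation x₂ < 1)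
    (hs₁ : A.valuation (y₁ / x₁ - ρ) < 1) (hs₂ : A.valuation (y₂ / x₂ - ρ) < 1)
    (hv : A.valuation x₁ * A.valuation x₂ < A.valuation W.a₄) :
    A.valuation x₃ * (A.valuation x₁ * A.valuation x₂) = A.valuation W.a₄ ^ 2 ∧
      A.valuation (y₃ / x₃ + ρ) < 1 := by
  have hx₁ : x₁ ≠ 0 := (map_ne_zero A.valuation).mp (ne_of_gt (lt_of_le_of_lt zero_le hM₁))
  have hx₂ : x₂ ≠ 0 := (map_ne_zero A.valuation).mp (ne_of_gt (lt_of_le_of_lt zero_le hM₂))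
  have hv₁ : A.valuation x₁ ≠ 0 := (map_ne_zero A.valuation).mpr hx₁
  have hv₂ : A.valuation x₂ ≠ 0 := (map_ne_zero A.valuation).mpr hx₂
  have hvb : A.valuation W.a₄ ≠ 0 := hD.val_be_ne_zero
  obtain ⟨N, hN, hN2, -, hp⟩ := h13_same_core hD hsum hx₁ hx₂ hs₁ hs₂
  have hvN : A.valuation N = A.valuation W.a₄ := by
    rw [hN, Valuation.map_sub_eq_of_lt_left _ (by rw [map_mul]; exact hv)]
  have hx₃v : A.valuation x₃ * (A.valuation x₁ * A.valuation x₂) = A.valuation W.a₄ ^ 2 := by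
    have h := congrArg A.valuation hN2
    rw [map_mul, map_mul, map_pow, hvN] at h
    rw [← h, mul_comm]
  refine ⟨hx₃v, ?_⟩
  have hx₃ : x₃ ≠ 0 := by
    rintro rfl
    rw [map_zero, zero_mul] at hx₃v
    exact pow_ne_zero 2 hvb hx₃v.symm
  rw [hp hx₃]
  refine Valuation.map_sub_lt _ (Valuation.map_add_lt _ ?_ ?_) ?_
  · rw [Valuation.map_neg]
    exact hs₁
  · rw [map_div₀, hvN]
    exact (div_lt_one₀ (lt_of_le_of_ne zero_le hv₁.symm)).mpr hM₁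
  · rw [map_div₀, map_mul, hvN]
    exact (div_lt_one₀ (lt_of_le_of_ne zero_le hvb.symm)).mpr hv

end Fermat.Agent.S05.W3
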