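import Fermat.Agent.S05.W3_L1

/-!
# S05, W3 leaf L4b, hedge (helper21): middle + middle of the same sign, `v x₁ * v x₂ = v β`

The sum of two middle points of the same sign with `v x₁ * v x₂ = v β` is a far point
(`v x₃ ≤ v β`).  The doubling case `P₁ = P₂` is included.
-/

set_option autoImplicit false
set_option linter.unusedSectionVars false

open WeierstrassCurve WeierstrassCurve.Affine

namespace Fermat.Agent.S05.W3

variable {K : Type*} [Field K] [DecidableEq K] {A : ValuationSubring K} {W : Affine K} {ρ : K}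

/-- Statement of leaf L4b (`leaf_MM_same_eq`). -/
theorem h21_leaf_MM_same_eq (hD : NodeData A W ρ) {x₁ y₁ x₂ y₂ x₃ y₃ : K}
    {h₁ : W.Nonsingular x₁ y₁} {h₂ : W.Nonsingular x₂ y₂} {h₃ : W.Nonsingular x₃ y₃}
    (hsum : Point.some x₁ y₁ h₁ + Point.some x₂ y₂ h₂ = Point.some x₃ y₃ h₃)
    (hM₁ : A.valuation W.a₄ < A.valuation x₁) (hM₁' : A.valuation x₁ < 1)
    (hM₂ : A.valuation W.a₄ < A.valuation x₂) (hM₂' : A.valuation x₂ < 1)
    (hs₁ : A.valuation (y₁ / x₁ - ρ) < 1) (hs₂ : A.valuation (y₂ / x₂ - ρ) < 1)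
    (hv : A.valuation x₁ * A.valuation x₂ = A.valuation W.a₄) :
    A.valuation x₃ ≤ A.valuation W.a₄ := by
  have hW := hD.short
  have hx₁pos : 0 < A.valuation x₁ := lt_of_le_of_lt zero_le hM₁
  have hx₁ : x₁ ≠ 0 := (Valuation.ne_zero_iff _).mp hx₁pos.ne'
  have hx₂pos : 0 < A.valuation x₂ := lt_of_le_of_lt zero_le hM₂
  have hx₂ : x₂ ≠ 0 := (Valuation.ne_zero_iff _).mp hx₂pos.ne'
  have hbepos : 0 < A.valuation W.a₄ := by rw [← hv]; exact mul_pos hx₁pos hx₂pos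
  have hxy : ¬(x₁ = x₂ ∧ y₁ = -y₂) := by
    rintro ⟨hx, hy⟩
    have h0 : Point.some x₁ y₁ h₁ + Point.some x₂ y₂ h₂ = 0 :=
      Point.add_of_Y_eq hx (by rw [hW.negY]; exact hy)
    rw [h0] at hsum
    exact Point.some_ne_zero h₃ hsum.symm
  obtain ⟨L, N, x, hns, hs, -, e₁, e₂, V₁, V₂, V₃⟩ := Vieta.line_of_add_some hW h₁ h₂ hxy
  rw [hs, Point.some.injEq] at hsum
  obtain ⟨rfl, -⟩ := hsum
  have hkey := h16_key_identity e₁ e₂ V₁ V₂ V₃
  -- `x₂ y₁ + x₁ y₂ = x₁ x₂ (t₁ + t₂)` with `t₁ + t₂` a unit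
  have hρ : A.valuation ρ = 1 := hD.val_rho
  have h2ρ : A.valuation (2 * ρ) = 1 := by rw [map_mul, hD.two, hρ, one_mul]
  have hsumt : A.valuation (y₁ / x₁ + y₂ / x₂) = 1 := by
    have e : y₁ / x₁ + y₂ / x₂ = 2 * ρ + ((y₁ / x₁ - ρ) + (y₂ / x₂ - ρ)) := by ring
    have hlt : A.valuation ((y₁ / x₁ - ρ) + (y₂ / x₂ - ρ)) < 1 :=
      Valuation.map_add_lt _ hs₁ hs₂
    rw [e, Valuation.map_add_eq_of_lt_left _ (by rw [h2ρ]; exact hlt), h2ρ]
  have hfac : x₂ * y₁ + x₁ * y₂ = x₁ * x₂ * (y₁ / x₁ + y₂ / x₂) := by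
    field_simp
  have hvfac : A.valuation (x₂ * y₁ + x₁ * y₂) = A.valuation W.a₄ := by
    rw [hfac, map_mul, map_mul, hsumt, mul_one, hv]
  have hle : A.valuation (x₁ * x₂ - W.a₄) ≤ A.valuation W.a₄ := by
    refine le_trans (Valuation.map_sub _ _ _) (max_le ?_ le_rfl)
    rw [map_mul, hv]
  have h := congrArg A.valuation hkey
  rw [map_mul, map_mul, map_mul, map_pow, map_pow, hvfac, hv] at h
  -- `v x₃ * v β ^ 2 = v β * v (x₁ x₂ - β) ^ 2 ≤ v β * v β ^ 2`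
  have h2 : A.valuation x * A.valuation W.a₄ ^ 2 ≤ A.valuation W.a₄ * A.valuation W.a₄ ^ 2 := by
    rw [h]
    exact mul_le_mul_right (pow_le_pow_left₀ zero_le hle 2) _
  exact le_of_mul_le_mul_right h2 (pow_pos hbepos 2)

end Fermat.Agent.S05.W3
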