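import Fermat.Agent.S05.W3_Defs

/-!
# S05, W3, hedge for leaf L4 (helper10): middle + middle with the same sign

`P₁ = (x₁, y₁)`, `P₂ = (x₂, y₂)` are points of the middle class (`v β < v x_i < 1`) with
`y_i / x_i ≡ ρ` modulo the maximal ideal (this includes the doubling `P₁ = P₂`), and
`P₁ + P₂ = (x₃, y₃)`.

* `h10_leaf_MM_same_gt`: if `v x₁ * v x₂ < v β` then `v x₃ * (v x₁ * v x₂) = v β ^ 2` and
  `y₃ / x₃ ≡ -ρ`;
* `h10_leaf_MM_same_eq`: if `v x₁ * v x₂ = v β` then `v x₃ ≤ v β`;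
* `h10_leaf_MM_same_lt`: if `v β < v x₁ * v x₂` then `v x₃ = v x₁ * v x₂` and `y₃ / x₃ ≡ ρ`.
-/

set_option autoImplicit false
set_option linter.unusedSectionVars false
set_option linter.unusedVariables false

open WeierstrassCurve WeierstrassCurve.Affine

namespace Fermat.Agent.S05.W3

variable {K : Type*} [Field K] [DecidableEq K] {A : ValuationSubring K} {W : Affine K} {ρ : K}

/-- Common part of the same-sign leaves: the line data and the basic identities. -/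
lemma h10_same_data (hD : NodeData A W ρ) {x₁ y₁ x₂ y₂ x₃ y₃ : K}
    {h₁ : W.Nonsingular x₁ y₁} {h₂ : W.Nonsingular x₂ y₂} {h₃ : W.Nonsingular x₃ y₃}
    (hsum : Point.some x₁ y₁ h₁ + Point.some x₂ y₂ h₂ = Point.some x₃ y₃ h₃)
    (hM₁ : A.valuation W.a₄ < A.valuation x₁)
    (hM₂ : A.valuation W.a₄ < A.valuation x₂)
    (hs₁ : A.valuation (y₁ / x₁ - ρ) < 1) (hs₂ : A.valuation (y₂ / x₂ - ρ) < 1) :
    x₁ ≠ 0 ∧ x₂ ≠ 0 ∧ A.valuation (y₁ / x₁ + y₂ / x₂) = 1 ∧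
      ∃ L N : K, y₁ = L * x₁ + N ∧ y₃ = -(L * x₃ + N) ∧
      x₁ * x₂ * x₃ = N ^ 2 ∧
      N * (y₁ / x₁ + y₂ / x₂) = -(x₁ * x₂ - W.a₄) ∧
      A.valuation N = A.valuation (x₁ * x₂ - W.a₄) := by
  have hx₁ : x₁ ≠ 0 := (A.valuation.ne_zero_iff).mp (lt_of_le_of_lt zero_le hM₁).ne'
  have hx₂ : x₂ ≠ 0 := (A.valuation.ne_zero_iff).mp (lt_of_le_of_lt zero_le hM₂).ne'
  -- `t₁ + t₂` is a unit
  have h2ρ : A.valuation (2 * ρ) = 1 := by rw [map_mul, hD.two, hD.val_rho, one_mul]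
  have hsumt : A.valuation (y₁ / x₁ + y₂ / x₂) = 1 := by
    have e : y₁ / x₁ + y₂ / x₂ = 2 * ρ + ((y₁ / x₁ - ρ) + (y₂ / x₂ - ρ)) := by ring
    have hlt : A.valuation ((y₁ / x₁ - ρ) + (y₂ / x₂ - ρ)) < 1 :=
      (A.valuation.map_add _ _).trans_lt (max_lt hs₁ hs₂)
    rw [e, A.valuation.map_add_eq_of_lt_left (by rw [h2ρ]; exact hlt), h2ρ]
  -- `P₁ ≠ -P₂`
  have hxy : ¬(x₁ = x₂ ∧ y₁ = -y₂) := by
    rintro ⟨hx, hy⟩
    have : Point.some x₁ y₁ h₁ + Point.some x₂ y₂ h₂ = 0 :=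
      Point.add_of_Y_eq hx (by rw [hD.short.negY]; exact hy)
    rw [this] at hsum
    exact Point.some_ne_zero h₃ hsum.symm
  obtain ⟨L, N, x₃', h₃', hadd, -, hy₁, hy₂, -, e2, e3⟩ :=
    Vieta.line_of_add_some hD.short h₁ h₂ hxy
  rw [hsum] at hadd
  simp only [Point.some.injEq] at hadd
  obtain ⟨rfl, hy₃⟩ := hadd
  have hF : N * (y₁ / x₁ + y₂ / x₂) = -(x₁ * x₂ - W.a₄) := by
    have h0 : x₁ * x₂ * (N * (y₁ / x₁ + y₂ / x₂)) = x₁ * x₂ * -(x₁ * x₂ - W.a₄) := by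
      have : x₁ * x₂ * (N * (y₁ / x₁ + y₂ / x₂)) = N * (x₂ * y₁ + x₁ * y₂) := by
        field_simp
      rw [this, hy₁, hy₂]
      linear_combination (-(x₁ + x₂)) * e3 + (x₁ * x₂) * e2
    exact mul_left_cancel₀ (mul_ne_zero hx₁ hx₂) h0
  refine ⟨hx₁, hx₂, hsumt, L, N, hy₁, hy₃, e3, hF, ?_⟩
  have := congrArg A.valuation hF
  rw [map_mul, hsumt, mul_one, Valuation.map_neg] at this
  exact this

/-- The sign identity used for the sum of two points on a line `y = L x + N`. -/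
lemma h10_sign_identity {x₁ y₁ x₃ y₃ L N ρ x₂ : K} (hx₁ : x₁ ≠ 0) (hx₃ : x₃ ≠ 0) (hN : N ≠ 0)
    (hy₁ : y₁ = L * x₁ + N) (hy₃ : y₃ = -(L * x₃ + N)) (e3 : x₁ * x₂ * x₃ = N ^ 2) :
    y₃ / x₃ + ρ = -(y₁ / x₁ - ρ) + N / x₁ - x₁ * x₂ / N := by
  rw [hy₃, hy₁]
  field_simp
  linear_combination x₁ * e3

/-- **Leaf L4c** (hedge): same sign, `v x₁ * v x₂ < v β`. -/
theorem h10_leaf_MM_same_gt (hD : NodeData A W ρ) {x₁ y₁ x₂ y₂ x₃ y₃ : K}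
    {h₁ : W.Nonsingular x₁ y₁} {h₂ : W.Nonsingular x₂ y₂} {h₃ : W.Nonsingular x₃ y₃}
    (hsum : Point.some x₁ y₁ h₁ + Point.some x₂ y₂ h₂ = Point.some x₃ y₃ h₃)
    (hM₁ : A.valuation W.a₄ < A.valuation x₁) (hM₁' : A.valuation x₁ < 1)
    (hM₂ : A.valuation W.a₄ < A.valuation x₂) (hM₂' : A.valuation x₂ < 1)
    (hs₁ : A.valuation (y₁ / x₁ - ρ) < 1) (hs₂ : A.valuation (y₂ / x₂ - ρ) < 1)
    (hv : A.valuation x₁ * A.valuation x₂ < A.valuation W.a₄) :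
    A.valuation x₃ * (A.valuation x₁ * A.valuation x₂) = A.valuation W.a₄ ^ 2 ∧
      A.valuation (y₃ / x₃ + ρ) < 1 := by
  obtain ⟨hx₁, hx₂, hsumt, L, N, hy₁, hy₃, e3, hF, hvN⟩ :=
    h10_same_data hD hsum hM₁ hM₂ hs₁ hs₂
  have hv₁ : A.valuation x₁ ≠ 0 := (A.valuation.ne_zero_iff).mpr hx₁
  have hv₂ : A.valuation x₂ ≠ 0 := (A.valuation.ne_zero_iff).mpr hx₂
  have hvβ : A.valuation W.a₄ ≠ 0 := hD.val_be_ne_zero
  -- `v N = v β`
  have hvN' : A.valuation N = A.valuation W.a₄ := by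
    rw [hvN]
    exact A.valuation.map_sub_eq_of_lt_right (by rw [map_mul]; exact hv)
  have hN0 : N ≠ 0 := (A.valuation.ne_zero_iff).mp (hvN' ▸ hvβ)
  have h3 : A.valuation x₃ * (A.valuation x₁ * A.valuation x₂) = A.valuation W.a₄ ^ 2 := by
    rw [← hvN', ← map_pow, ← e3, map_mul, map_mul, mul_comm]
  have hx₃ : x₃ ≠ 0 := by
    intro h0
    rw [h0, map_zero, zero_mul] at h3
    exact pow_ne_zero 2 hvβ h3.symm
  refine ⟨h3, ?_⟩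
  have hA : A.valuation (N / x₁) < 1 := by
    rw [map_div₀, hvN']
    exact (div_lt_one₀ (zero_lt_iff.mpr hv₁)).mpr hM₁
  have hB : A.valuation (x₁ * x₂ / N) < 1 := by
    rw [map_div₀, map_mul, hvN']
    exact (div_lt_one₀ (zero_lt_iff.mpr hvβ)).mpr hv
  rw [h10_sign_identity hx₁ hx₃ hN0 hy₁ hy₃ e3]
  refine (A.valuation.map_sub _ _).trans_lt (max_lt ?_ hB)
  refine (A.valuation.map_add _ _).trans_lt (max_lt ?_ hA)
  rw [Valuation.map_neg]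
  exact hs₁

/-- **Leaf L4b** (hedge): same sign, `v x₁ * v x₂ = v β`. -/
theorem h10_leaf_MM_same_eq (hD : NodeData A W ρ) {x₁ y₁ x₂ y₂ x₃ y₃ : K}
    {h₁ : W.Nonsingular x₁ y₁} {h₂ : W.Nonsingular x₂ y₂} {h₃ : W.Nonsingular x₃ y₃}
    (hsum : Point.some x₁ y₁ h₁ + Point.some x₂ y₂ h₂ = Point.some x₃ y₃ h₃)
    (hM₁ : A.valuation W.a₄ < A.valuation x₁) (hM₁' : A.valuation x₁ < 1)
    (hM₂ : A.valuation W.a₄ < A.valuation x₂) (hM₂' : A.valuation x₂ < 1)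
    (hs₁ : A.valuation (y₁ / x₁ - ρ) < 1) (hs₂ : A.valuation (y₂ / x₂ - ρ) < 1)
    (hv : A.valuation x₁ * A.valuation x₂ = A.valuation W.a₄) :
    A.valuation x₃ ≤ A.valuation W.a₄ := by
  obtain ⟨hx₁, hx₂, hsumt, L, N, hy₁, hy₃, e3, hF, hvN⟩ :=
    h10_same_data hD hsum hM₁ hM₂ hs₁ hs₂
  have hvβ : A.valuation W.a₄ ≠ 0 := hD.val_be_ne_zero
  have hvβ' : 0 < A.valuation W.a₄ := zero_lt_iff.mpr hvβ
  -- `v N ≤ v β`
  have hvN' : A.valuation N ≤ A.valuation W.a₄ := by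
    rw [hvN]
    refine (A.valuation.map_sub _ _).trans (max_le ?_ le_rfl)
    rw [map_mul, hv]
  have h3 : A.valuation x₃ * A.valuation W.a₄ = A.valuation N ^ 2 := by
    rw [← hv, ← map_pow, ← e3, map_mul, map_mul, mul_comm]
  by_contra hcon
  rw [not_le] at hcon
  have h4 : A.valuation W.a₄ * A.valuation W.a₄ < A.valuation x₃ * A.valuation W.a₄ :=
    mul_lt_mul_of_pos_right hcon hvβ'
  have h5 : A.valuation N ^ 2 ≤ A.valuation W.a₄ * A.valuation W.a₄ := by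
    rw [sq]
    exact mul_le_mul' hvN' hvN'
  rw [h3] at h4
  exact lt_irrefl _ (h4.trans_le h5)

/-- **Leaf L4a** (hedge): same sign, `v β < v x₁ * v x₂`. -/
theorem h10_leaf_MM_same_lt (hD : NodeData A W ρ) {x₁ y₁ x₂ y₂ x₃ y₃ : K}
    {h₁ : W.Nonsingular x₁ y₁} {h₂ : W.Nonsingular x₂ y₂} {h₃ : W.Nonsingular x₃ y₃}
    (hsum : Point.some x₁ y₁ h₁ + Point.some x₂ y₂ h₂ = Point.some x₃ y₃ h₃)
    (hM₁ : A.valuation W.a₄ < A.valuation x₁) (hM₁' : A.valuation x₁ < 1)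
    (hM₂ : A.valuation W.a₄ < A.valuation x₂) (hM₂' : A.valuation x₂ < 1)
    (hs₁ : A.valuation (y₁ / x₁ - ρ) < 1) (hs₂ : A.valuation (y₂ / x₂ - ρ) < 1)
    (hv : A.valuation W.a₄ < A.valuation x₁ * A.valuation x₂) :
    A.valuation x₃ = A.valuation x₁ * A.valuation x₂ ∧ A.valuation (y₃ / x₃ - ρ) < 1 := by
  obtain ⟨hx₁, hx₂, hsumt, L, N, hy₁, hy₃, e3, hF, hvN⟩ :=
    h10_same_data hD hsum hM₁ hM₂ hs₁ hs₂
  have hv₁ : A.valuation x₁ ≠ 0 := (A.valuation.ne_zero_iff).mpr hx₁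
  have hv₂ : A.valuation x₂ ≠ 0 := (A.valuation.ne_zero_iff).mpr hx₂
  have hv₁₂ : A.valuation x₁ * A.valuation x₂ ≠ 0 := mul_ne_zero hv₁ hv₂
  -- `v N = v (x₁ x₂)`
  have hd : A.valuation (x₁ * x₂ - W.a₄) = A.valuation x₁ * A.valuation x₂ := by
    rw [← map_mul]
    exact A.valuation.map_sub_eq_of_lt_left (by rw [map_mul]; exact hv)
  have hvN' : A.valuation N = A.valuation x₁ * A.valuation x₂ := by rw [hvN, hd]
  have hN0 : N ≠ 0 := (A.valuation.ne_zero_iff).mp (hvN' ▸ hv₁₂)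
  have hd0 : x₁ * x₂ - W.a₄ ≠ 0 := (A.valuation.ne_zero_iff).mp (hd ▸ hv₁₂)
  have h3 : A.valuation x₃ * (A.valuation x₁ * A.valuation x₂) =
      (A.valuation x₁ * A.valuation x₂) ^ 2 := by
    have h3' : A.valuation x₃ * (A.valuation x₁ * A.valuation x₂) = A.valuation N ^ 2 := by
      rw [← map_pow, ← e3, map_mul, map_mul, mul_comm]
    rw [h3', hvN']
  have hx₃v : A.valuation x₃ = A.valuation x₁ * A.valuation x₂ := by
    rw [sq] at h3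
    exact mul_right_cancel₀ hv₁₂ h3
  have hx₃ : x₃ ≠ 0 := (A.valuation.ne_zero_iff).mp (hx₃v ▸ hv₁₂)
  refine ⟨hx₃v, ?_⟩
  -- the sign
  have key : y₃ / x₃ - ρ = (y₂ / x₂ - ρ) + N / x₁ +
      (y₁ / x₁ + y₂ / x₂) * (W.a₄ / (x₁ * x₂ - W.a₄)) := by
    have e := h10_sign_identity (ρ := ρ) hx₁ hx₃ hN0 hy₁ hy₃ e3
    have e' : x₁ * x₂ / N = -(y₁ / x₁ + y₂ / x₂) * (x₁ * x₂ / (x₁ * x₂ - W.a₄)) := by
      have ht : y₁ / x₁ + y₂ / x₂ = -(x₁ * x₂ - W.a₄) / N := by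
        rw [eq_div_iff hN0, mul_comm]; exact hF
      rw [ht]
      field_simp
    have e'' : x₁ * x₂ / (x₁ * x₂ - W.a₄) = 1 + W.a₄ / (x₁ * x₂ - W.a₄) := by
      field_simp
      ring
    have : y₃ / x₃ - ρ = (y₃ / x₃ + ρ) - 2 * ρ := by ring
    rw [this, e, e', e'']
    ring
  have hA : A.valuation (N / x₁) < 1 := by
    rw [map_div₀, hvN', mul_comm, mul_div_assoc, div_self hv₁, mul_one]
    exact hM₂'
  have hB : A.valuation ((y₁ / x₁ + y₂ / x₂) * (W.a₄ / (x₁ * x₂ - W.a₄))) < 1 := by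
    rw [map_mul, hsumt, one_mul, map_div₀, hd]
    exact (div_lt_one₀ (zero_lt_iff.mpr hv₁₂)).mpr hv
  rw [key]
  refine (A.valuation.map_add _ _).trans_lt (max_lt ?_ hB)
  exact (A.valuation.map_add _ _).trans_lt (max_lt hs₂ hA)

end Fermat.Agent.S05.W3
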