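import Fermat.Agent.S05.W3_Comp
import Fermat.Agent.S05.W3_L1
import Fermat.Agent.S05.W3_L2
import Fermat.Agent.S05.W3_L3
import Fermat.Agent.S05.W3_L4

/-!
# S05, W3 (helper20): the component map is additive; `p`-torsion near the node
-/

open WeierstrassCurve WeierstrassCurve.Affine

set_option linter.unusedSectionVars false
set_option linter.unusedVariables false

namespace Fermat.Agent.S05.W3

variable {K : Type*} [Field K]

section group

variable (A : ValuationSubring K) (W : Affine K)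

/-- The subgroup of the value group generated by `v β ^ 2`. -/
noncomputable def sqSub : Subgroup (A.ValueGroup)ˣ :=
  Subgroup.closure {u | (u : A.ValueGroup) = A.valuation W.a₄ ^ 2}

/-- The target of the component map. -/
abbrev CompGroup : Type _ := (A.ValueGroup)ˣ ⧸ sqSub A W

/-- The class of an element of the value group. -/
noncomputable def cls (g : A.ValueGroup) : CompGroup A W :=
  if h : g = 0 then 1 else QuotientGroup.mk (Units.mk0 g h)

variable {A W}

lemma cls_of_ne {g : A.ValueGroup} (h : g ≠ 0) :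
    cls A W g = QuotientGroup.mk (Units.mk0 g h) := by
  rw [cls, dif_neg h]

lemma cls_mul {g h : A.ValueGroup} (hg : g ≠ 0) (hh : h ≠ 0) :
    cls A W (g * h) = cls A W g * cls A W h := by
  rw [cls_of_ne hg, cls_of_ne hh, cls_of_ne (mul_ne_zero hg hh), ← QuotientGroup.mk_mul]
  congr 1
  ext
  simp

lemma cls_one : cls A W 1 = 1 := by
  rw [cls_of_ne one_ne_zero]
  have : Units.mk0 (1 : A.ValueGroup) one_ne_zero = 1 := by ext; simp
  rw [this]
  rfl

lemma cls_inv {g : A.ValueGroup} (hg : g ≠ 0) : cls A W g⁻¹ = (cls A W g)⁻¹ := by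
  refine eq_inv_of_mul_eq_one_left ?_
  rw [← cls_mul (inv_ne_zero hg) hg, inv_mul_cancel₀ hg, cls_one]

lemma cls_div {g h : A.ValueGroup} (hg : g ≠ 0) (hh : h ≠ 0) :
    cls A W (g / h) = cls A W g * (cls A W h)⁻¹ := by
  rw [div_eq_mul_inv, cls_mul hg (inv_ne_zero hh), cls_inv hh]

lemma cls_pow {g : A.ValueGroup} (hg : g ≠ 0) (n : ℕ) : cls A W (g ^ n) = cls A W g ^ n := by
  induction n with
  | zero => rw [pow_zero, pow_zero, cls_one]
  | succ n ih => rw [pow_succ, pow_succ, cls_mul (pow_ne_zero n hg) hg, ih]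

lemma cls_sq (hβ : A.valuation W.a₄ ≠ 0) : cls A W (A.valuation W.a₄ ^ 2) = 1 := by
  rw [cls_of_ne (pow_ne_zero 2 hβ)]
  exact (QuotientGroup.eq_one_iff _).mpr (Subgroup.subset_closure (by simp))

lemma cls_be_mul_self (hβ : A.valuation W.a₄ ≠ 0) :
    cls A W (A.valuation W.a₄) * cls A W (A.valuation W.a₄) = 1 := by
  rw [← cls_mul hβ hβ, ← pow_two, cls_sq hβ]

lemma cls_be_inv (hβ : A.valuation W.a₄ ≠ 0) :
    (cls A W (A.valuation W.a₄))⁻¹ = cls A W (A.valuation W.a₄) :=
  inv_eq_of_mul_eq_one_left (cls_be_mul_self hβ)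

lemma cls_eq_one_iff (hβ : A.valuation W.a₄ ≠ 0) {g : A.ValueGroup} (hg : g ≠ 0) :
    cls A W g = 1 ↔ ∃ k : ℤ, g = A.valuation W.a₄ ^ (2 * k) := by
  rw [cls_of_ne hg, QuotientGroup.eq_one_iff, sqSub]
  have hset : {u : (A.ValueGroup)ˣ | (u : A.ValueGroup) = A.valuation W.a₄ ^ 2} =
      {Units.mk0 (A.valuation W.a₄) hβ ^ 2} := by
    ext u
    simp only [Set.mem_ofPred_eq, Set.mem_singleton_iff, Units.ext_iff, Units.val_pow_eq_pow_val,
      Units.val_mk0]
  rw [hset, Subgroup.mem_closure_singleton]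
  constructor
  · rintro ⟨k, hk⟩
    refine ⟨k, ?_⟩
    have := congrArg (fun u : (A.ValueGroup)ˣ => (u : A.ValueGroup)) hk
    simp only [Units.val_mk0] at this
    rw [← this, zpow_mul]
    simp
  · rintro ⟨k, hk⟩
    refine ⟨k, ?_⟩
    ext
    rw [Units.val_mk0, hk, zpow_mul]
    simp

end group

section comp

variable [DecidableEq K] {A : ValuationSubring K} {W : Affine K}

/-- The component map. -/
noncomputable def comp (A : ValuationSubring K) (ρ : K) : W.Point → CompGroup A W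
  | .zero => 1
  | .some x y _ =>
    if 1 ≤ A.valuation x then 1
    else if A.valuation x ≤ A.valuation W.a₄ then cls A W (A.valuation W.a₄)
    else if A.valuation (y / x - ρ) < 1 then cls A W (A.valuation x)
    else (cls A W (A.valuation x))⁻¹

variable {ρ : K}

lemma comp_zero : comp A ρ (0 : W.Point) = 1 := rfl

lemma comp_good {x y : K} (h : W.Nonsingular x y) (hG : 1 ≤ A.valuation x) :
    comp A ρ (Point.some x y h) = 1 := by
  simp only [comp, if_pos hG]

lemma comp_far (hD : NodeData A W ρ) {x y : K} (h : W.Nonsingular x y)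
    (hF : A.valuation x ≤ A.valuation W.a₄) :
    comp A ρ (Point.some x y h) = cls A W (A.valuation W.a₄) := by
  have hG : ¬ 1 ≤ A.valuation x := not_le.mpr (lt_of_le_of_lt hF hD.be)
  simp only [comp, if_neg hG, if_pos hF]

lemma comp_mid_pos (hD : NodeData A W ρ) {x y : K} (h : W.Nonsingular x y)
    (hM : A.valuation W.a₄ < A.valuation x) (hM' : A.valuation x < 1)
    (hs : A.valuation (y / x - ρ) < 1) :
    comp A ρ (Point.some x y h) = cls A W (A.valuation x) := by
  simp only [comp, if_neg (not_le.mpr hM'), if_neg (not_le.mpr hM), if_pos hs]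

lemma comp_mid_neg (hD : NodeData A W ρ) {x y : K} (h : W.Nonsingular x y)
    (hM : A.valuation W.a₄ < A.valuation x) (hM' : A.valuation x < 1)
    (hs : A.valuation (y / x + ρ) < 1) :
    comp A ρ (Point.some x y h) = (cls A W (A.valuation x))⁻¹ := by
  have hs' : ¬ A.valuation (y / x - ρ) < 1 := fun h1 => h20_sign_not_both hD h1 hs
  simp only [comp, if_neg (not_le.mpr hM'), if_neg (not_le.mpr hM), if_neg hs']

/-- The component map for `-ρ` is the inverse of the component map for `ρ`. -/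
lemma comp_neg_rho (hD : NodeData A W ρ) (P : W.Point) :
    comp A (-ρ) P = (comp A ρ P)⁻¹ := by
  rcases P with _ | ⟨x, y, h⟩
  · simp [comp]
  · by_cases hG : 1 ≤ A.valuation x
    · rw [comp_good h hG, comp_good h hG, inv_one]
    · by_cases hF : A.valuation x ≤ A.valuation W.a₄
      · rw [comp_far hD h hF, comp_far hD.neg h hF, cls_be_inv hD.val_be_ne_zero]
      · have hM := not_le.mp hF
        have hM' := not_le.mp hG
        rcases h20_sign_or hD h hM hM' with hs | hs
        · rw [comp_mid_pos hD h hM hM' hs,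
            comp_mid_neg hD.neg h hM hM' (by rwa [← sub_eq_add_neg])]
        · rw [comp_mid_neg hD h hM hM' hs,
            comp_mid_pos hD.neg h hM hM' (by rwa [sub_neg_eq_add]), inv_inv]

/-- The component map is odd. -/
lemma comp_neg (hD : NodeData A W ρ) (P : W.Point) :
    comp A ρ (-P) = (comp A ρ P)⁻¹ := by
  rcases P with _ | ⟨x, y, h⟩
  · have e : (-Point.zero : W.Point) = Point.zero := rfl
    rw [e]
    simp [comp]
  · rw [hD.short.neg_some]
    by_cases hG : 1 ≤ A.valuation x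
    · rw [comp_good _ hG, comp_good h hG, inv_one]
    · by_cases hF : A.valuation x ≤ A.valuation W.a₄
      · rw [comp_far hD _ hF, comp_far hD h hF, cls_be_inv hD.val_be_ne_zero]
      · have hM := not_le.mp hF
        have hM' := not_le.mp hG
        have e1 : -y / x - ρ = -(y / x + ρ) := by ring
        have e2 : -y / x + ρ = -(y / x - ρ) := by ring
        rcases h20_sign_or hD h hM hM' with hs | hs
        · rw [comp_mid_pos hD h hM hM' hs,
            comp_mid_neg hD _ hM hM' (by rwa [e2, Valuation.map_neg])]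
        · rw [comp_mid_neg hD h hM hM' hs,
            comp_mid_pos hD _ hM hM' (by rwa [e1, Valuation.map_neg]), inv_inv]

/-- Translation by `T` multiplies the component by the class of `v β`. -/
lemma comp_add_T (hD : NodeData A W ρ) (P : W.Point) :
    comp A ρ (P + pointT hD) = comp A ρ P * cls A W (A.valuation W.a₄) := by
  have hβ := hD.val_be_ne_zero
  have hT : comp A ρ (pointT hD) = cls A W (A.valuation W.a₄) := by
    rw [pointT]
    exact comp_far hD _ (by rw [map_zero]; exact zero_le)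
  rcases P with _ | ⟨x, y, h⟩
  · have e : (Point.zero : W.Point) = 0 := rfl
    rw [e, zero_add, hT, comp_zero, one_mul]
  · by_cases hx : x = 0
    · subst hx
      have hy : y = 0 := by
        have E := (hD.short.equation_iff 0 y).mp h.1
        have : y ^ 2 = 0 := by rw [E]; ring
        exact pow_eq_zero_iff (two_ne_zero) |>.mp this
      subst hy
      have e : Point.some 0 0 h = pointT hD := rfl
      rw [e, h20_T_add_T, hT, comp_zero, cls_be_mul_self hβ]
    · obtain ⟨h', hsum⟩ := leaf_T hD h hx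
      have hvx : A.valuation x ≠ 0 := (map_ne_zero _).mpr hx
      have hv' : A.valuation (W.a₄ / x) = A.valuation W.a₄ / A.valuation x := map_div₀ _ _ _
      rw [hsum]
      by_cases hG : 1 ≤ A.valuation x
      · rw [comp_good h hG, one_mul]
        refine comp_far hD h' ?_
        rw [hv', div_le_iff₀ (zero_lt_iff.mpr hvx)]
        exact le_mul_of_one_le_right' hG
      · have hG' := not_le.mp hG
        by_cases hF : A.valuation x ≤ A.valuation W.a₄
        · rw [comp_far hD h hF, cls_be_mul_self hβ]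
          refine comp_good h' ?_
          rw [hv']
          exact (one_le_div₀ (zero_lt_iff.mpr hvx)).mpr hF
        · have hM := not_le.mp hF
          have hM1 : A.valuation W.a₄ < A.valuation (W.a₄ / x) := by
            rw [hv']
            exact lt_div_iff₀ (zero_lt_iff.mpr hvx) |>.mpr
              (by simpa using mul_lt_mul_of_pos_left hG' (zero_lt_iff.mpr hβ))
          have hM2 : A.valuation (W.a₄ / x) < 1 := by
            rw [hv']
            exact (div_lt_one₀ (zero_lt_iff.mpr hvx)).mpr hM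
          have et : -(W.a₄ * y / x ^ 2) / (W.a₄ / x) = -(y / x) := by
            have := hD.be0
            field_simp
          rcases h20_sign_or hD h hM hG' with hs | hs
          · rw [comp_mid_pos hD h hM hG' hs, comp_mid_neg hD h' hM1 hM2
              (by rw [et, neg_add_eq_sub, ← neg_sub, Valuation.map_neg]; exact hs),
              hv', cls_div hβ hvx, mul_inv, inv_inv, cls_be_inv hβ, mul_comm]
          · rw [comp_mid_neg hD h hM hG' hs, comp_mid_pos hD h' hM1 hM2
              (by rw [et, ← neg_add', Valuation.map_neg]; exact hs),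
              hv', cls_div hβ hvx, mul_comm]

end comp

section additive

variable [DecidableEq K] {A : ValuationSubring K} {W : Affine K} {ρ : K}

/-- Additivity of the component map on a pair of points. -/
def Add12 (A : ValuationSubring K) (ρ : K) (P₁ P₂ : W.Point) : Prop :=
  comp A ρ (P₁ + P₂) = comp A ρ P₁ * comp A ρ P₂

lemma Add12.symm {P₁ P₂ : W.Point} (h : Add12 A ρ P₁ P₂) : Add12 A ρ P₂ P₁ := by
  unfold Add12 at h ⊢
  rw [add_comm, h, mul_comm]

lemma Add12.of_neg_rho (hD : NodeData A W ρ) {P₁ P₂ : W.Point} (h : Add12 A (-ρ) P₁ P₂) :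
    Add12 A ρ P₁ P₂ := by
  unfold Add12 at h ⊢
  rw [comp_neg_rho hD, comp_neg_rho hD, comp_neg_rho hD, ← mul_inv] at h
  exact inv_injective h

variable {x₁ y₁ x₂ y₂ x₃ y₃ : K}
  {h₁ : W.Nonsingular x₁ y₁} {h₂ : W.Nonsingular x₂ y₂} {h₃ : W.Nonsingular x₃ y₃}

lemma core_GG (hD : NodeData A W ρ)
    (hsum : Point.some x₁ y₁ h₁ + Point.some x₂ y₂ h₂ = Point.some x₃ y₃ h₃)
    (hG₁ : 1 ≤ A.valuation x₁) (hG₂ : 1 ≤ A.valuation x₂) :
    Add12 A ρ (Point.some x₁ y₁ h₁) (Point.some x₂ y₂ h₂) := by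
  unfold Add12
  rw [hsum, comp_good h₁ hG₁, comp_good h₂ hG₂, comp_good h₃ (leaf_GG hD hsum hG₁ hG₂), one_mul]

lemma core_GM (hD : NodeData A W ρ)
    (hsum : Point.some x₁ y₁ h₁ + Point.some x₂ y₂ h₂ = Point.some x₃ y₃ h₃)
    (hG₁ : 1 ≤ A.valuation x₁)
    (hM₂ : A.valuation W.a₄ < A.valuation x₂) (hM₂' : A.valuation x₂ < 1)
    (hs₂ : A.valuation (y₂ / x₂ - ρ) < 1) :
    Add12 A ρ (Point.some x₁ y₁ h₁) (Point.some x₂ y₂ h₂) := by
  unfold Add12
  obtain ⟨hv, hs⟩ := leaf_GM hD hsum hG₁ hM₂ hM₂' hs₂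
  rw [hsum, comp_good h₁ hG₁, comp_mid_pos hD h₂ hM₂ hM₂' hs₂,
    comp_mid_pos hD h₃ (hv ▸ hM₂) (hv ▸ hM₂') hs, one_mul, hv]

lemma core_MM_same (hD : NodeData A W ρ)
    (hsum : Point.some x₁ y₁ h₁ + Point.some x₂ y₂ h₂ = Point.some x₃ y₃ h₃)
    (hM₁ : A.valuation W.a₄ < A.valuation x₁) (hM₁' : A.valuation x₁ < 1)
    (hM₂ : A.valuation W.a₄ < A.valuation x₂) (hM₂' : A.valuation x₂ < 1)
    (hs₁ : A.valuation (y₁ / x₁ - ρ) < 1) (hs₂ : A.valuation (y₂ / x₂ - ρ) < 1) :
    Add12 A ρ (Point.some x₁ y₁ h₁) (Point.some x₂ y₂ h₂) := by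
  unfold Add12
  have hβ := hD.val_be_ne_zero
  have hβ0 : 0 < A.valuation W.a₄ := zero_lt_iff.mpr hβ
  have hv₁ : A.valuation x₁ ≠ 0 := (lt_of_le_of_lt zero_le hM₁).ne'
  have hv₂ : A.valuation x₂ ≠ 0 := (lt_of_le_of_lt zero_le hM₂).ne'
  have h12 : 0 < A.valuation x₁ * A.valuation x₂ :=
    mul_pos (zero_lt_iff.mpr hv₁) (zero_lt_iff.mpr hv₂)
  rw [hsum, comp_mid_pos hD h₁ hM₁ hM₁' hs₁, comp_mid_pos hD h₂ hM₂ hM₂' hs₂, ← cls_mul hv₁ hv₂]
  rcases lt_trichotomy (A.valuation W.a₄) (A.valuation x₁ * A.valuation x₂) with hv | hv | hv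
  · obtain ⟨e, hs⟩ := leaf_MM_same_lt hD hsum hM₁ hM₁' hM₂ hM₂' hs₁ hs₂ hv
    have hM₃' : A.valuation x₃ < 1 := by
      rw [e]
      exact mul_lt_one_of_nonneg_of_lt_one_left zero_le hM₁' hM₂'.le
    rw [comp_mid_pos hD h₃ (e ▸ hv) hM₃' hs, e]
  · have hF := leaf_MM_same_eq hD hsum hM₁ hM₁' hM₂ hM₂' hs₁ hs₂ hv.symm
    rw [comp_far hD h₃ hF, hv]
  · obtain ⟨e, hs⟩ := leaf_MM_same_gt hD hsum hM₁ hM₁' hM₂ hM₂' hs₁ hs₂ hv
    have hv₃ : A.valuation x₃ ≠ 0 := by
      intro h0
      rw [h0, zero_mul] at e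
      exact pow_ne_zero 2 hβ e.symm
    have hM₃ : A.valuation W.a₄ < A.valuation x₃ := by
      by_contra hcon
      have hcon' := not_lt.mp hcon
      have : A.valuation x₃ * (A.valuation x₁ * A.valuation x₂) <
          A.valuation W.a₄ * A.valuation W.a₄ :=
        mul_lt_mul_of_le_of_lt_of_nonneg_of_pos hcon' hv zero_le hβ0
      rw [e, pow_two] at this
      exact lt_irrefl _ this
    have hM₃' : A.valuation x₃ < 1 := by
      by_contra hcon
      have hcon' := not_lt.mp hcon
      have h1 : A.valuation W.a₄ ^ 2 < A.valuation x₁ * A.valuation x₂ := by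
        rw [pow_two]
        exact mul_lt_mul'' hM₁ hM₂ zero_le zero_le
      have h2 : A.valuation x₁ * A.valuation x₂ ≤
          A.valuation x₃ * (A.valuation x₁ * A.valuation x₂) :=
        le_mul_of_one_le_left' hcon'
      rw [e] at h2
      exact absurd h1 (not_lt.mpr h2)
    rw [comp_mid_neg hD h₃ hM₃ hM₃' hs]
    refine inv_eq_of_mul_eq_one_left ?_
    rw [← cls_mul (mul_ne_zero hv₁ hv₂) hv₃, mul_comm, e, cls_sq hβ]

lemma core_MM_opp (hD : NodeData A W ρ)
    (hsum : Point.some x₁ y₁ h₁ + Point.some x₂ y₂ h₂ = Point.some x₃ y₃ h₃)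
    (hM₁ : A.valuation W.a₄ < A.valuation x₁) (hM₁' : A.valuation x₁ < 1)
    (hM₂ : A.valuation W.a₄ < A.valuation x₂) (hM₂' : A.valuation x₂ < 1)
    (hs₁ : A.valuation (y₁ / x₁ - ρ) < 1) (hs₂ : A.valuation (y₂ / x₂ + ρ) < 1) :
    Add12 A ρ (Point.some x₁ y₁ h₁) (Point.some x₂ y₂ h₂) := by
  unfold Add12
  have hβ := hD.val_be_ne_zero
  have hv₁ : A.valuation x₁ ≠ 0 := (lt_of_le_of_lt zero_le hM₁).ne'
  have hv₂ : A.valuation x₂ ≠ 0 := (lt_of_le_of_lt zero_le hM₂).ne'
  have hp₁ : 0 < A.valuation x₁ := zero_lt_iff.mpr hv₁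
  have hp₂ : 0 < A.valuation x₂ := zero_lt_iff.mpr hv₂
  rw [hsum, comp_mid_pos hD h₁ hM₁ hM₁' hs₁, comp_mid_neg hD h₂ hM₂ hM₂' hs₂]
  rcases lt_trichotomy (A.valuation x₁) (A.valuation x₂) with hv | hv | hv
  · -- swap the roles, use `-ρ`
    have hsum' : Point.some x₂ y₂ h₂ + Point.some x₁ y₁ h₁ = Point.some x₃ y₃ h₃ := by
      rw [add_comm]; exact hsum
    obtain ⟨e, hs⟩ := leaf_MM_opp_lt hD.neg hsum' hM₂ hM₂' hM₁ hM₁'
      (by rwa [sub_neg_eq_add]) (by rwa [← sub_eq_add_neg]) hv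
    rw [← sub_eq_add_neg] at hs
    have e' : A.valuation x₃ = A.valuation x₁ / A.valuation x₂ := by
      rw [← e, mul_div_assoc, div_self hv₂, mul_one]
    have hM₃ : A.valuation W.a₄ < A.valuation x₃ := by
      rw [e', lt_div_iff₀ hp₂]
      exact lt_of_le_of_lt (mul_le_of_le_one_right' hM₂'.le) hM₁
    have hM₃' : A.valuation x₃ < 1 := by
      rw [e', div_lt_one₀ hp₂]
      exact hv
    rw [comp_mid_pos hD h₃ hM₃ hM₃' hs, e', cls_div hv₁ hv₂]
  · have hG := leaf_MM_opp_eq hD hsum hM₁ hM₁' hM₂ hM₂' hs₁ hs₂ hv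
    rw [comp_good h₃ hG, hv, mul_inv_cancel]
  · obtain ⟨e, hs⟩ := leaf_MM_opp_lt hD hsum hM₁ hM₁' hM₂ hM₂' hs₁ hs₂ hv
    have e' : A.valuation x₃ = A.valuation x₂ / A.valuation x₁ := by
      rw [← e, mul_div_assoc, div_self hv₁, mul_one]
    have hM₃ : A.valuation W.a₄ < A.valuation x₃ := by
      rw [e', lt_div_iff₀ hp₁]
      exact lt_of_le_of_lt (mul_le_of_le_one_right' hM₁'.le) hM₂
    have hM₃' : A.valuation x₃ < 1 := by
      rw [e', div_lt_one₀ hp₁]
      exact hv
    rw [comp_mid_neg hD h₃ hM₃ hM₃' hs, e', cls_div hv₂ hv₁, mul_inv, inv_inv, mul_comm]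

/-- A point which is not far: zero, or an affine point with `v β < v x`. -/
def NotFar (A : ValuationSubring K) : W.Point → Prop
  | .zero => True
  | .some x _ _ => A.valuation W.a₄ < A.valuation x

omit [DecidableEq K] in
lemma notFar_some_iff {x y : K} {h : W.Nonsingular x y} :
    NotFar A (Point.some x y h) ↔ A.valuation W.a₄ < A.valuation x := Iff.rfl

/-- Additivity for two affine points that are not far, first point good or positive middle. -/
lemma add12_aux (hD : NodeData A W ρ)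
    (hsum : Point.some x₁ y₁ h₁ + Point.some x₂ y₂ h₂ = Point.some x₃ y₃ h₃)
    (hM₁ : A.valuation W.a₄ < A.valuation x₁) (hM₂ : A.valuation W.a₄ < A.valuation x₂)
    (hs₁ : 1 ≤ A.valuation x₁ ∨ A.valuation (y₁ / x₁ - ρ) < 1) :
    Add12 A ρ (Point.some x₁ y₁ h₁) (Point.some x₂ y₂ h₂) := by
  by_cases hG₁ : 1 ≤ A.valuation x₁
  · by_cases hG₂ : 1 ≤ A.valuation x₂
    · exact core_GG hD hsum hG₁ hG₂
    · have hM₂' := not_le.mp hG₂
      rcases h20_sign_or hD h₂ hM₂ hM₂' with hs | hs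
      · exact core_GM hD hsum hG₁ hM₂ hM₂' hs
      · refine Add12.of_neg_rho hD (core_GM hD.neg hsum hG₁ hM₂ hM₂' ?_)
        rwa [sub_neg_eq_add]
  · have hM₁' := not_le.mp hG₁
    have hs₁' : A.valuation (y₁ / x₁ - ρ) < 1 := hs₁.resolve_left hG₁
    by_cases hG₂ : 1 ≤ A.valuation x₂
    · have hsum' : Point.some x₂ y₂ h₂ + Point.some x₁ y₁ h₁ = Point.some x₃ y₃ h₃ := by
        rw [add_comm]; exact hsum
      exact (core_GM hD hsum' hG₂ hM₁ hM₁' hs₁').symm
    · have hM₂' := not_le.mp hG₂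
      rcases h20_sign_or hD h₂ hM₂ hM₂' with hs | hs
      · exact core_MM_same hD hsum hM₁ hM₁' hM₂ hM₂' hs₁' hs
      · exact core_MM_opp hD hsum hM₁ hM₁' hM₂ hM₂' hs₁' hs

/-- Additivity for two affine points that are not far. -/
lemma add12_affine (hD : NodeData A W ρ)
    (hsum : Point.some x₁ y₁ h₁ + Point.some x₂ y₂ h₂ = Point.some x₃ y₃ h₃)
    (hM₁ : A.valuation W.a₄ < A.valuation x₁) (hM₂ : A.valuation W.a₄ < A.valuation x₂) :
    Add12 A ρ (Point.some x₁ y₁ h₁) (Point.some x₂ y₂ h₂) := by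
  by_cases hG₁ : 1 ≤ A.valuation x₁
  · exact add12_aux hD hsum hM₁ hM₂ (Or.inl hG₁)
  · rcases h20_sign_or hD h₁ hM₁ (not_le.mp hG₁) with hs | hs
    · exact add12_aux hD hsum hM₁ hM₂ (Or.inr hs)
    · refine Add12.of_neg_rho hD (add12_aux hD.neg hsum hM₁ hM₂ (Or.inr ?_))
      rwa [sub_neg_eq_add]

/-- Additivity for two points that are not far. -/
lemma add12_notFar (hD : NodeData A W ρ) {P₁ P₂ : W.Point} (hP₁ : NotFar A P₁)
    (hP₂ : NotFar A P₂) : Add12 A ρ P₁ P₂ := by
  rcases P₁ with _ | ⟨x₁, y₁, h₁⟩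
  · have e : (Point.zero : W.Point) = 0 := rfl
    unfold Add12
    rw [e, zero_add, comp_zero, one_mul]
  rcases P₂ with _ | ⟨x₂, y₂, h₂⟩
  · have e : (Point.zero : W.Point) = 0 := rfl
    unfold Add12
    rw [e, add_zero, comp_zero, mul_one]
  rcases hsum : Point.some x₁ y₁ h₁ + Point.some x₂ y₂ h₂ with _ | ⟨x₃, y₃, h₃⟩
  · have e : (Point.zero : W.Point) = 0 := rfl
    rw [e] at hsum
    have h2 : Point.some x₂ y₂ h₂ = -Point.some x₁ y₁ h₁ := eq_neg_of_add_eq_zero_right hsum
    unfold Add12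
    rw [hsum, h2, comp_neg hD, comp_zero, mul_inv_cancel]
  · exact add12_affine hD hsum hP₁ hP₂

/-- Every point is not far, or its translate by `T` is not far. -/
lemma notFar_or (hD : NodeData A W ρ) (P : W.Point) :
    NotFar A P ∨ NotFar A (P + pointT hD) := by
  rcases P with _ | ⟨x, y, h⟩
  · exact Or.inl trivial
  · by_cases hF : A.valuation W.a₄ < A.valuation x
    · exact Or.inl hF
    · right
      have hF' := not_lt.mp hF
      by_cases hx : x = 0
      · subst hx
        have hy : y = 0 := by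
          have E := (hD.short.equation_iff 0 y).mp h.1
          have : y ^ 2 = 0 := by rw [E]; ring
          exact pow_eq_zero_iff (two_ne_zero) |>.mp this
        subst hy
        have e : Point.some 0 0 h = pointT hD := rfl
        rw [e, h20_T_add_T]
        trivial
      · obtain ⟨h', hsum⟩ := leaf_T hD h hx
        rw [hsum, notFar_some_iff, map_div₀]
        have hvx : 0 < A.valuation x := zero_lt_iff.mpr ((map_ne_zero _).mpr hx)
        refine lt_of_lt_of_le hD.be ?_
        exact (one_le_div₀ hvx).mpr hF'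

/-- **The component map is additive.** -/
theorem comp_add (hD : NodeData A W ρ) (P₁ P₂ : W.Point) :
    comp A ρ (P₁ + P₂) = comp A ρ P₁ * comp A ρ P₂ := by
  have hβ := hD.val_be_ne_zero
  have hTT := h20_T_add_T hD
  -- step 1: `P₂` not far
  have step1 : ∀ Q₁ Q₂ : W.Point, NotFar A Q₂ →
      comp A ρ (Q₁ + Q₂) = comp A ρ Q₁ * comp A ρ Q₂ := by
    intro Q₁ Q₂ hQ₂
    rcases notFar_or hD Q₁ with hQ₁ | hQ₁
    · exact add12_notFar hD hQ₁ hQ₂
    · have h1 := add12_notFar hD hQ₁ hQ₂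
      unfold Add12 at h1
      have e1 : Q₁ + Q₂ = (Q₁ + pointT hD + Q₂) + pointT hD := by
        rw [add_right_comm Q₁ (pointT hD) Q₂, add_assoc (Q₁ + Q₂), hTT, add_zero]
      rw [e1, comp_add_T hD, h1, comp_add_T hD, mul_right_comm (comp A ρ Q₁), mul_assoc,
        mul_assoc, cls_be_mul_self hβ, mul_one]
  rcases notFar_or hD P₂ with hP₂ | hP₂
  · exact step1 P₁ P₂ hP₂
  · have h1 := step1 P₁ _ hP₂
    have e1 : P₁ + P₂ = (P₁ + (P₂ + pointT hD)) + pointT hD := by
      rw [add_assoc P₁, add_assoc P₂, hTT, add_zero]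
    rw [e1, comp_add_T hD, h1, comp_add_T hD, mul_assoc, mul_assoc, cls_be_mul_self hβ, mul_one]

theorem comp_nsmul (hD : NodeData A W ρ) (n : ℕ) (P : W.Point) :
    comp A ρ (n • P) = comp A ρ P ^ n := by
  induction n with
  | zero => rw [zero_smul, pow_zero, comp_zero]
  | succ n ih => rw [succ_nsmul, comp_add hD, ih, pow_succ]

end additive

section torsion

variable [DecidableEq K] {A : ValuationSubring K} {W : Affine K} {ρ : K}

/-- **W3 deliverable**: a `p`-torsion point (`p` odd) whose `x`-coordinate is a nonunit lies in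
the middle region, `y / x` is a unit and `v x ^ p` is an even power of `v β`. -/
theorem torsion_near_node (hD : NodeData A W ρ) {p : ℕ} (hp : Odd p) {x y : K}
    (h : W.Nonsingular x y) (hP : p • Point.some x y h = 0) (hx : A.valuation x < 1) :
    x ≠ 0 ∧ A.valuation W.a₄ < A.valuation x ∧ A.valuation (y / x) = 1 ∧
      ∃ k : ℤ, A.valuation x ^ p = A.valuation W.a₄ ^ (2 * k) := by
  have hβ := hD.val_be_ne_zero
  have hc : comp A ρ (Point.some x y h) ^ p = 1 := by
    rw [← comp_nsmul hD, hP, comp_zero]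
  have hM : A.valuation W.a₄ < A.valuation x := by
    by_contra hF
    rw [comp_far hD h (not_lt.mp hF)] at hc
    obtain ⟨m, rfl⟩ := hp
    rw [pow_succ, pow_mul, pow_two, cls_be_mul_self hβ, one_pow, one_mul] at hc
    obtain ⟨k, hk⟩ := (cls_eq_one_iff hβ hβ).mp hc
    have h1 : A.valuation W.a₄ ^ (2 * k - 1) = 1 := by
      rw [zpow_sub₀ hβ, zpow_one, ← hk, div_self hβ]
    have h2 := (zpow_eq_one_iff_right₀ zero_le hD.be.ne).mp h1
    omega
  have hx0 : x ≠ 0 := h20_ne_zero_of_val_lt hM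
  have hvx : A.valuation x ≠ 0 := (map_ne_zero _).mpr hx0
  refine ⟨hx0, hM, h20_val_t hD h hM hx, ?_⟩
  have hc' : cls A W (A.valuation x ^ p) = 1 := by
    rw [cls_pow hvx]
    rcases h20_sign_or hD h hM hx with hs | hs
    · rwa [comp_mid_pos hD h hM hx hs] at hc
    · rw [comp_mid_neg hD h hM hx hs, inv_pow, inv_eq_one] at hc
      exact hc
  exact (cls_eq_one_iff hβ (pow_ne_zero p hvx)).mp hc'

/-- **W3 deliverable, valuation form**: if moreover `v β = v c0 ^ p`, then `v x` is the valuation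
of an even power of `c0`. -/
theorem torsion_near_node_val (hD : NodeData A W ρ) {p : ℕ} (hp : Odd p) {x y : K}
    (h : W.Nonsingular x y) (hP : p • Point.some x y h = 0) (hx : A.valuation x < 1)
    {c0 : K} (hc0 : A.valuation W.a₄ = A.valuation c0 ^ p) :
    A.valuation W.a₄ < A.valuation x ∧ ∃ k : ℤ, A.valuation x = A.valuation (c0 ^ (2 * k)) := by
  obtain ⟨-, hM, -, k, hk⟩ := torsion_near_node hD hp h hP hx
  refine ⟨hM, k, ?_⟩
  have hp0 : p ≠ 0 := by
    rintro rfl
    exact absurd hp (by decide)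
  rw [hc0, ← zpow_natCast (A.valuation c0) p, ← zpow_mul, mul_comm (p : ℤ), zpow_mul,
    zpow_natCast] at hk
  have := (pow_left_inj₀ zero_le zero_le hp0).mp hk
  rw [this, map_zpow₀]

end torsion

end Fermat.Agent.S05.W3
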